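import Fermat.Agent.Arith.RootsOfUnity
import Mathlib.FieldTheory.Finite.Basic
import Mathlib.RingTheory.RootsOfUnity.AlgebraicallyClosed
import Mathlib.RingTheory.Polynomial.Cyclotomic.Basic

/-!
# Residue classes lift to constants fixed by inertia
-/

set_option autoImplicit false

noncomputable section

open IsLocalRing
open Fermat.Agent.Arith

namespace Fermat.Agent.FiniteFlat

variable {A : ValuationSubring QBar} {l : ℕ}

theorem exists_root_lift (hA : A.LiesOverPrime l) (hl : l.Prime) {z : ResidueField A} (hz : z ≠ 0) :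
    ∃ m : ℕ, 0 < m ∧ ¬ l ∣ m ∧ z ^ m = 1 := by
  have := residueField_charP hA hl
  have : Fact l.Prime := ⟨hl⟩
  let := ZMod.algebra (ResidueField A) l
  have hzl : IsIntegral (ZMod l) z := isIntegral_residue hA hl z
  let E := IntermediateField.adjoin (ZMod l) ({z} : Set (ResidueField A))
  have : FiniteDimensional (ZMod l) E := IntermediateField.adjoin.finiteDimensional hzl
  have : Finite E := Module.finite_of_finite (ZMod l)
  have := Fintype.ofFinite E
  have hz' : (⟨z, IntermediateField.mem_adjoin_simple_self _ z⟩ : E) ≠ 0 := fun e =>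
    hz (congrArg Subtype.val e)
  refine ⟨Fintype.card E - 1, Nat.sub_pos_of_lt Fintype.one_lt_card, fun hdvd => ?_, ?_⟩
  · have h1 : ((Fintype.card E - 1 : ℕ) : ResidueField A) = 0 :=
      (CharP.cast_eq_zero_iff _ l _).mpr hdvd
    have h2 : ((Fintype.card E : ℕ) : ResidueField A) = 0 := by
      rw [← map_natCast (algebraMap E (ResidueField A)), Nat.cast_card_eq_zero, map_zero]
    rw [Nat.cast_sub Fintype.card_pos, h2, Nat.cast_one, zero_sub, neg_eq_zero] at h1
    exact one_ne_zero h1
  · exact congrArg Subtype.val (FiniteField.pow_card_sub_one_eq_one _ hz')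

/-- Nonzero residue classes lift to roots of unity of order prime to `l`. -/
theorem exists_rootOfUnity_lift (hA : A.LiesOverPrime l) (hl : l.Prime) {z : ResidueField A}
    (hz : z ≠ 0) :
    ∃ (a : A) (m : ℕ), 0 < m ∧ ¬ l ∣ m ∧ (a : QBar) ^ m = 1 ∧ residue A a = z := by
  classical
  obtain ⟨m, hm, hlm, hzm⟩ := exists_root_lift hA hl hz
  have : NeZero (m : QBar) := ⟨Nat.cast_ne_zero.mpr hm.ne'⟩
  obtain ⟨ζ, hζ⟩ := HasEnoughRootsOfUnity.exists_primitiveRoot QBar m
  have hmemA : ∀ μ ∈ Polynomial.nthRootsFinset m (1 : QBar), μ ∈ A := fun μ hμ =>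
    mem_of_isIntegral A (IsIntegral.of_pow hm
      ((Polynomial.mem_nthRootsFinset hm (1 : QBar)).mp hμ ▸ isIntegral_one))
  have hfac : (Polynomial.X ^ m - 1 : Polynomial A) =
      ∏ μ ∈ (Polynomial.nthRootsFinset m (1 : QBar)).attach,
        (Polynomial.X - Polynomial.C (⟨μ.1, hmemA μ.1 μ.2⟩ : A)) := by
    apply Polynomial.map_injective A.subtype Subtype.val_injective
    rw [Polynomial.map_prod]
    simp only [Polynomial.map_sub, Polynomial.map_pow, Polynomial.map_X, Polynomial.map_one,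
      Polynomial.map_C]
    rw [Polynomial.X_pow_sub_one_eq_prod hm hζ]
    exact (Finset.prod_attach _ (fun μ => Polynomial.X - Polynomial.C μ)).symm
  have h1 := congrArg (fun P => Polynomial.eval₂ (residue A) z P) hfac
  simp only [Polynomial.eval₂_sub, Polynomial.eval₂_pow, Polynomial.eval₂_X, Polynomial.eval₂_one,
    Polynomial.eval₂_finsetProd, Polynomial.eval₂_C, hzm, sub_self] at h1
  obtain ⟨μ, -, hμ⟩ := Finset.prod_eq_zero_iff.mp h1.symm
  exact ⟨⟨μ.1, hmemA μ.1 μ.2⟩, m, hm, hlm,
    (Polynomial.mem_nthRootsFinset hm (1 : QBar)).mp μ.2, (sub_eq_zero.mp hμ).symm⟩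

/-- Residue classes lift to constants fixed by inertia. -/
theorem exists_fixed_lift (hA : A.LiesOverPrime l) (hl : l.Prime) (z : ResidueField A) :
    ∃ a : A, residue A a = z ∧ ∀ σ ∈ A.inertiaSubgroupIn ℚ, σ (a : QBar) = a := by
  rcases eq_or_ne z 0 with rfl | hz
  · exact ⟨0, map_zero _, fun σ _ => map_zero σ⟩
  obtain ⟨a, m, -, hlm, ham, haz⟩ := exists_rootOfUnity_lift hA hl hz
  exact ⟨a, haz, fun σ hσ => inertia_root hA hl hσ ham hlm⟩

end Fermat.Agent.FiniteFlat

end
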