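import Fermat.Agent.EichlerShimura.AlgShortcuts
import Fermat.Agent.FiniteFlat.Reduction
import Fermat.Agent.RedTorsion.Series
import Fermat.Prelude.Def_ModularCurve_ReductionModL

/-!
# The reduction of places of `X₀(N)`

Good reduction of the modular function field, compatible with the coefficientwise reduction of
integral series, gives the reduction data of the prelude, and the reduction of divisors computes
`reductionModL` on torsion classes.
-/

set_option autoImplicit false
set_option linter.unusedSectionVars false

noncomputable section

open IsLocalRing ModularCurve AlgebraicCurve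
open Fermat.Agent.Arith Fermat.Agent.FF Fermat.Agent.RedTorsion

namespace Fermat.Agent.FiniteFlat

attribute [local instance 10000] serModule serSMul

variable {A : ValuationSubring QBar} {N : ℕ} [NeZero N]

/-- Integral series of the field lie in the lattice and are reduced coefficientwise. -/
def SeriesCompat
    (h : GoodRed A (modularFunctionFieldBar N) (modularFunctionFieldFullC (ResidueField A) N)) :
    Prop :=
  ∀ (y : LaurentSeries A) (hy : coeffMap A.subtype y ∈ modularFunctionFieldBar N),
    ∃ hm : (⟨_, hy⟩ : modularFunctionFieldBar N) ∈ h.S,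
      (redF h.toRedLattice ⟨_, hm⟩ : LaurentSeries (ResidueField A)) = coeffMap (residue A) y

variable [IsFunctionField QBar (modularFunctionFieldBar N)]
  [IsFunctionField (ResidueField A) (modularFunctionFieldFullC (ResidueField A) N)]
  {h : GoodRed A (modularFunctionFieldBar N) (modularFunctionFieldFullC (ResidueField A) N)}
  (hser : SeriesCompat h)

include hser in
theorem isPlaceReductionModL_redPlace : IsPlaceReductionModL A N (redPlace h) := by
  refine ⟨fun P => by rw [deg_eq_one, deg_eq_one], fun y hy hyk hne D hD Q => ?_⟩
  obtain ⟨hm, hr⟩ := hser y hy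
  have he : redF h.toRedLattice ⟨_, hm⟩ = ⟨coeffMap (residue A) y, hyk⟩ := Subtype.ext hr
  have hne' : redF h.toRedLattice ⟨_, hm⟩ ≠ 0 := fun e => hne (congrArg Subtype.val (he.symm.trans e))
  have hD' : D = div QBar ((⟨coeffMap A.subtype y, hy⟩ : modularFunctionFieldBar N)) :=
    Finsupp.ext fun P => hD P
  rw [hD', ← redDiv_apply, redDiv_div h ⟨_, hm⟩ hne', div_apply, he]

include hser in
theorem reductionInputsModL_of_goodRed (hgen : PrincipalGeneratedByIntegral A (residue A) N) :
    ReductionInputsModL A N :=
  ⟨redPlace h, isPlaceReductionModL_redPlace hser, hgen⟩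

include hser in
/-- On torsion classes `reductionModL` is the reduction of divisors. -/
theorem reductionModL_mk_of_torsion (hgen : PrincipalGeneratedByIntegral A (residue A) N)
    (D : Divisor.degZero (K := QBar) (F := modularFunctionFieldBar N)) {n : ℕ} (hn : n ≠ 0)
    (hD : (n : ℤ) • Pic0.mk D = 0) :
    reductionModL A N (Pic0.mk D) =
      Pic0.mk ⟨redDiv h D, Divisor.mem_degZero.mpr (by rw [degree_redDiv]; exact D.2)⟩ := by
  have hin := reductionInputsModL_of_goodRed hser hgen
  rw [reductionModL_mk hin]
  refine congrArg Pic0.mk (Subtype.ext ?_)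
  rw [coe_reductionDegZeroAlong]
  set r' := placeReductionModL hin
  have hmem : ((n : ℤ) • D : Divisor.degZero (K := QBar) (F := modularFunctionFieldBar N)).1 ∈
      Divisor.principal (K := QBar) (F := modularFunctionFieldBar N) := by
    have h1 : ((QuotientAddGroup.mk ((n : ℤ) • D) : Pic0 QBar (modularFunctionFieldBar N))) = 0 := by
      rw [QuotientAddGroup.mk_zsmul]
      exact hD
    exact AddSubgroup.mem_addSubgroupOf.mp ((QuotientAddGroup.eq_zero_iff ((n : ℤ) • D)).mp h1)
  have key : ∀ E ∈ Divisor.principal (K := QBar) (F := modularFunctionFieldBar N),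
      Finsupp.mapDomain r' E = redDiv h E := by
    intro E hE
    have hE' := hgen hE
    clear hE
    induction hE' using AddSubgroup.closure_induction with
    | mem E hE =>
      obtain ⟨y, hy, hyk, hne, hEy⟩ := hE
      ext Q
      rw [(isPlaceReductionModL_placeReductionModL hin).2 y hy hyk hne E hEy Q, redDiv_apply,
        (isPlaceReductionModL_redPlace hser).2 y hy hyk hne E hEy Q]
    | zero => simp
    | add E E' _ _ hE hE' => rw [Finsupp.mapDomain_add, hE, hE', map_add]
    | neg E _ hE =>
      rw [← Finsupp.mapDomain.addMonoidHom_apply, map_neg, Finsupp.mapDomain.addMonoidHom_apply, hE,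
        map_neg]
  have h2 := key _ hmem
  ext Q
  have h3 := congrArg (fun E => E Q) h2
  rw [show ((((n : ℤ) • D : Divisor.degZero (K := QBar) (F := modularFunctionFieldBar N)).1)) =
    (n : ℤ) • D.1 from rfl, ← Finsupp.mapDomain.addMonoidHom_apply, map_zsmul, map_zsmul,
    Finsupp.mapDomain.addMonoidHom_apply] at h3
  simp only [Finsupp.smul_apply, smul_eq_mul] at h3
  exact mul_left_cancel₀ (Int.natCast_ne_zero.mpr hn) h3

end Fermat.Agent.FiniteFlat
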