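import Fermat.Agent.FiniteFlat.GalOrder
import Mathlib.RingTheory.HopfAlgebra.Basic
import Mathlib.RingTheory.Bialgebra.Convolution
import Mathlib.RingTheory.TensorProduct.Maps
import Mathlib.LinearAlgebra.LinearIndependent.Basic

/-!
# The Hopf algebra of a Galois order

A `GalOrder ℓ M` gives a finite flat cocommutative Hopf algebra over `ℤ_(ℓ)` whose `ℚ̄`-points
are `M`, equivariantly.
-/

set_option autoImplicit false

noncomputable section

open scoped TensorProduct
open Fermat.Agent.Arith

namespace Fermat.Agent.FiniteFlat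

/-- A finite algebra with an embedding as an order in the equivariant functions on `M`. -/
structure FnModel (l : ℕ) (M : Type) [AddCommGroup M] [DistribMulAction GQ M] (A : Type)
    [CommRing A] [Algebra (Zl l) A] [Module.Finite (Zl l) A] [Module.Free (Zl l) A] where
  ι : A →ₐ[Zl l] (M → QBar)
  injective : Function.Injective ι
  equivariant : ∀ (f : A) (σ : GQ) (m : M), ι f (σ • m) = σ (ι f m)
  separates : ∀ m m', (∀ f : A, ι f m = ι f m') → m = m'
  comul : ∀ f : A, ∃ (n : ℕ) (a b : Fin n → A), ∀ x y, ι f (x + y) = ∑ i, ι (a i) x * ι (b i) y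
  neg : ∀ f : A, ∃ g : A, ι g = fun x => ι f (-x)
  indep : LinearIndependent QBar fun i => ι (Module.Free.chooseBasis (Zl l) A i)
  card : Nat.card (Module.Free.ChooseBasisIndex (Zl l) A) = Nat.card M
  exists_counit : ∀ f : A, ∃ c : Zl l, ((c : ℚ) : QBar) = ι f 0

namespace FnModel

variable {l : ℕ} {M : Type} [AddCommGroup M] [DistribMulAction GQ M] {A : Type} [CommRing A]
  [Algebra (Zl l) A] [Module.Finite (Zl l) A] [Module.Free (Zl l) A] (O : FnModel l M A)

/-- `a ⊗ b ↦ ((x, y) ↦ a x * b y)`. -/
def evalPair {P : Type*} [CommRing P] [Algebra (Zl l) P] {Y : Type*}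
    (κ : P →ₐ[Zl l] (Y → QBar)) : A ⊗[Zl l] P →ₐ[Zl l] (M × Y → QBar) :=
  Algebra.TensorProduct.lift
    ((AlgHom.pi (R := Zl l) (A := fun _ : M × Y => QBar)
      fun xy => (Pi.evalAlgHom (Zl l) (fun _ : M => QBar) xy.1).comp O.ι))
    ((AlgHom.pi (R := Zl l) (A := fun _ : M × Y => QBar)
      fun xy => (Pi.evalAlgHom (Zl l) (fun _ : Y => QBar) xy.2).comp κ))
    fun _ _ => Commute.all _ _

@[simp]
theorem evalPair_tmul {P : Type*} [CommRing P] [Algebra (Zl l) P] {Y : Type*}
    (κ : P →ₐ[Zl l] (Y → QBar)) (a : A) (b : P) (xy : M × Y) :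
    O.evalPair κ (a ⊗ₜ b) xy = O.ι a xy.1 * κ b xy.2 := by
  simp [evalPair]

theorem evalPair_injective {P : Type*} [CommRing P] [Algebra (Zl l) P] {Y : Type*}
    {κ : P →ₐ[Zl l] (Y → QBar)} (hκ : Function.Injective κ) :
    Function.Injective (O.evalPair κ) := by
  rw [injective_iff_map_eq_zero]
  intro z hz
  obtain ⟨c, rfl⟩ :=
    (TensorProduct.equivFinsuppOfBasisLeft (Module.Free.chooseBasis (Zl l) A)).symm.surjective z
  rw [TensorProduct.equivFinsuppOfBasisLeft_symm_apply] at hz ⊢
  refine Finset.sum_eq_zero fun i hi => ?_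
  suffices c i = 0 by simp [this]
  apply hκ
  rw [map_zero]
  funext y
  refine linearIndependent_iff'.mp O.indep c.support (fun j => κ (c j) y) ?_ i hi
  funext x
  have := congrFun hz (x, y)
  simp only [Finsupp.sum, map_sum, Finset.sum_apply, evalPair_tmul, Pi.zero_apply] at this
  simp only [Finset.sum_apply, Pi.smul_apply, smul_eq_mul, Pi.zero_apply]
  exact (Finset.sum_congr rfl fun j _ => mul_comm _ _).trans this

/-- The map to functions on `M × M`. -/
def evalPair₂ : A ⊗[Zl l] A →ₐ[Zl l] (M × M → QBar) := O.evalPair O.ι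

@[simp]
theorem evalPair₂_tmul (a b : A) (x y : M) :
    O.evalPair₂ (a ⊗ₜ b) (x, y) = O.ι a x * O.ι b y :=
  O.evalPair_tmul _ a b (x, y)

theorem evalPair₂_injective : Function.Injective O.evalPair₂ :=
  O.evalPair_injective O.injective

/-- Translation of functions. -/
def pullAdd : A →ₐ[Zl l] (M × M → QBar) :=
  AlgHom.pi (R := Zl l) (A := fun _ : M × M => QBar)
    fun xy => (Pi.evalAlgHom (Zl l) (fun _ : M => QBar) (xy.1 + xy.2)).comp O.ι

theorem pullAdd_mem_range (f : A) : O.pullAdd f ∈ O.evalPair₂.range := by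
  obtain ⟨n, a, b, h⟩ := O.comul f
  refine ⟨∑ i, a i ⊗ₜ b i, funext fun ⟨x, y⟩ => ?_⟩
  rw [AlgHom.toRingHom_eq_coe, RingHom.coe_coe, map_sum, Finset.sum_apply]
  simp only [evalPair₂_tmul]
  exact (h x y).symm

/-- Comultiplication. -/
def comulHom : A →ₐ[Zl l] A ⊗[Zl l] A :=
  (AlgEquiv.ofInjective O.evalPair₂ O.evalPair₂_injective).symm.toAlgHom.comp
    (O.pullAdd.codRestrict _ O.pullAdd_mem_range)

@[simp]
theorem evalPair₂_comulHom (f : A) (x y : M) :
    O.evalPair₂ (O.comulHom f) (x, y) = O.ι f (x + y) :=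
  congrFun (congrArg Subtype.val ((AlgEquiv.ofInjective O.evalPair₂
    O.evalPair₂_injective).apply_symm_apply ⟨O.pullAdd f, O.pullAdd_mem_range f⟩)) (x, y)

theorem zlToQBar_injective : Function.Injective fun c : Zl l => ((c : ℚ) : QBar) :=
  Rat.cast_injective.comp Subtype.val_injective

/-- The value at `0`. -/
def counitVal (f : A) : Zl l := (O.exists_counit f).choose

theorem counitVal_spec (f : A) : ((O.counitVal f : ℚ) : QBar) = O.ι f 0 :=
  (O.exists_counit f).choose_spec

theorem algebraMap_zl (c : Zl l) (m : M) :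
    O.ι (algebraMap (Zl l) A c) m = ((c : ℚ) : QBar) := by
  rw [AlgHom.commutes, Pi.algebraMap_apply,
    IsScalarTower.algebraMap_apply (Zl l) ℚ QBar, eq_ratCast]
  rfl

/-- Counit. -/
def counitHom : A →ₐ[Zl l] Zl l where
  toFun := O.counitVal
  map_one' := zlToQBar_injective (by simp [O.counitVal_spec])
  map_mul' f g := zlToQBar_injective (by simp [O.counitVal_spec])
  map_zero' := zlToQBar_injective (by simp [O.counitVal_spec])
  map_add' f g := zlToQBar_injective (by simp [O.counitVal_spec])
  commutes' c := zlToQBar_injective (by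
    show ((O.counitVal (algebraMap (Zl l) A c) : ℚ) : QBar) = _
    rw [O.counitVal_spec, O.algebraMap_zl]
    rfl)

@[simp]
theorem coe_counitHom (f : A) : ((O.counitHom f : ℚ) : QBar) = O.ι f 0 :=
  O.counitVal_spec f

/-- The triple evaluation map. -/
def evalPair₃ : A ⊗[Zl l] (A ⊗[Zl l] A) →ₐ[Zl l] (M × (M × M) → QBar) :=
  O.evalPair O.evalPair₂

@[simp]
theorem evalPair₃_tmul (a : A) (t : A ⊗[Zl l] A) (x : M) (yz : M × M) :
    O.evalPair₃ (a ⊗ₜ t) (x, yz) = O.ι a x * O.evalPair₂ t yz :=
  O.evalPair_tmul _ a t (x, yz)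

theorem coassoc_aux (t : A ⊗[Zl l] A) (c : A) (x y z : M) :
    O.evalPair₃ (Algebra.TensorProduct.assoc (Zl l) (Zl l) (Zl l) A A A (t ⊗ₜ c))
      (x, (y, z)) = O.evalPair₂ t (x, y) * O.ι c z := by
  induction t using TensorProduct.induction_on with
  | zero => simp
  | tmul a b => simp [mul_assoc]
  | add s t hs ht => simp [TensorProduct.add_tmul, hs, ht, add_mul]

theorem coassoc_left (t : A ⊗[Zl l] A) (x y z : M) :
    O.evalPair₃ (Algebra.TensorProduct.assoc (Zl l) (Zl l) (Zl l) A A A
      (Algebra.TensorProduct.map O.comulHom (AlgHom.id (Zl l) A) t)) (x, (y, z))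
      = O.evalPair₂ t (x + y, z) := by
  induction t using TensorProduct.induction_on with
  | zero => simp
  | tmul a b => simp [coassoc_aux]
  | add s t hs ht => simp [hs, ht]

theorem coassoc_right (t : A ⊗[Zl l] A) (x y z : M) :
    O.evalPair₃ (Algebra.TensorProduct.map (AlgHom.id (Zl l) A) O.comulHom t) (x, (y, z))
      = O.evalPair₂ t (x, y + z) := by
  induction t using TensorProduct.induction_on with
  | zero => simp
  | tmul a b => simp
  | add s t hs ht => simp [hs, ht]

theorem counit_left_aux (t : A ⊗[Zl l] A) (y : M) :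
    O.ι (Algebra.TensorProduct.lid (Zl l) A
      (Algebra.TensorProduct.map O.counitHom (AlgHom.id (Zl l) A) t)) y = O.evalPair₂ t (0, y) := by
  induction t using TensorProduct.induction_on with
  | zero => simp
  | tmul a b => simp [zl_smul]
  | add s t hs ht => simp [hs, ht]

theorem counit_right_aux (t : A ⊗[Zl l] A) (x : M) :
    O.ι (Algebra.TensorProduct.rid (Zl l) (Zl l) A
      (Algebra.TensorProduct.map (AlgHom.id (Zl l) A) O.counitHom t)) x = O.evalPair₂ t (x, 0) := by
  induction t using TensorProduct.induction_on with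
  | zero => simp
  | tmul a b => simp [zl_smul, mul_comm]
  | add s t hs ht => simp [hs, ht]

theorem coassoc_eq :
    (Algebra.TensorProduct.assoc (Zl l) (Zl l) (Zl l) A A A).toAlgHom.comp
      ((Algebra.TensorProduct.map O.comulHom (.id (Zl l) A)).comp O.comulHom)
      = (Algebra.TensorProduct.map (.id (Zl l) A) O.comulHom).comp O.comulHom := by
  refine AlgHom.ext fun f => O.evalPair_injective O.evalPair₂_injective ?_
  funext ⟨x, y, z⟩
  show O.evalPair₃ _ (x, (y, z)) = O.evalPair₃ _ (x, (y, z))
  rw [AlgHom.comp_apply, AlgHom.comp_apply, AlgHom.comp_apply]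
  exact (coassoc_left O _ x y z).trans (Eq.trans (by
    rw [evalPair₂_comulHom, evalPair₂_comulHom, add_assoc]) (coassoc_right O _ x y z).symm)

theorem counit_left_eq : (Algebra.TensorProduct.map O.counitHom (.id (Zl l) A)).comp O.comulHom
      = (Algebra.TensorProduct.lid (Zl l) A).symm := by
  refine AlgHom.ext fun f => (Algebra.TensorProduct.lid (Zl l) A).injective ?_
  refine O.injective (funext fun y => ?_)
  rw [AlgHom.comp_apply, counit_left_aux, evalPair₂_comulHom, zero_add]
  exact congrFun (congrArg O.ι ((Algebra.TensorProduct.lid (Zl l) A).apply_symm_apply f).symm) y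

theorem counit_right_eq : (Algebra.TensorProduct.map (.id (Zl l) A) O.counitHom).comp O.comulHom
      = (Algebra.TensorProduct.rid (Zl l) (Zl l) A).symm := by
  refine AlgHom.ext fun f => (Algebra.TensorProduct.rid (Zl l) (Zl l) A).injective ?_
  refine O.injective (funext fun x => ?_)
  rw [AlgHom.comp_apply, counit_right_aux, evalPair₂_comulHom, add_zero]
  exact congrFun
    (congrArg O.ι ((Algebra.TensorProduct.rid (Zl l) (Zl l) A).apply_symm_apply f).symm) x

/-- The bialgebra structure. -/
@[reducible] def bialgebra : Bialgebra (Zl l) A :=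
  Bialgebra.ofAlgHom O.comulHom O.counitHom O.coassoc_eq O.counit_left_eq O.counit_right_eq

theorem neg_choose (f : A) (x : M) : O.ι (O.neg f).choose x = O.ι f (-x) :=
  congrFun (O.neg f).choose_spec x

/-- Antipode. -/
def antipodeMap : A →ₗ[Zl l] A where
  toFun f := (O.neg f).choose
  map_add' f g := O.injective (funext fun x =>
    (O.neg_choose (f + g) x).trans (by simp [O.neg_choose]))
  map_smul' c f := O.injective (funext fun x =>
    (O.neg_choose (c • f) x).trans (by simp [O.neg_choose, zl_smul]))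

@[simp]
theorem antipodeMap_apply (f : A) (x : M) : O.ι (O.antipodeMap f) x = O.ι f (-x) :=
  congrFun (O.neg f).choose_spec x

theorem mul_rTensor_antipode (t : A ⊗[Zl l] A) (x : M) :
    O.ι (LinearMap.mul' (Zl l) A (O.antipodeMap.rTensor A t)) x = O.evalPair₂ t (-x, x) := by
  induction t using TensorProduct.induction_on with
  | zero => simp
  | tmul a b => simp
  | add s t hs ht => simp [hs, ht]

theorem mul_lTensor_antipode (t : A ⊗[Zl l] A) (x : M) :
    O.ι (LinearMap.mul' (Zl l) A (O.antipodeMap.lTensor A t)) x = O.evalPair₂ t (x, -x) := by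
  induction t using TensorProduct.induction_on with
  | zero => simp
  | tmul a b => simp
  | add s t hs ht => simp [hs, ht]

/-- The Hopf algebra structure. -/
@[reducible] def hopfAlgebra : HopfAlgebra (Zl l) A where
  __ := O.bialgebra
  antipode := O.antipodeMap
  mul_antipode_rTensor_comul := LinearMap.ext fun f => O.injective (funext fun x => by
    show O.ι (LinearMap.mul' (Zl l) A (O.antipodeMap.rTensor A (O.comulHom f))) x
      = O.ι (algebraMap (Zl l) A (O.counitHom f)) x
    rw [mul_rTensor_antipode, evalPair₂_comulHom, neg_add_cancel, O.algebraMap_zl, coe_counitHom])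
  mul_antipode_lTensor_comul := LinearMap.ext fun f => O.injective (funext fun x => by
    show O.ι (LinearMap.mul' (Zl l) A (O.antipodeMap.lTensor A (O.comulHom f))) x
      = O.ι (algebraMap (Zl l) A (O.counitHom f)) x
    rw [mul_lTensor_antipode, evalPair₂_comulHom, add_neg_cancel, O.algebraMap_zl, coe_counitHom])

theorem evalPair₂_comm (t : A ⊗[Zl l] A) (x y : M) :
    O.evalPair₂ (TensorProduct.comm (Zl l) A A t) (x, y) = O.evalPair₂ t (y, x) := by
  induction t using TensorProduct.induction_on with
  | zero => simp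
  | tmul a b => simp [mul_comm]
  | add s t hs ht => simp [hs, ht]

theorem comm_comul (f : A) :
    TensorProduct.comm (Zl l) A A (O.comulHom f) = O.comulHom f := by
  refine O.evalPair₂_injective (funext fun ⟨x, y⟩ => ?_)
  rw [evalPair₂_comm, evalPair₂_comulHom, evalPair₂_comulHom, add_comm]

/-- Evaluation at a point. -/
def evalAt (m : M) : A →ₐ[Zl l] QBar :=
  (Pi.evalAlgHom (Zl l) (fun _ : M => QBar) m).comp O.ι

@[simp]
theorem evalAt_apply (m : M) (f : A) : O.evalAt m f = O.ι f m := rfl

theorem evalAt_injective : Function.Injective O.evalAt := fun m m' h =>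
  O.separates m m' fun f => DFunLike.congr_fun h f

include O in
theorem evalAt_surjective [Finite M] : Function.Surjective O.evalAt := by
  classical
  intro φ
  by_contra! hne
  have := Fintype.ofFinite M
  let χ : Option M → (A →ₐ[Zl l] QBar) := fun o => o.elim φ O.evalAt
  have hχ : Function.Injective χ := by
    rintro (_ | m) (_ | m') h
    · rfl
    · exact absurd h.symm (hne m')
    · exact absurd h (hne m)
    · exact congrArg some (O.evalAt_injective h)
  have hmon : LinearIndependent QBar fun o => ((χ o : A →* QBar) : A → QBar) :=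
    (linearIndependent_monoidHom A QBar).comp (fun o => (χ o : A →* QBar)) fun a b h =>
      hχ (AlgHom.ext fun f => DFunLike.congr_fun h f)
  have hind : LinearIndependent QBar
      fun o => fun i => χ o (Module.Free.chooseBasis (Zl l) A i) := by
    rw [Fintype.linearIndependent_iff] at hmon ⊢
    intro g hg
    refine hmon g (funext fun f => ?_)
    rw [← (Module.Free.chooseBasis (Zl l) A).sum_repr f]
    simp only [Finset.sum_apply, Pi.smul_apply, smul_eq_mul, Pi.zero_apply, MonoidHom.coe_coe,
      map_sum, map_smul, Finset.mul_sum]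
    rw [Finset.sum_comm]
    refine Finset.sum_eq_zero fun i _ => ?_
    have h2 := congrFun hg i
    simp only [Finset.sum_apply, Pi.smul_apply, smul_eq_mul, Pi.zero_apply] at h2
    simp only [mul_smul_comm, ← Finset.smul_sum, h2, smul_zero]
  have hle := hind.fintype_card_le_finrank
  rw [Module.finrank_pi, Fintype.card_option, ← Nat.card_eq_fintype_card,
    ← Nat.card_eq_fintype_card, O.card] at hle
  omega

/-- The points. -/
def pointsEquiv [Finite M] : WithConv (A →ₐ[Zl l] QBar) ≃ M :=
  (WithConv.equiv _).trans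
    (Equiv.ofBijective O.evalAt ⟨O.evalAt_injective, O.evalAt_surjective⟩).symm

theorem ofConv_apply_pointsEquiv [Finite M] (f : WithConv (A →ₐ[Zl l] QBar)) (h : A) :
    f h = O.ι h (O.pointsEquiv f) := by
  have := (Equiv.ofBijective O.evalAt ⟨O.evalAt_injective, O.evalAt_surjective⟩).apply_symm_apply
    ((WithConv.equiv _) f)
  exact (DFunLike.congr_fun this h).symm

theorem lift_evalPair₂ (f g : A →ₐ[Zl l] QBar) (x y : M) (hf : ∀ h, f h = O.ι h x)
    (hg : ∀ h, g h = O.ι h y) (t : A ⊗[Zl l] A) :
    Algebra.TensorProduct.lift f g (fun _ _ => Commute.all _ _) t = O.evalPair₂ t (x, y) := by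
  induction t using TensorProduct.induction_on with
  | zero => simp
  | tmul a b => simp [hf, hg]
  | add s t hs ht => simp [hs, ht]

include O in
/-- The Hopf algebra with points `M`. -/
theorem exists_hopfAlgebra [Finite M] :
    ∃ (H : Type) (_ : CommRing H) (_ : HopfAlgebra (Zl l) H),
      Module.Finite (Zl l) H ∧ Module.Flat (Zl l) H ∧ Coalgebra.IsCocomm (Zl l) H ∧
      ∃ e : WithConv (H →ₐ[Zl l] QBar) ≃ M,
        (∀ f g, e (f * g) = e f + e g) ∧
        ∀ (σ : GQ) (f g : WithConv (H →ₐ[Zl l] QBar)), (∀ h : H, g h = σ (f h)) →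
          e g = σ • e f := by
  let := O.hopfAlgebra
  refine ⟨A, inferInstance, O.hopfAlgebra, inferInstanceAs (Module.Finite (Zl l) A), inferInstance,
    ⟨LinearMap.ext O.comm_comul⟩, O.pointsEquiv, fun f g => ?_, fun σ f g hfg => ?_⟩
  · refine O.separates _ _ fun h => ?_
    rw [← O.ofConv_apply_pointsEquiv (f * g) h, AlgHom.convMul_apply,
      O.lift_evalPair₂ _ _ _ _ (O.ofConv_apply_pointsEquiv f) (O.ofConv_apply_pointsEquiv g)]
    exact O.evalPair₂_comulHom h _ _
  · refine O.separates _ _ fun h => ?_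
    rw [← O.ofConv_apply_pointsEquiv g h, hfg, O.ofConv_apply_pointsEquiv f h, O.equivariant h]

end FnModel

namespace GalOrder

variable {l : ℕ} {M : Type} [AddCommGroup M] [DistribMulAction GQ M] (O : GalOrder l M)

/-- A Galois order as a function model. -/
def fnModel [Finite M] : FnModel l M O.H where
  ι := O.H.val
  injective := Subtype.val_injective
  equivariant f := O.equivariant f.1 f.2
  separates m m' h := O.separates m m' fun f hf => h ⟨f, hf⟩
  comul f := by
    obtain ⟨n, a, b, ha, hb, h⟩ := O.comul f.1 f.2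
    exact ⟨n, fun i => ⟨a i, ha i⟩, fun i => ⟨b i, hb i⟩, h⟩
  neg f := ⟨⟨_, O.neg f.1 f.2⟩, rfl⟩
  indep := O.linearIndependent_basis
  card := O.card_basis
  exists_counit f := O.exists_zl_of_equivariant_zero f.2

include O in
/-- A Galois order provides a finite flat cocommutative Hopf algebra with points `M`. -/
theorem exists_hopfAlgebra [Finite M] :
    ∃ (H : Type) (_ : CommRing H) (_ : HopfAlgebra (Zl l) H),
      Module.Finite (Zl l) H ∧ Module.Flat (Zl l) H ∧ Coalgebra.IsCocomm (Zl l) H ∧
      ∃ e : WithConv (H →ₐ[Zl l] QBar) ≃ M,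
        (∀ f g, e (f * g) = e f + e g) ∧
        ∀ (σ : GQ) (f g : WithConv (H →ₐ[Zl l] QBar)), (∀ h : H, g h = σ (f h)) →
          e g = σ • e f :=
  O.fnModel.exists_hopfAlgebra

end GalOrder

end Fermat.Agent.FiniteFlat
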