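import Fermat.Agent.FiniteFlat.TorsionOrder
import Fermat.Agent.GaloisReps.Flat
import Fermat.Agent.GaloisReps.OfInjective

/-!
# Flatness at `p` of Hecke–Galois data from the Galois orders on the torsion of `J₀(N)`
-/

set_option autoImplicit false

noncomputable section

open AlgebraicCurve ModularCurve
open Fermat.Agent.Arith
open Fermat.Agent.GaloisReps

namespace Fermat.Agent.FiniteFlat

/-- The `p`-power torsion of `J₀(N)` sits, equivariantly, in a module with a Galois order. -/
theorem exists_galOrder_jTors {N p : ℕ} [NeZero N] [Fact p.Prime] (hpN : ¬ p ∣ N) (M : ℕ) :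
    ∃ (X : Type) (_ : AddCommGroup X) (_ : DistribMulAction AbsGal X)
      (i : JTors N p M →+ X), Function.Injective i ∧
        (∀ σ x, i (galTors M σ x) = σ • i x) ∧ Nonempty (GalOrder p X) := by
  have hp : p.Prime := Fact.out
  obtain ⟨A, hA⟩ := Arith.exists_liesOverPrime hp
  let := torsionAction N (p ^ M)
  have : Finite (Submodule.torsionBy ℤ (JZero N) ((p ^ M : ℕ) : ℤ)) :=
    finite_torsionBy (pow_pos hp.pos M)
  obtain ⟨O, -⟩ := exists_galOrder_of_finite hp hpN hA
    (Submodule.torsionBy ℤ (JZero N) ((p ^ M : ℕ) : ℤ)).subtype.toAddMonoidHom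
    Subtype.val_injective fun g x => rfl
  refine ⟨Submodule.torsionBy ℤ (JZero N) ((p ^ M : ℕ) : ℤ), inferInstance, inferInstance,
    { toFun := fun x => ⟨(x : JZero N), x.2⟩
      map_zero' := rfl
      map_add' := fun _ _ => rfl },
    fun x y h => Subtype.ext (congrArg Subtype.val h :), fun σ x => rfl, ⟨O⟩⟩

/-- The levels of the model of `J₀(N)` carry Galois orders. -/
theorem nonempty_galOrder_modelOfCongruence {N p : ℕ} [NeZero N] [Fact p.Prime] (hpN : ¬ p ∣ N)
    (hES : CongruenceProperty N p) (M : ℕ) :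
    Nonempty (GalOrder p (ModelLevel (modelOfCongruence hES) M)) := by
  obtain ⟨X, _, _, i, hi, hσ, ⟨O⟩⟩ := exists_galOrder_jTors (N := N) hpN M
  exact nonempty_galOrder_modelLevel (torsionIso N p (conjProperty N)) (torsionGalois N p hES) M i
    hi hσ O

variable {p N : ℕ} [NeZero N] {S : Finset ℕ}
  {O : Type} [CommRing O] [IsDomain O] [IsDiscreteValuationRing O]
  [IsAdicComplete (IsLocalRing.maximalIdeal O) O]
  {θ : CuspForm.heckeAlgebra N 2 (↑S : Set ℕ) →+* IsLocalRing.ResidueField O}
  {T : Type} [CommRing T] [IsLocalRing T] [IsNoetherianRing T]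
  [IsAdicComplete (IsLocalRing.maximalIdeal T) T] [Algebra O T] [IsLocalHom (algebraMap O T)]
  [Module.Finite O T] [Module.Free O T]

/-- A Hecke–Galois datum is flat at `p ∤ N`, given the congruences on torsion. -/
theorem isFlatAt_datum [Finite (IsLocalRing.ResidueField O)] [Fact p.Prime]
    (hES : CongruenceProperty N p) (hpO : (p : O) ∈ IsLocalRing.maximalIdeal O) (hpN : ¬ p ∣ N)
    (H : CuspForm.HeckeGaloisRepDatum N (↑S : Set ℕ) O θ T) : H.ρ.IsFlatAt p :=
  isFlatAt_of_congruence hES hpO H fun M => exists_galOrder_jTors hpN M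

end Fermat.Agent.FiniteFlat
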