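import Fermat.Agent.Arith.InertiaLift
import Fermat.Agent.Semistable.ValBase
import Mathlib.Algebra.Polynomial.GroupRingAction

/-!
# Descent of lattices of functions on a finite Galois module

An `A`-lattice of functions that is stable under the decomposition group and generated by
functions fixed by open subgroups containing the inertia group is spanned by equivariant functions.
-/

set_option autoImplicit false

noncomputable section

open Polynomial
open scoped Pointwise
open Fermat.Agent.Arith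

namespace Fermat.Agent.FiniteFlat

variable {l : ℕ} {A : ValuationSubring QBar}

/-- A power of an element of the maximal ideal makes any given element integral. -/
theorem exists_pow_mul_mem (hA : A.LiesOverPrime l) (hl : l.Prime) {x : QBar}
    (hm : x ∈ A.nonunits) (y : QBar) : ∃ N, x ^ N * y ∈ A := by
  rcases eq_or_ne y 0 with rfl | hy
  · exact ⟨0, by simp⟩
  obtain ⟨N, hN⟩ := Semistable.exists_pow_valuation_lt hA hl hm (inv_ne_zero hy)
  refine ⟨N, (A.valuation_le_one_iff _).mp ?_⟩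
  rw [map_inv₀, ← one_div,
    lt_div_iff₀ (zero_lt_iff.mpr ((Valuation.ne_zero_iff _).mpr hy))] at hN
  rw [map_mul]
  exact hN.le

/-- Every algebraic number becomes `A`-integral after multiplication by a power of `l`. -/
theorem exists_natCast_pow_mul_mem (hA : A.LiesOverPrime l) (hl : l.Prime) (y : QBar) :
    ∃ s : ℕ, (l : QBar) ^ s * y ∈ A :=
  exists_pow_mul_mem hA hl ((natCast_mem_nonunits_iff hA hl l).mpr dvd_rfl) y

/-- If two ring maps into a domain agree on the coefficients of `∏ (T - Y q)`, then the image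
of each root under one is the image of some root under the other. -/
theorem exists_map_eq_map_of_prod {B K ι : Type} [CommRing B] [CommRing K] [IsDomain K]
    (r r' : B →+* K) (s : Finset ι) (Y : ι → B[X]) {q₁ : ι} (hq₁ : q₁ ∈ s)
    (h : ∀ i j, r' (((∏ q ∈ s, (X - C (Y q))).coeff i).coeff j) =
      r (((∏ q ∈ s, (X - C (Y q))).coeff i).coeff j)) :
    ∃ q ∈ s, (Y q₁).map r' = (Y q).map r := by
  have h1 : (∏ q ∈ s, (X - C (Y q))).map (mapRingHom r') =
      (∏ q ∈ s, (X - C (Y q))).map (mapRingHom r) :=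
    Polynomial.ext fun i => Polynomial.ext fun j => by
      simpa only [coeff_map, coe_mapRingHom] using h i j
  have h2 := congrArg (Polynomial.eval ((Y q₁).map r')) h1
  simp only [Polynomial.map_prod, eval_prod, Polynomial.map_sub, map_X, map_C, eval_sub, eval_X,
    eval_C, coe_mapRingHom] at h2
  rw [Finset.prod_eq_zero hq₁ (sub_self _), eq_comm, Finset.prod_eq_zero_iff] at h2
  obtain ⟨q, hq, hqe⟩ := h2
  exact ⟨q, hq, sub_eq_zero.mp hqe⟩

/-- An element outside an open subgroup containing inertia moves some fixed integer modulo `A`. -/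
theorem exists_separating_of_notMem (hA : A.LiesOverPrime l) (hl : l.Prime) {U : Subgroup GQ}
    (hU : IsOpen (U : Set GQ)) (hI : A.inertiaSubgroupIn ℚ ≤ U) {τ : GQ} (hτ : τ ∉ U) :
    ∃ θ : QBar, IsIntegral ℤ θ ∧ (∀ u ∈ U, u θ = θ) ∧ τ θ - θ ∉ A.nonunits := by
  classical
  by_contra! hcon
  have : Finite (GQ ⧸ U) := U.quotient_finite_of_isOpen hU
  have : U.FiniteIndex := Subgroup.finiteIndex_of_finite_quotient
  set H := U.normalCore
  have hHU : H ≤ U := U.normalCore_le
  have : Fintype (GQ ⧸ H) := Subgroup.fintypeQuotientOfFiniteIndex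
  -- some element of `U` agrees with `τ` modulo `A` on the integers fixed by `H`
  obtain ⟨u, hu, hτu⟩ : ∃ u ∈ U, ∀ x : QBar, IsIntegral ℤ x → (∀ h ∈ H, h x = x) →
      τ x - u x ∈ A.nonunits := by
    by_contra! hbad
    have hex : ∀ q : GQ ⧸ H, ∃ x : ZBar, (∀ h ∈ H, h • x = x) ∧
        (q.out ∈ U → τ (x : QBar) - q.out (x : QBar) ∉ A.nonunits) := by
      intro q
      by_cases hq : q.out ∈ U
      · obtain ⟨x, hx, hxf, hxn⟩ := hbad _ hq
        exact ⟨⟨x, hx⟩, fun h hh => Subtype.ext (hxf h hh), fun _ => hxn⟩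
      · exact ⟨0, fun h _ => smul_zero h, fun h => absurd h hq⟩
    choose x hxf hxn using hex
    let e := Fintype.equivFin (GQ ⧸ H)
    let Y : ZBar[X] := ∑ q, C (x q) * X ^ (e q : ℕ)
    have hY : ∀ q, Y.coeff (e q : ℕ) = x q := fun q => by
      simp [Y, finsetSum_coeff, coeff_X_pow, Fin.val_inj]
    have hYf : ∀ h ∈ H, h • Y = Y := fun h hh => by
      simp only [Y, Finset.smul_sum, smul_mul', smul_pow', smul_C, smul_X, hxf _ h hh]
    let s : Finset (GQ ⧸ H) := Finset.univ.filter fun q => q.out ∈ U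
    let Φ : (ZBar[X])[X] := ∏ q ∈ s, (X - C (q.out • Y))
    have hout : ∀ g : GQ, ∃ h ∈ H, (QuotientGroup.mk g : GQ ⧸ H).out = g * h := fun g => by
      obtain ⟨h, hh⟩ := QuotientGroup.mk_out_eq_mul H g
      exact ⟨h, h.2, hh⟩
    have houtY : ∀ g : GQ, (QuotientGroup.mk g : GQ ⧸ H).out • Y = g • Y := fun g => by
      obtain ⟨h, hh, he⟩ := hout g
      rw [he, mul_smul, hYf h hh]
    have hs : ∀ g : GQ, (QuotientGroup.mk g : GQ ⧸ H) ∈ s ↔ g ∈ U := fun g => by
      obtain ⟨h, hh, he⟩ := hout g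
      simp [s, he, Subgroup.mul_mem_cancel_right _ (hHU hh)]
    have hΦf : ∀ v ∈ U, v • Φ = Φ := by
      intro v hv
      simp only [Φ, Finset.smul_prod']
      refine Finset.prod_nbij' (fun q => v • q) (fun q => v⁻¹ • q) ?_ ?_
        (fun q _ => inv_smul_smul v q) (fun q _ => smul_inv_smul v q) ?_
      · intro q hq
        rw [← QuotientGroup.out_eq' q] at hq ⊢
        exact (hs _).mpr (mul_mem hv ((hs _).mp hq))
      · intro q hq
        rw [← QuotientGroup.out_eq' q] at hq ⊢
        exact (hs _).mpr (mul_mem (inv_mem hv) ((hs _).mp hq))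
      · intro q _
        conv_rhs => rw [← QuotientGroup.out_eq' q, MulAction.Quotient.smul_mk, houtY]
        refine (smul_sub v (X : (ZBar[X])[X]) _).trans ?_
        rw [Polynomial.smul_X, Polynomial.smul_C, smul_smul, smul_eq_mul]
    -- reduce modulo `A`, with and without `τ`
    let r : ZBar →+* ZBar ⧸ centre A := Ideal.Quotient.mk (centre A)
    let rτ : ZBar →+* ZBar ⧸ centre A := r.comp (MulSemiringAction.toRingHom GQ ZBar τ)
    have hrr : ∀ y : ZBar, (∀ v ∈ U, v • y = y) → rτ y = r y := fun y hy => by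
      show r (τ • y) = r y
      rw [Ideal.Quotient.eq, mem_centre]
      exact hcon _ y.2 fun v hv => congrArg Subtype.val (hy v hv)
    have hΦc : ∀ i j, rτ ((Φ.coeff i).coeff j) = r ((Φ.coeff i).coeff j) := fun i j => by
      refine hrr _ fun v hv => ?_
      conv_rhs => rw [← hΦf v hv]
      rw [Polynomial.coeff_smul, Polynomial.coeff_smul]
    obtain ⟨q, hq, hqe⟩ := exists_map_eq_map_of_prod r rτ s (fun q => q.out • Y)
      ((hs 1).mpr U.one_mem) hΦc
    refine hxn q (Finset.mem_filter.mp hq).2 ?_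
    have h1 := congrArg (fun p => Polynomial.coeff p (e q : ℕ)) hqe
    simp only [houtY, one_smul, coeff_map, Polynomial.coeff_smul, hY] at h1
    exact mem_centre A |>.mp ((Ideal.Quotient.eq).mp h1)
  have hHc : IsClosed (H : Set GQ) := by
    have : (H : Set GQ) = ⋂ b : GQ, (fun a => b * a * b⁻¹) ⁻¹' (U : Set GQ) := by
      ext a; simp only [Set.mem_iInter, Set.mem_preimage]; rfl
    rw [this]
    exact isClosed_iInter fun b => (U.isClosed_of_isOpen hU).preimage (by fun_prop)
  obtain ⟨h, hh, hI'⟩ := exists_inertia_lift hA hl H hHc (τ * u⁻¹) fun x hx hxf => by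
    have := hτu (u⁻¹ x) (hx.map (u⁻¹ : GQ).toAlgHom.toIntAlgHom) fun k hk => by
      have h1 := hxf _ (U.normalCore_normal.conj_mem k hk u)
      simp only [← AlgEquiv.smul_def, mul_smul] at h1 ⊢
      conv_rhs => rw [← h1]
      rw [inv_smul_smul]
    simpa [← AlgEquiv.smul_def, mul_smul] using this
  exact hτ (by simpa using mul_mem ((Subgroup.mul_mem_cancel_left U (hHU hh)).mp (hI hI')) hu)

/-- An element outside `D · U` sends some fixed unit at `A` into the maximal ideal. -/
theorem exists_vanishing_of_notMem (hA : A.LiesOverPrime l) (hl : l.Prime) {U : Subgroup GQ}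
    (hU : IsOpen (U : Set GQ)) {τ : GQ}
    (hτ : ¬ ∃ d : GQ, d • A = A ∧ (QuotientGroup.mk d : GQ ⧸ U) = QuotientGroup.mk τ) :
    ∃ θ : QBar, IsIntegral ℤ θ ∧ (∀ u ∈ U, u θ = θ) ∧ τ θ ∈ A.nonunits ∧ θ ∉ A.nonunits := by
  by_contra! hcon
  have : CompactSpace U := isCompact_iff_compactSpace.mp (U.isClosed_of_isOpen hU).isCompact
  let R := FixedPoints.subalgebra ℤ ZBar U
  have : SMulCommClass U R ZBar := ⟨fun h r x => by
    show h • ((r : ZBar) * x) = (r : ZBar) * h • x
    rw [smul_mul', show h • (r : ZBar) = r from r.2 h]⟩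
  have : Algebra.IsInvariant R ZBar U := ⟨fun x hx => ⟨⟨x, hx⟩, rfl⟩⟩
  have : Algebra.IsIntegral R ZBar := Algebra.IsInvariant.isIntegral_of_profinite (G := U)
  have hmax' : (centre (τ⁻¹ • A)).IsMaximal := centre_isMaximal (liesOverPrime_smul_iff.mpr hA) hl
  have hmax : ((centre (τ⁻¹ • A)).under R).IsMaximal :=
    Ideal.isMaximal_comap_of_isIntegral_of_isMaximal _
  have heq : (centre (τ⁻¹ • A)).under R = (centre A).under R := by
    refine hmax.eq_of_le (Ideal.IsPrime.ne_top inferInstance) fun x hx => ?_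
    show (x : ZBar) ∈ centre A
    rw [mem_centre]
    refine hcon _ (x : ZBar).2 (fun u hu => congrArg Subtype.val (x.2 ⟨u, hu⟩)) ?_
    have h1 : ((x : ZBar) : QBar) ∈ (τ⁻¹ • A).nonunits := (mem_centre _).mp hx
    have h2 := (smul_mem_nonunits_smul_iff (g := τ)).mpr h1
    rwa [smul_inv_smul] at h2
  obtain ⟨u, hu⟩ := Algebra.IsInvariant.exists_smul_of_under_eq_of_profinite (A := R) (G := U)
    (centre (τ⁻¹ • A)) (centre A) heq
  refine hτ ⟨τ * (u : GQ)⁻¹, ?_, ?_⟩
  · have h1 : ((u : GQ) * τ⁻¹) • A = A := by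
      refine (eq_of_centre_eq hA (liesOverPrime_smul_iff.mpr hA) hl ?_).symm
      rw [mul_smul, centre_smul]
      exact hu
    conv_lhs => arg 2; rw [← h1]
    rw [smul_smul]
    simp
  · rw [QuotientGroup.eq]
    simp

/-- The semilinear action on functions. -/
def galAct {M : Type} [MulAction GQ M] (σ : GQ) (f : M → QBar) : M → QBar :=
  fun m => σ (f (σ⁻¹ • m))

theorem galAct_mul {M : Type} [MulAction GQ M] (σ τ : GQ) (f : M → QBar) :
    galAct (σ * τ) f = galAct σ (galAct τ f) := by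
  funext m
  simp [galAct, mul_smul, mul_inv_rev]

theorem valuationSubring_smul_def (a : A) (x : QBar) : a • x = (a : QBar) * x := rfl

/-- An element of a stable full lattice fixed by an open subgroup containing inertia lies in the
span of the equivariant elements of the lattice. -/
theorem mem_span_equivariant {M : Type} [MulAction GQ M] (hA : A.LiesOverPrime l) (hl : l.Prime)
    (R : Submodule A (M → QBar)) (hfull : ∀ f, ∃ s : ℕ, (l : QBar) ^ s • f ∈ R)
    (hD : ∀ d : GQ, d • A = A → ∀ f ∈ R, galAct d f ∈ R)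
    {f : M → QBar} (hf : f ∈ R) {U : Subgroup GQ} (hU : IsOpen (U : Set GQ))
    (hI : A.inertiaSubgroupIn ℚ ≤ U) (hfix : ∀ u ∈ U, galAct u f = f) :
    f ∈ Submodule.span A {g | g ∈ R ∧ ∀ (σ : GQ) m, g (σ • m) = σ (g m)} := by
  classical
  have : Finite (GQ ⧸ U) := U.quotient_finite_of_isOpen hU
  have := Fintype.ofFinite (GQ ⧸ U)
  let G : QBar → GQ → (M → QBar) := fun θ g => g θ • galAct g f
  let ψ : QBar → (M → QBar) := fun θ => ∑ c : GQ ⧸ U, G θ c.out
  have hG : ∀ θ, (∀ u ∈ U, u θ = θ) → ∀ g, G θ (QuotientGroup.mk g : GQ ⧸ U).out = G θ g := by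
    intro θ hθ g
    obtain ⟨u, hu⟩ := QuotientGroup.mk_out_eq_mul U g
    simp only [G, hu, galAct_mul, hfix _ u.2, AlgEquiv.mul_apply, hθ _ u.2]
  have heqv : ∀ θ, (∀ u ∈ U, u θ = θ) → ∀ (σ : GQ) m, ψ θ (σ • m) = σ (ψ θ m) := by
    intro θ hθ σ m
    simp only [ψ, Finset.sum_apply, map_sum]
    refine (Fintype.sum_equiv (MulAction.toPerm σ) _ _ fun c => ?_).symm
    rw [MulAction.toPerm_apply]
    conv_rhs => rw [← QuotientGroup.out_eq' c, MulAction.Quotient.smul_mk, hG θ hθ, smul_eq_mul]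
    simp [G, galAct, mul_smul]
  -- the cosets outside `D · U`, and a fixed unit that is small there
  let out : Finset (GQ ⧸ U) := Finset.univ.filter fun c =>
    ¬ ∃ d : GQ, d • A = A ∧ (QuotientGroup.mk d : GQ ⧸ U) = QuotientGroup.mk c.out
  have hvan : ∀ c ∈ out, ∃ θ : QBar, IsIntegral ℤ θ ∧ (∀ u ∈ U, u θ = θ) ∧ θ ∉ A.nonunits ∧
      ∀ θ', IsIntegral ℤ θ' → G (θ * θ') c.out ∈ R := by
    intro c hc
    obtain ⟨θ, hθi, hθf, hθc, hθ1⟩ :=
      exists_vanishing_of_notMem hA hl hU (Finset.mem_filter.mp hc).2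
    obtain ⟨s, hs⟩ := hfull (galAct c.out f)
    obtain ⟨N, hN⟩ := exists_pow_mul_mem hA hl hθc
      ((l : QBar) ^ s)⁻¹
    refine ⟨θ ^ N, hθi.pow N, fun u hu => by rw [map_pow, hθf u hu], fun hmem => ?_,
      fun θ' hθ' => ?_⟩
    · obtain ⟨h0, hinv⟩ := (notMem_nonunits_iff (mem_of_isIntegral A hθi)).mp hθ1
      have := nonunits_mul_right hmem (pow_mem hinv N)
      rw [← mul_pow, mul_inv_cancel₀ h0, one_pow] at this
      exact one_notMem_nonunits this
    · have ha : (c.out θ ^ N * ((l : QBar) ^ s)⁻¹) * c.out θ' ∈ A :=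
        mul_mem hN (mem_of_isIntegral A (hθ'.map c.out.toAlgHom.toIntAlgHom))
      have h := R.smul_mem ⟨_, ha⟩ hs
      have h' : G (θ ^ N * θ') c.out = (⟨_, ha⟩ : A) • (l : QBar) ^ s • galAct c.out f := by
        have hl0 : ((l : QBar) ^ s) ≠ 0 := pow_ne_zero _ (Nat.cast_ne_zero.mpr hl.ne_zero)
        funext m
        simp only [G, Pi.smul_apply, valuationSubring_smul_def, smul_eq_mul, map_mul, map_pow]
        field_simp
      exact h' ▸ h
  choose! θv hvi hvf hv1 hvR using hvan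
  let θ₀ : QBar := ∏ c ∈ out, θv c
  have hψR : ∀ θ, IsIntegral ℤ θ → (∀ u ∈ U, u θ = θ) → ψ (θ₀ * θ) ∈ R := by
    intro θ hθi hθf
    refine sum_mem fun c _ => ?_
    by_cases hc : c ∈ out
    · have h : θ₀ * θ = θv c * ((∏ d ∈ out.erase c, θv d) * θ) := by
        rw [← mul_assoc, Finset.mul_prod_erase _ _ hc]
      rw [h]
      exact hvR c hc _ ((IsIntegral.prod _ fun d hd => hvi d (Finset.mem_of_mem_erase hd)).mul hθi)
    · simp only [out, Finset.mem_filter, Finset.mem_univ, true_and, not_not] at hc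
      obtain ⟨d, hd, hdc⟩ := hc
      have hθ₀f : ∀ u ∈ U, u (θ₀ * θ) = θ₀ * θ := fun u hu => by
        rw [map_mul, map_prod, hθf u hu]
        congr 1
        exact Finset.prod_congr rfl fun c hc => hvf c hc u hu
      rw [← QuotientGroup.out_eq' c, ← hdc, hG _ hθ₀f]
      exact R.smul_mem ⟨_, mem_of_isIntegral A
        (((IsIntegral.prod _ hvi).mul hθi).map d.toAlgHom.toIntAlgHom)⟩ (hD d hd f hf)
  -- the separating elements at the other cosets
  let S : Finset (GQ ⧸ U) := Finset.univ.erase (QuotientGroup.mk 1)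
  have hsep : ∀ c ∈ S, ∃ θ : QBar,
      IsIntegral ℤ θ ∧ (∀ u ∈ U, u θ = θ) ∧ c.out θ - θ ∉ A.nonunits := by
    intro c hc
    refine exists_separating_of_notMem hA hl hU hI fun hmem => (Finset.mem_erase.mp hc).1 ?_
    rw [← QuotientGroup.out_eq' c, QuotientGroup.eq]
    simpa using inv_mem hmem
  choose! θs hsi hsf hsn using hsep
  let lam : Finset (GQ ⧸ U) → QBar := fun T => ∏ c ∈ S \ T, -(c.out (θs c))
  have hlam : ∀ T, lam T ∈ A := fun T => prod_mem fun c hc => neg_mem
    (mem_of_isIntegral A ((hsi c (Finset.mem_sdiff.mp hc).1).map c.out.toAlgHom.toIntAlgHom))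
  have hsum : ∑ T ∈ S.powerset, lam T • ψ (θ₀ * ∏ c ∈ T, θs c) =
      (θ₀ * ∏ c ∈ S, (θs c - c.out (θs c))) • f := by
    simp only [ψ, Finset.smul_sum, G, smul_smul, map_mul, map_prod]
    rw [Finset.sum_comm]
    have hc : ∀ c : GQ ⧸ U, ∑ T ∈ S.powerset,
        (lam T * (c.out θ₀ * ∏ d ∈ T, c.out (θs d))) • galAct c.out f =
        (c.out θ₀ * ∏ d ∈ S, (c.out (θs d) - d.out (θs d))) • galAct c.out f := by
      intro c
      rw [← Finset.sum_smul]
      congr 1
      simp only [sub_eq_add_neg, Finset.prod_add, Finset.mul_sum, lam]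
      exact Finset.sum_congr rfl fun T _ => by ring
    simp only [θ₀, map_prod] at hc ⊢
    rw [Finset.sum_congr rfl fun c _ => hc c,
      Finset.sum_eq_single_of_mem (QuotientGroup.mk 1) (Finset.mem_univ _) fun c _ hc1 => by
        rw [Finset.prod_eq_zero (i := c) (Finset.mem_erase.mpr ⟨hc1, Finset.mem_univ c⟩)
          (sub_self _), mul_zero, zero_smul]]
    obtain ⟨u, hu⟩ := QuotientGroup.mk_out_eq_mul U 1
    rw [one_mul] at hu
    rw [hu, hfix _ u.2]
    congr 1
    congr 1
    · exact Finset.prod_congr rfl fun c hc => hvf c hc _ u.2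
    · exact Finset.prod_congr rfl fun c hc => by rw [hsf c hc _ u.2]
  have hunit : θ₀ * ∏ c ∈ S, (θs c - c.out (θs c)) ∉ A.nonunits := by
    have h1 : ∀ x y : QBar, x ∈ A → y ∈ A → x ∉ A.nonunits → y ∉ A.nonunits →
        x * y ∈ A ∧ x * y ∉ A.nonunits := fun x y hx hy hxn hyn => ⟨mul_mem hx hy, fun h => by
      obtain ⟨h0, hinv⟩ := (notMem_nonunits_iff hy).mp hyn
      have := nonunits_mul_right h hinv
      rw [mul_inv_cancel_right₀ h0] at this
      exact hxn this⟩
    refine (Finset.prod_induction (fun c => θv c) (fun x => x ∈ A ∧ x ∉ A.nonunits)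
      (fun x y hx hy => h1 x y hx.1 hy.1 hx.2 hy.2) ⟨A.one_mem, one_notMem_nonunits⟩
      (fun c hc => ⟨mem_of_isIntegral A (hvi c hc), hv1 c hc⟩) |> fun h => h1 _ _ h.1 ?_ h.2 ?_).2
    all_goals
      have h2 := Finset.prod_induction (s := S) (fun c => θs c - c.out (θs c))
        (fun x => x ∈ A ∧ x ∉ A.nonunits) (fun x y hx hy => h1 x y hx.1 hy.1 hx.2 hy.2)
        ⟨A.one_mem, one_notMem_nonunits⟩ (fun c hc => ⟨sub_mem (mem_of_isIntegral A (hsi c hc))
          (mem_of_isIntegral A ((hsi c hc).map c.out.toAlgHom.toIntAlgHom)),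
          fun h => hsn c hc (by simpa using nonunits_neg h)⟩)
    exacts [h2.1, h2.2]
  have hmemA : θ₀ * ∏ c ∈ S, (θs c - c.out (θs c)) ∈ A :=
    mul_mem (prod_mem fun c hc => mem_of_isIntegral A (hvi c hc)) (prod_mem fun c hc =>
      sub_mem (mem_of_isIntegral A (hsi c hc))
        (mem_of_isIntegral A ((hsi c hc).map c.out.toAlgHom.toIntAlgHom)))
  obtain ⟨h0, hinv⟩ := (notMem_nonunits_iff hmemA).mp hunit
  have hfinal : f = (⟨_, hinv⟩ : A) • ∑ T ∈ S.powerset, (⟨_, hlam T⟩ : A) •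
      ψ (θ₀ * ∏ c ∈ T, θs c) := by
    have : ∑ T ∈ S.powerset, (⟨_, hlam T⟩ : A) • ψ (θ₀ * ∏ c ∈ T, θs c) =
        (θ₀ * ∏ c ∈ S, (θs c - c.out (θs c))) • f := hsum
    rw [this]
    funext m
    simp only [Pi.smul_apply, valuationSubring_smul_def, smul_eq_mul]
    rw [inv_mul_cancel_left₀ h0]
  rw [hfinal]
  refine Submodule.smul_mem _ _ (sum_mem fun T hT => Submodule.smul_mem _ _ ?_)
  have hTi : IsIntegral ℤ (∏ c ∈ T, θs c) :=
    IsIntegral.prod _ fun c hc => hsi c (Finset.mem_powerset.mp hT hc)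
  have hTf : ∀ u ∈ U, u (∏ c ∈ T, θs c) = ∏ c ∈ T, θs c := fun u hu => by
    rw [map_prod]
    exact Finset.prod_congr rfl fun c hc => hsf c (Finset.mem_powerset.mp hT hc) u hu
  refine Submodule.subset_span ⟨hψR _ hTi hTf, heqv _ fun u hu => ?_⟩
  rw [map_mul, hTf u hu, map_prod]
  congr 1
  exact Finset.prod_congr rfl fun c hc => hvf c hc u hu

end Fermat.Agent.FiniteFlat
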