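import Fermat.Agent.FiniteFlat.Operation
import Fermat.Prelude.Def_AlgebraicCurve_BaseChangeGalois

/-!
# Linear equivalence, reduction and semilinear automorphisms
-/

set_option autoImplicit false
set_option linter.unusedSectionVars false

noncomputable section

open IsLocalRing AlgebraicCurve
open Fermat.Agent.Arith Fermat.Agent.FF

namespace Fermat.Agent.FiniteFlat

section Curve

variable {K E : Type*} [Field K] [IsAlgClosed K] [Field E] [Algebra K E] [IsFunctionField K E]

/-- Divisors differing by the divisor of a function. -/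
def LinEq (D D' : Divisor K E) : Prop := ∃ f : E, f ≠ 0 ∧ D = D' + div K f

theorem linEq_iff_mem_principal {D D' : Divisor K E} :
    LinEq D D' ↔ D - D' ∈ Divisor.principal (K := K) (F := E) := by
  constructor
  · rintro ⟨f, hf, rfl⟩
    exact ⟨f, hf, fun v => by rw [add_sub_cancel_left, div_apply]⟩
  · rintro ⟨f, hf, h⟩
    refine ⟨f, hf, ?_⟩
    have e : D - D' = div K f := Finsupp.ext fun v => by rw [div_apply]; exact h v
    rw [← e, add_sub_cancel]

theorem LinEq.symm {D D' : Divisor K E} (h : LinEq D D') : LinEq D' D :=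
  linEq_iff_mem_principal.mpr (by
    rw [← neg_sub]; exact neg_mem (linEq_iff_mem_principal.mp h))

theorem LinEq.trans {D D' D'' : Divisor K E} (h : LinEq D D') (h' : LinEq D' D'') :
    LinEq D D'' :=
  linEq_iff_mem_principal.mpr (by
    rw [← sub_add_sub_cancel D D' D'']
    exact add_mem (linEq_iff_mem_principal.mp h) (linEq_iff_mem_principal.mp h'))

theorem LinEq.degree_eq {D D' : Divisor K E} (h : LinEq D D') :
    Divisor.degree D = Divisor.degree D' := by
  obtain ⟨f, -, rfl⟩ := h
  rw [map_add, degree_div, add_zero]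

theorem LinEq.eq_of_ell {D D' : Divisor K E} (h : LinEq D' D) (hD : 0 ≤ D) (hD' : 0 ≤ D')
    (h1 : ell K D = 1) : D' = D := by
  obtain ⟨f, -, hf⟩ := h
  exact eq_of_ell_eq_one hD hD' h1 hf

theorem pic0_mk_eq_iff {D D' : Divisor.degZero (K := K) (F := E)} :
    Pic0.mk D = Pic0.mk D' ↔ LinEq (D : Divisor K E) D' := by
  rw [linEq_iff_mem_principal]
  refine Iff.trans QuotientAddGroup.eq_iff_sub_mem ?_
  rw [AddSubgroup.mem_addSubgroupOf]
  rfl

end Curve

variable {A : ValuationSubring QBar} {F : Type*} [Field F] [Algebra QBar F]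
  {Fk : Type*} [Field Fk] [Algebra (ResidueField A) Fk]
  [IsFunctionField QBar F] [IsFunctionField (ResidueField A) Fk]

/-- Reduction preserves linear equivalence. -/
theorem LinEq.redDiv (h : GoodRed A F Fk) {D D' : Divisor QBar F} (hD : LinEq D D') :
    LinEq (FiniteFlat.redDiv h D) (FiniteFlat.redDiv h D') := by
  obtain ⟨f, hf, rfl⟩ := hD
  obtain ⟨c, g, hc, hg, rfl⟩ := exists_primitive h.toRedLattice hf
  refine ⟨redF h.toRedLattice g, hg, ?_⟩
  have hg0 : (g : F) ≠ 0 := fun e => hf (by simp [e])
  rw [map_add, div_smul hc hg0, redDiv_div h g hg]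

end Fermat.Agent.FiniteFlat
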