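import Fermat.Agent.FiniteFlat.Fixed
import Fermat.Agent.FiniteFlat.LinEquiv

/-!
# Effective representatives of classes with general reduction

For a base divisor `T` of degree the genus whose translates by a finite group of classes reduce to
divisors `D` with `ℓ(D) = 1`, every class has exactly one effective representative; the
representatives and their reductions are compatible with decomposition groups.
-/

set_option autoImplicit false
set_option linter.unusedSectionVars false

noncomputable section

open IsLocalRing AlgebraicCurve ModularCurve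
open Fermat.Agent.Arith Fermat.Agent.FF Fermat.Agent.RedTorsion
open scoped Pointwise

namespace Fermat.Agent.FiniteFlat

variable {A : ValuationSubring QBar} {l N : ℕ} [NeZero N]

local notation "Fb" => modularFunctionFieldBar N
local notation "Fk" => modularFunctionFieldFullC (ResidueField A) N
local notation "gQ" => genusFF QBar (modularFunctionFieldBar N)

variable [IsFunctionField QBar (modularFunctionFieldBar N)]
  [IsFunctionField (ResidueField A) (modularFunctionFieldFullC (ResidueField A) N)]

section Reps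

variable {M : Type} [AddCommGroup M] (i : M →+ JZero N)

theorem galF_inv (d : GQ) : galF N d⁻¹ = (galF N d)⁻¹ :=
  map_inv (arithmeticGalois (L := QBar) (modularFunctionFieldFull N)) d

/-- `D` is an effective divisor in the class of `i x` shifted by `T`. -/
def IsRep (T : Divisor QBar Fb) (x : M) (D : Divisor QBar Fb) : Prop :=
  0 ≤ D ∧ ∃ hd : D - T ∈ Divisor.degZero (K := QBar) (F := Fb), Pic0.mk ⟨D - T, hd⟩ = i x

variable {i}

theorem IsRep.degree_eq {T D : Divisor QBar Fb} {x : M} (h : IsRep i T x D) :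
    Divisor.degree D = Divisor.degree T := by
  obtain ⟨-, hd, -⟩ := h
  rwa [Divisor.mem_degZero, map_sub, sub_eq_zero] at hd

theorem IsRep.linEq_change {T T' D D' : Divisor QBar Fb} {x : M} (h : IsRep i T x D)
    (h' : IsRep i T' x D') : LinEq D' (D + T' - T) := by
  obtain ⟨-, hd, he⟩ := h
  obtain ⟨-, hd', he'⟩ := h'
  have := linEq_iff_mem_principal.mp (pic0_mk_eq_iff.mp (he'.trans he.symm))
  refine linEq_iff_mem_principal.mpr ?_
  rw [show D' - (D + T' - T) = (D' - T') - (D - T) by abel]
  exact this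

theorem IsRep.linEq_add {T D D' D'' : Divisor QBar Fb} {x y : M} (hx : IsRep i T x D)
    (hy : IsRep i T y D') (hxy : IsRep i T (x + y) D'') : LinEq D'' (D + D' - T) := by
  obtain ⟨-, hd, he⟩ := hx
  obtain ⟨-, hd', he'⟩ := hy
  obtain ⟨-, hd'', he''⟩ := hxy
  have h1 : Pic0.mk ⟨D'' - T, hd''⟩ = Pic0.mk (⟨D - T, hd⟩ + ⟨D' - T, hd'⟩) := by
    rw [he'', Pic0.mk_add, he, he', map_add]
  have := linEq_iff_mem_principal.mp (pic0_mk_eq_iff.mp h1)
  refine linEq_iff_mem_principal.mpr ?_
  rw [show D'' - (D + D' - T) = (D'' - T) - ((D - T) + (D' - T)) by abel]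
  exact this

theorem IsRep.linEq_zero {T D : Divisor QBar Fb} (h : IsRep i T 0 D) : LinEq D T := by
  obtain ⟨-, hd, he⟩ := h
  rw [map_zero, ← Pic0.mk_zero] at he
  have := linEq_iff_mem_principal.mp (pic0_mk_eq_iff.mp he)
  rw [ZeroMemClass.coe_zero, sub_zero] at this
  exact linEq_iff_mem_principal.mpr this

theorem IsRep.of_linEq {T D D' : Divisor QBar Fb} {x : M} (h : IsRep i T x D) (h0 : 0 ≤ D')
    (he : LinEq D' D) : IsRep i T x D' := by
  obtain ⟨-, hd, hc⟩ := h
  have hd' : D' - T ∈ Divisor.degZero (K := QBar) (F := Fb) := by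
    rw [Divisor.mem_degZero, map_sub, he.degree_eq, ← map_sub]; exact hd
  refine ⟨h0, hd', (pic0_mk_eq_iff.mpr ?_).trans hc⟩
  refine linEq_iff_mem_principal.mpr ?_
  rw [show (⟨D' - T, hd'⟩ : Divisor.degZero (K := QBar) (F := Fb)).1 -
    (⟨D - T, hd⟩ : Divisor.degZero (K := QBar) (F := Fb)).1 = D' - D from sub_sub_sub_cancel_right _ _ _]
  exact linEq_iff_mem_principal.mp he

theorem IsRep.apply_eq {T D : Divisor QBar Fb} {x y : M} (hx : IsRep i T x D)
    (hy : IsRep i T y D) : i x = i y := by
  obtain ⟨-, hd, he⟩ := hx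
  obtain ⟨-, _, he'⟩ := hy
  exact he.symm.trans he'

theorem exists_isRep {T : Divisor QBar Fb} (hT : Divisor.degree T = gQ) (x : M) :
    ∃ D, IsRep i T x D := by
  obtain ⟨D0, hD0⟩ := Pic0.mk_surjective (i x)
  have h0 : Divisor.degree (D0 : Divisor QBar Fb) = 0 := D0.2
  have hl : 1 ≤ ell QBar ((D0 : Divisor QBar Fb) + T) :=
    one_le_ell_of_degree_eq_genus (by rw [map_add, h0, hT, zero_add])
  obtain ⟨f, hf, hfD⟩ := exists_effective_of_ell_pos (D := (D0 : Divisor QBar Fb) + T)
    (lt_of_lt_of_le one_pos hl)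
  have hd : ((D0 : Divisor QBar Fb) + T + div QBar f) - T ∈
      Divisor.degZero (K := QBar) (F := Fb) := by
    rw [Divisor.mem_degZero, map_sub, map_add, map_add, h0, degree_div]; ring
  refine ⟨_, hfD, hd, (pic0_mk_eq_iff.mpr ⟨f, hf, ?_⟩).trans hD0⟩
  show (D0 : Divisor QBar Fb) + T + div QBar f - T = _
  abel

theorem IsRep.smul [DistribMulAction GQ M] (hi : ∀ (g : GQ) (x : M), i (g • x) = g • i x)
    {T D : Divisor QBar Fb} {x : M} (h : IsRep i T x D) (d : GQ) :
    IsRep i (galF N d • T) (d • x) (galF N d • D) := by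
  obtain ⟨h0, hd, he⟩ := h
  refine ⟨?_, ?_, ?_⟩
  · refine Finsupp.le_def.mpr fun w => ?_
    rw [SemilinearAut.divisor_smul_apply]
    exact Finsupp.le_def.mp h0 _
  · rw [← smul_sub]; exact SemilinearAut.smul_mem_degZero _ hd
  · rw [hi, ← he, galois_smul_pic0_def, SemilinearAut.pic0_smul_mk]
    exact congrArg Pic0.mk (Subtype.ext (smul_sub _ _ _).symm)

variable (i) in
/-- A base divisor for which all representatives have general reduction. -/
structure GoodBase (hNA : (N : ResidueField A) ≠ 0) (T : Divisor QBar Fb) : Prop where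
  nonneg : 0 ≤ T
  degree_eq : Divisor.degree T = gQ
  general : ∀ x D, IsRep i T x D → ell (ResidueField A) (redDiv (goodRed hNA) D) = 1

variable {T : Divisor QBar (modularFunctionFieldBar N)} {hNA : (N : ResidueField A) ≠ 0}

theorem GoodBase.unique (hT : GoodBase i hNA T) {x : M} {D D' : Divisor QBar Fb}
    (h : IsRep i T x D) (h' : IsRep i T x D') : D = D' := by
  refine LinEq.eq_of_ell ?_ h'.1 h.1 ?_
  · have := h'.linEq_change h
    rwa [add_sub_cancel_right] at this
  · refine le_antisymm ((ell_le_ell_redDiv (goodRed hNA) D').trans_eq (hT.general x D' h')) ?_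
    exact one_le_ell_of_degree_eq_genus (h'.degree_eq.trans hT.degree_eq)

/-- The effective representative. -/
def GoodBase.rep (hT : GoodBase i hNA T) (x : M) : Divisor QBar Fb :=
  (exists_isRep (i := i) hT.degree_eq x).choose

theorem GoodBase.isRep_rep (hT : GoodBase i hNA T) (x : M) : IsRep i T x (hT.rep x) :=
  (exists_isRep (i := i) hT.degree_eq x).choose_spec

theorem GoodBase.eq_rep (hT : GoodBase i hNA T) {x : M} {D : Divisor QBar Fb}
    (h : IsRep i T x D) : D = hT.rep x := hT.unique h (hT.isRep_rep x)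

theorem GoodBase.rep_injective (hT : GoodBase i hNA T) (hinj : Function.Injective i) :
    Function.Injective hT.rep := fun x y h =>
  hinj ((hT.isRep_rep x).apply_eq (h ▸ hT.isRep_rep y))

/-- The reduction of the representative. -/
def GoodBase.fib (hT : GoodBase i hNA T) (x : M) : Divisor (ResidueField A) Fk :=
  redDiv (goodRed hNA) (hT.rep x)

theorem GoodBase.fib_nonneg (hT : GoodBase i hNA T) (x : M) : 0 ≤ hT.fib x :=
  redDiv_nonneg _ (hT.isRep_rep x).1

theorem GoodBase.ell_fib (hT : GoodBase i hNA T) (x : M) :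
    ell (ResidueField A) (hT.fib x) = 1 := hT.general x _ (hT.isRep_rep x)

theorem GoodBase.degree_fib (hT : GoodBase i hNA T) (x : M) :
    Divisor.degree (hT.fib x) = gQ := by
  rw [GoodBase.fib, degree_redDiv, (hT.isRep_rep x).degree_eq, hT.degree_eq]

end Reps

section Decomposition

variable (hA : A.LiesOverPrime l) (hl : l.Prime) (hNA : (N : ResidueField A) ≠ 0)

variable {M : Type} [AddCommGroup M] {i : M →+ JZero N}

theorem GoodBase.smul [DistribMulAction GQ M] (hi : ∀ (g : GQ) (x : M), i (g • x) = g • i x)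
    {T : Divisor QBar Fb} (hT : GoodBase i hNA T) {d : GQ} (hd : d • A = A) :
    GoodBase i hNA (galF N d • T) := by
  have : IsAlgClosed (ResidueField A) := residueField_isAlgClosed A
  refine ⟨Finsupp.le_def.mpr fun w => ?_, ?_, fun x D hD => ?_⟩
  · rw [SemilinearAut.divisor_smul_apply]
    exact Finsupp.le_def.mp hT.nonneg _
  · rw [SemilinearAut.degree_smul, hT.degree_eq]
  · have h1 := hD.smul hi d⁻¹
    rw [galF_inv, inv_smul_smul] at h1
    have h2 := hT.general _ _ h1
    rw [← smul_inv_smul (galF N d) D, redDiv_galF_decomposition hNA hd, CurveTorsion.ell_smul, ← galF_inv]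
    exact h2

include hA hl in
/-- A good base divisor fixed by inertia. -/
theorem exists_goodBase [Finite M] :
    ∃ T : Divisor QBar Fb, GoodBase i hNA T ∧
      ∀ σ ∈ A.inertiaSubgroupIn ℚ, galF N σ • T = T := by
  have : IsAlgClosed (ResidueField A) := residueField_isAlgClosed A
  set h := goodRed (A := A) hNA
  choose D0 hD0 using fun x : M => Pic0.mk_surjective (i x)
  obtain ⟨B, hB, hBd, hBS, hBell⟩ := exists_generic
    (fun x : M => redDiv h (D0 x : Divisor QBar Fb))
    (fun x => by rw [degree_redDiv]; exact (D0 x).2)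
    (S := {v | redDiv h (poleDiv N) v ≠ 0}) (Finsupp.hasFiniteSupport _)
  have hlift : ∀ v : {v // B v ≠ 0}, ∃ P : Place QBar Fb, redPlace h P = v ∧
      ∀ σ ∈ A.inertiaSubgroupIn ℚ, galF N σ • P = P := fun v =>
    exists_fixed_place hA hl hNA (not_not.mp fun h' => hBS v v.2 h')
  choose P hP hPfix using hlift
  have : Finite {v // B v ≠ 0} := (Finsupp.hasFiniteSupport B).to_subtype
  have := Fintype.ofFinite {v // B v ≠ 0}
  set T : Divisor QBar Fb := ∑ v : {v // B v ≠ 0}, Finsupp.single (P v) (B v) with hT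
  have hTB : redDiv h T = B := by
    rw [hT, map_sum]
    simp only [redDiv_single, hP]
    ext w
    rw [Finsupp.finsetSum_apply]
    classical
    by_cases hw : B w = 0
    · rw [hw]
      refine Finset.sum_eq_zero fun v _ => ?_
      rw [Finsupp.single_eq_of_ne]
      intro e
      exact v.2 (e ▸ hw)
    · rw [Finset.sum_eq_single ⟨w, hw⟩ (fun v _ hv => Finsupp.single_eq_of_ne
        fun e => hv (Subtype.ext e.symm)) (fun e => absurd (Finset.mem_univ _) e),
        Finsupp.single_eq_same]
  have hTd : Divisor.degree T = gQ := by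
    rw [← degree_redDiv h T, hTB, hBd, genusFF_eq_of_goodRed h]
  refine ⟨T, ⟨?_, hTd, fun x D hD => ?_⟩, fun σ hσ => ?_⟩
  · refine Finset.sum_nonneg fun v _ => Finsupp.le_def.mpr fun w => ?_
    rcases eq_or_ne w (P v) with rfl | hw
    · simpa using Finsupp.le_def.mp hB v
    · simp [hw]
  · have h2 : LinEq D ((D0 x : Divisor QBar Fb) + T) := by
      obtain ⟨-, hd', he⟩ := hD
      have := linEq_iff_mem_principal.mp (pic0_mk_eq_iff.mp (he.trans (hD0 x).symm))
      refine linEq_iff_mem_principal.mpr ?_
      rw [show D - ((D0 x : Divisor QBar Fb) + T) = (D - T) - D0 x by abel]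
      exact this
    obtain ⟨f, hf, he⟩ := h2.redDiv h
    rw [he, ell_add_div hf, map_add, hTB]
    exact hBell x
  · rw [hT, Finset.smul_sum]
    exact Finset.sum_congr rfl fun v _ => by rw [SemilinearAut.smul_single, hPfix v σ hσ]

end Decomposition

end Fermat.Agent.FiniteFlat
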