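import Fermat.Agent.FiniteFlat.RegChart
import Fermat.Agent.FiniteFlat.Representatives
import Fermat.Agent.EichlerShimura.Equivariance

/-!
# Regular families of representatives on the fibres of reduction

For a finite group of classes, rings of integral functions containing the indicators of the fibres
of reduction, over which the spaces of the representatives are regular. Regularity does not depend
on the base divisor.
-/

set_option autoImplicit false
set_option linter.unusedSectionVars false

noncomputable section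

open IsLocalRing AlgebraicCurve ModularCurve
open Fermat.Agent.Arith Fermat.Agent.FF Fermat.Agent.RedTorsion

namespace Fermat.Agent.FiniteFlat

/-- Composition with a map of index sets. -/
def pullFun (A : ValuationSubring QBar) {X Y : Type*} (π : Y → X) :
    (X → QBar) →ₐ[A] (Y → QBar) where
  toFun f y := f (π y)
  map_one' := rfl
  map_mul' _ _ := rfl
  map_zero' := rfl
  map_add' _ _ := rfl
  commutes' _ := rfl

theorem pullFun_apply {A : ValuationSubring QBar} {X Y : Type*} (π : Y → X) (f : X → QBar) (y : Y) :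
    pullFun A π f y = f (π y) := rfl

theorem hasIntValues_map {A : ValuationSubring QBar} {X Y : Type*} (π : Y → X)
    {R : Subalgebra A (X → QBar)} (hR : ∀ f ∈ R, ∀ x, f x ∈ A) :
    HasIntValues (R.map (pullFun A π)) := by
  rintro ⟨_, f, hf, rfl⟩ y
  exact hR f hf (π y)

section Pull

variable {A : ValuationSubring QBar} {F : Type*} [Field F] [Algebra QBar F]
  {Fk : Type*} [Field Fk] [Algebra (ResidueField A) Fk]
  [IsFunctionField QBar F] [IsFunctionField (ResidueField A) Fk] {h : GoodRed A F Fk}

/-- Regular families pull back. -/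
theorem IsReg.pull {Ω Ω' : Type*} {R : Subalgebra A (Ω → QBar)} {R' : Subalgebra A (Ω' → QBar)}
    {G : Ω → Divisor QBar F} {Gb : Divisor (ResidueField A) Fk} (hG : IsReg h R G Gb)
    (π : Ω' → Ω) (hπ : R.map (pullFun A π) ≤ R') : IsReg h R' (fun ω => G (π ω)) Gb := by
  intro x hx
  obtain ⟨φ, hφ, hφ'⟩ := hG x hx
  refine ⟨fun ω => φ (π ω), ?_, fun ω => hφ' (π ω)⟩
  clear hφ'
  induction hφ using AddSubmonoid.closure_induction with
  | mem φ hφ =>
    obtain ⟨r, hr, e, rfl⟩ := hφ
    exact AddSubmonoid.subset_closure ⟨pullFun A π r, hπ ⟨r, hr, rfl⟩, e, rfl⟩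
  | zero => exact zero_mem _
  | add φ ψ _ _ h1 h2 => exact add_mem h1 h2

end Pull

variable {A : ValuationSubring QBar} {l N : ℕ} [NeZero N]

local notation "Fb" => modularFunctionFieldBar N
local notation "Fk" => modularFunctionFieldFullC (ResidueField A) N
local notation "gQ" => genusFF QBar (modularFunctionFieldBar N)

variable [IsFunctionField QBar (modularFunctionFieldBar N)]
  [IsFunctionField (ResidueField A) (modularFunctionFieldFullC (ResidueField A) N)]

/-- A rational basis of a space of functions with poles over `j = ∞`, for good reduction. -/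
structure RatFrame (hNA : (N : ResidueField A) ≠ 0) where
  /-- the multiplicity -/
  m : ℤ
  big : bigDeg (goodRed (A := A) hNA) + 4 * gQ ≤ Divisor.degree (m • poleDiv N)
  nonneg : 0 ≤ m • poleDiv N
  /-- the rank -/
  n : ℕ
  /-- the basis -/
  u : Fin n → (goodRed (A := A) hNA).S
  indep : LinearIndependent (ResidueField A) fun b => redF (goodRed hNA).toRedLattice (u b)
  span_red : riemannRochSpace (redDiv (goodRed (A := A) hNA) (m • poleDiv N)) ≤
    Submodule.span (ResidueField A) (Set.range fun b => redF (goodRed hNA).toRedLattice (u b))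
  span_eq : Submodule.span QBar (Set.range fun b => (u b : Fb)) = riemannRochSpace (m • poleDiv N)
  fixed : ∀ (σ : GQ) b, galF N σ • (u b : Fb) = u b

theorem nonempty_ratFrame (hNA : (N : ResidueField A) ≠ 0) (hA : A.LiesOverPrime l) (hl : l.Prime) :
    Nonempty (RatFrame hNA) := by
  set h := goodRed (A := A) hNA
  set m : ℤ := bigDeg h + 4 * gQ
  have hbd := three_le_bigDeg h
  have hrr := one_le_rrBound h
  have hbig : m ≤ Divisor.degree (m • poleDiv N) := by
    rw [map_zsmul, smul_eq_mul]
    exact le_mul_of_one_le_right (by omega) one_le_degree_poleDiv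
  obtain ⟨n, fb, hfbW, hfix, hspan⟩ := exists_rat_basis hA hl hNA m
  rw [redW_riemannRochSpace h (D := m • poleDiv N) (by omega)] at hspan
  obtain ⟨κ, a, ha, hsp, hli⟩ := exists_linearIndependent' (K := ResidueField A)
    (fun b => redF h.toRedLattice (fb b))
  have : Finite κ := Finite.of_injective a ha
  obtain ⟨n', ⟨e⟩⟩ := Finite.exists_equiv_fin κ
  have hrange : Set.range (fun b => redF h.toRedLattice (fb (a (e.symm b)))) =
      Set.range ((fun b => redF h.toRedLattice (fb b)) ∘ a) :=
    e.symm.surjective.range_comp ((fun b => redF h.toRedLattice (fb b)) ∘ a)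
  have hli' : LinearIndependent (ResidueField A) fun b => redF h.toRedLattice (fb (a (e.symm b))) :=
    hli.comp _ e.symm.injective
  have hspan' : riemannRochSpace (redDiv h (m • poleDiv N)) ≤ Submodule.span (ResidueField A)
      (Set.range fun b => redF h.toRedLattice (fb (a (e.symm b)))) := by
    rw [hrange, hsp]; exact hspan
  refine ⟨⟨m, hbig, ?_, n', fun b => fb (a (e.symm b)), hli', hspan', ?_, fun σ b => hfix σ _⟩⟩
  · refine Finsupp.le_def.mpr fun w => ?_
    simp only [Finsupp.coe_zero, Pi.zero_apply, Finsupp.smul_apply, smul_eq_mul]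
    refine mul_nonneg (by omega) ?_
    rw [poleDiv, poles_apply]
    exact le_max_left _ _
  · refine Submodule.eq_of_le_of_finrank_le (Submodule.span_le.mpr ?_) ?_
    · rintro _ ⟨b, rfl⟩; exact hfbW _
    · rw [finrank_span_eq_card (linearIndependent_of_redF h.toRedLattice _ hli'), Fintype.card_fin]
      obtain ⟨hfd, hfr⟩ := finrank_redW h.toRedLattice (riemannRochSpace (m • poleDiv N))
      rw [← hfr, redW_riemannRochSpace h (D := m • poleDiv N) (by omega)]
      have := FiniteDimensional.span_of_finite (ResidueField A)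
        (Set.finite_range fun b => redF h.toRedLattice (fb (a (e.symm b))))
      refine (Submodule.finrank_mono hspan').trans ?_
      rw [finrank_span_eq_card hli', Fintype.card_fin]

variable {hNA : (N : ResidueField A) ≠ 0} (Fr : RatFrame hNA)

/-- The large divisor of the frame. -/
abbrev RatFrame.E : Divisor QBar Fb := Fr.m • poleDiv N

theorem RatFrame.le_span {D : Divisor QBar Fb} (hD : 0 ≤ D) :
    riemannRochSpace (Fr.E - D) ≤ Submodule.span QBar (Set.range fun b => (Fr.u b : Fb)) := by
  rw [Fr.span_eq]; exact riemannRochSpace_mono (sub_le_self _ hD)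

section Fibres

variable {M : Type} [AddCommGroup M] [Finite M]

variable (A) in
/-- Reduction of classes. -/
def redCls (i : M →+ JZero N) : M →+ JZeroC (ResidueField A) N := (reductionModL A N).comp i

variable (A) in
/-- The classes with the reduction of a given one. -/
abbrev Fibre (i : M →+ JZero N) (a : M) : Type := {y : M // redCls A i y = redCls A i a}

variable (A) in
/-- The indicator of a fibre. -/
def indFun (i : M →+ JZero N) (a : M) : M → QBar :=
  open Classical in fun y => if redCls A i y = redCls A i a then 1 else 0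

section

variable {i : M →+ JZero N} {T : Divisor QBar (modularFunctionFieldBar N)}

theorem redCls_eq_mk (hT : GoodBase i hNA T) (x : M) :
    redCls A i x = Pic0.mk ⟨hT.fib x - redDiv (goodRed hNA) T, Divisor.mem_degZero.mpr (by
      rw [map_sub, hT.degree_fib, degree_redDiv, hT.degree_eq, sub_self])⟩ := by
  have : IsAlgClosed (ResidueField A) := residueField_isAlgClosed A
  obtain ⟨-, hd, he⟩ := hT.isRep_rep x
  show reductionModL A N (i x) = _
  rw [← he, reductionModL_mk_of_torsion (h := goodRed hNA) (seriesCompat hNA)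
    (EichlerShimura.principalGeneratedByIntegral hNA) _ (n := Nat.card M) Nat.card_pos.ne' (by
      rw [he, ← map_zsmul, natCast_zsmul, card_nsmul_eq_zero', map_zero])]
  exact congrArg Pic0.mk (Subtype.ext (map_sub _ _ _))

theorem fib_eq_of_redCls (hT : GoodBase i hNA T) {x y : M} (h : redCls A i x = redCls A i y) :
    hT.fib x = hT.fib y := by
  have : IsAlgClosed (ResidueField A) := residueField_isAlgClosed A
  rw [redCls_eq_mk hT, redCls_eq_mk hT] at h
  have h' := linEq_iff_mem_principal.mp (pic0_mk_eq_iff.mp h)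
  rw [sub_sub_sub_cancel_right] at h'
  exact (linEq_iff_mem_principal.mpr h').eq_of_ell (hT.fib_nonneg _) (hT.fib_nonneg _) (hT.ell_fib _)

theorem degree_sub_rep (hT : GoodBase i hNA T) (x : M) :
    bigDeg (goodRed (A := A) hNA) ≤ Divisor.degree (Fr.E - hT.rep x) := by
  have h1 : bigDeg (goodRed (A := A) hNA) + 4 * gQ ≤ Divisor.degree Fr.E := Fr.big
  have hg : (0 : ℤ) ≤ ((genusFF QBar Fb : ℕ) : ℤ) := Int.natCast_nonneg _
  rw [map_sub, (hT.isRep_rep x).degree_eq, hT.degree_eq]
  omega

/-- The reduced family on a fibre. -/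
abbrev fibBar (hT : GoodBase i hNA T) (a : M) : Divisor (ResidueField A) Fk :=
  redDiv (goodRed hNA) Fr.E - hT.fib a

theorem redDiv_sub_rep (hT : GoodBase i hNA T) {a : M} (y : Fibre A i a) :
    redDiv (goodRed hNA) (Fr.E - hT.rep y) = fibBar Fr hT a := by
  rw [fibBar, map_sub, ← fib_eq_of_redCls hT y.2]
  rfl

/-- Integral rings over which all the families of representatives are regular. -/
structure RegOver (hT : GoodBase i hNA T) (R : Subalgebra A (M → QBar)) : Prop where
  int : ∀ f ∈ R, ∀ x, f x ∈ A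
  ind : ∀ a : M, indFun A i a ∈ R
  reg : ∀ a : M, IsReg (goodRed hNA) (R.map (pullFun A (Subtype.val : Fibre A i a → M)))
    (fun y => Fr.E - hT.rep y) (fibBar Fr hT a)

/-- An operation between the fibres on a set of parameters gives regularity of the composite. -/
theorem isReg_op {Ω : Type} [Finite Ω] [Nonempty Ω] {R : Subalgebra A (Ω → QBar)}
    (hR : HasIntValues R) {T₁ : Divisor QBar Fb} (hT₁ : GoodBase i hNA T₁)
    {X Y Z : Ω → Divisor QBar Fb} {Xb Yb Zb : Divisor (ResidueField A) Fk}
    (hX0 : ∀ ω, 0 ≤ X ω) (hY0 : ∀ ω, 0 ≤ Y ω) (hZ0 : ∀ ω, 0 ≤ Z ω)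
    (hXd : ∀ ω, Divisor.degree (X ω) = gQ) (hYd : ∀ ω, Divisor.degree (Y ω) = gQ)
    (hZd : ∀ ω, Divisor.degree (Z ω) = gQ)
    (hXr : ∀ ω, redDiv (goodRed hNA) (X ω) = Xb) (hYr : ∀ ω, redDiv (goodRed hNA) (Y ω) = Yb)
    (hZr : ∀ ω, redDiv (goodRed hNA) (Z ω) = Zb)
    (hX : IsReg (goodRed hNA) R (fun ω => Fr.E - X ω) (redDiv (goodRed hNA) Fr.E - Xb))
    (hY : IsReg (goodRed hNA) R (fun ω => Fr.E - Y ω) (redDiv (goodRed hNA) Fr.E - Yb))
    (hZ : IsReg (goodRed hNA) R (fun ω => Fr.E - Z ω) (redDiv (goodRed hNA) Fr.E - Zb))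
    (a : M) (π : Ω → Fibre A i a)
    (hlin : ∀ ω, LinEq (hT₁.rep (π ω)) (X ω + Y ω - Z ω)) :
    IsReg (goodRed hNA) R (fun ω => Fr.E - hT₁.rep (π ω)) (fibBar Fr hT₁ a) := by
  have : IsAlgClosed (ResidueField A) := residueField_isAlgClosed A
  obtain ⟨ω₀⟩ := ‹Nonempty Ω›
  have hb : ∃ f : Fk, f ≠ 0 ∧
      hT₁.fib a = Xb + Yb - Zb + FF.div (ResidueField A) f := by
    have h1 := (hlin ω₀).redDiv (goodRed hNA)
    rw [map_sub, map_add, hXr, hYr, hZr] at h1
    rw [← fib_eq_of_redCls hT₁ (π ω₀).2]
    exact h1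
  obtain ⟨D, hD, hreg⟩ := IsReg.exists_op hR Fr.nonneg Fr.big hX0 hY0 hZ0 hXd hYd hZd hXr hYr hZr
    hX hY hZ (hT₁.fib_nonneg a) (hT₁.ell_fib a) hb
  have e : ∀ ω, D ω = hT₁.rep (π ω) := fun ω =>
    hT₁.eq_rep ((hT₁.isRep_rep (π ω)).of_linEq (hD ω).1 ((show LinEq (D ω) _ from (hD ω).2.2).trans (hlin ω).symm))
  simp only [e] at hreg
  exact hreg

/-- Regularity does not depend on the base divisor. -/
theorem RegOver.change {hT : GoodBase i hNA T} {R : Subalgebra A (M → QBar)}
    (hR : RegOver Fr hT R) {T' : Divisor QBar Fb} (hT' : GoodBase i hNA T') :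
    RegOver Fr hT' R := by
  refine ⟨hR.int, hR.ind, fun a => ?_⟩
  have : IsAlgClosed (ResidueField A) := residueField_isAlgClosed A
  have : Nonempty (Fibre A i a) := ⟨⟨a, rfl⟩⟩
  have hbig : ∀ {S : Divisor QBar Fb}, Divisor.degree S = gQ →
      bigDeg (goodRed (A := A) hNA) ≤ Divisor.degree (Fr.E - S) := fun {S} hS => by
    have h1 : bigDeg (goodRed (A := A) hNA) + 4 * gQ ≤ Divisor.degree Fr.E := Fr.big
    have hg : (0 : ℤ) ≤ ((genusFF QBar Fb : ℕ) : ℤ) := Int.natCast_nonneg _
    rw [map_sub, hS]
    omega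
  refine isReg_op Fr (Ω := Fibre A i a) (hasIntValues_map _ hR.int) hT' (X := fun y : Fibre A i a => hT.rep y)
    (Y := fun _ => T')
    (Z := fun _ => T) (Xb := hT.fib a) (fun y => (hT.isRep_rep _).1) (fun _ => hT'.nonneg)
    (fun _ => hT.nonneg) (fun y => (hT.isRep_rep _).degree_eq.trans hT.degree_eq)
    (fun _ => hT'.degree_eq) (fun _ => hT.degree_eq) (fun y => fib_eq_of_redCls hT y.2)
    (fun _ => rfl) (fun _ => rfl) (hR.reg a) ?_ ?_ a (fun y => y)
    (fun y => (hT.isRep_rep y.1).linEq_change (hT'.isRep_rep y.1))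
  · rw [← map_sub]; exact isReg_const (hbig hT'.degree_eq)
  · rw [← map_sub]; exact isReg_const (hbig hT.degree_eq)

end

end Fibres

end Fermat.Agent.FiniteFlat
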