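import Mathlib.LinearAlgebra.LinearIndependent.Lemmas
import Mathlib.LinearAlgebra.Dual.Lemmas
import Mathlib.LinearAlgebra.StdBasis

/-!
# A multiplicative set of functions which separates points spans all functions
-/

set_option autoImplicit false

namespace Fermat.Agent.FiniteFlat

/-- A submonoid of functions on a finite set to a field which separates points spans everything. -/
theorem span_eq_top_of_separating {Ω M : Type*} [Field Ω] [Finite M] (H : Submonoid (M → Ω))
    (hH : ∀ x y, (∀ f ∈ H, f x = f y) → x = y) : Submodule.span Ω (H : Set (M → Ω)) = ⊤ := by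
  classical
  have := Fintype.ofFinite M
  by_contra hne
  obtain ⟨φ, hφ0, hφ⟩ :=
    Submodule.exists_dual_map_eq_bot_of_lt_top (lt_top_iff_ne_top.2 hne) inferInstance
  have hli := (linearIndependent_monoidHom H Ω).comp
    (fun m : M => (Pi.evalMonoidHom (fun _ => Ω) m).comp H.subtype)
    fun x y h => hH x y fun f hf => DFunLike.congr_fun h ⟨f, hf⟩
  refine hφ0 ((Pi.basisFun Ω M).ext fun m => ?_)
  rw [Pi.basisFun_apply, LinearMap.zero_apply]
  refine Fintype.linearIndependent_iff.1 hli (fun m => φ (Pi.single m 1)) (funext fun f => ?_) m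
  have hf : φ f.1 = 0 := (Submodule.eq_bot_iff _).1 hφ _ ⟨_, Submodule.subset_span f.2, rfl⟩
  rw [pi_eq_sum_univ' f.1, map_sum] at hf
  simpa [mul_comm] using hf

end Fermat.Agent.FiniteFlat
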