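import Fermat.Agent.FiniteFlat.FibreLattice
import Fermat.Agent.FiniteFlat.OfLattice

/-!
# Galois stability of the lattice algebra

The lattice algebra is stable under the decomposition group, and its generators are fixed by an
open subgroup containing inertia when the base divisor is fixed by inertia.
-/

set_option autoImplicit false
set_option linter.unusedSectionVars false

noncomputable section

open IsLocalRing AlgebraicCurve ModularCurve
open Fermat.Agent.Arith Fermat.Agent.FF Fermat.Agent.RedTorsion
open scoped Pointwise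
open scoped Matrix

namespace Fermat.Agent.FiniteFlat

theorem inv_smul_eq_self_of_smul_eq {A : ValuationSubring QBar} {d : GQ} (hd : d • A = A) :
    d⁻¹ • A = A := by
  conv_lhs => rw [← hd]
  rw [inv_smul_smul]

variable {A : ValuationSubring QBar} {l N : ℕ} [NeZero N]

local notation "Fb" => modularFunctionFieldBar N
local notation "Fk" => modularFunctionFieldFullC (ResidueField A) N

variable [IsFunctionField QBar (modularFunctionFieldBar N)]
  [IsFunctionField (ResidueField A) (modularFunctionFieldFullC (ResidueField A) N)]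
  {hNA : (N : ResidueField A) ≠ 0} {Fr : RatFrame hNA}
  {M : Type} [AddCommGroup M] [Finite M] [DistribMulAction GQ M] {i : M →+ JZero N}
  (hi : ∀ (g : GQ) (x : M), i (g • x) = g • i x)

include hi in
theorem redCls_smul {d : GQ} (hd : d • A = A) (hNA : (N : ResidueField A) ≠ 0) (x : M) :
    redCls A i (d • x) = EichlerShimura.coeffAut N (residueAutOf hd) • redCls A i x := by
  have : IsAlgClosed (ResidueField A) := residueField_isAlgClosed A
  show reductionModL A N (i (d • x)) = _ • reductionModL A N (i x)
  rw [hi]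
  exact EichlerShimura.reductionModL_smul hNA hd _ (fun x => (residueAutOf_residue hd x).symm) _

include hi in
theorem redCls_smul_inertia {σ : GQ} (hσ : σ ∈ A.inertiaSubgroupIn ℚ)
    (hNA : (N : ResidueField A) ≠ 0) (x : M) : redCls A i (σ • x) = redCls A i x := by
  have : IsAlgClosed (ResidueField A) := residueField_isAlgClosed A
  show reductionModL A N (i (σ • x)) = reductionModL A N (i x)
  rw [hi]
  exact EichlerShimura.reductionModL_inertia hNA hσ _

include hi in
theorem redCls_smul_eq_iff {d : GQ} (hd : d • A = A) (hNA : (N : ResidueField A) ≠ 0) (x a : M) :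
    redCls A i (d • x) = redCls A i (d • a) ↔ redCls A i x = redCls A i a := by
  rw [redCls_smul hi hd hNA, redCls_smul hi hd hNA]
  exact smul_left_cancel_iff _

variable {T : Divisor QBar (modularFunctionFieldBar N)}

theorem galF_sum (d : GQ) (c : Fin Fr.n → QBar) :
    galF N d • (∑ b, c b • (Fr.u b : Fb)) = ∑ b, d (c b) • (Fr.u b : Fb) := by
  rw [Finset.smul_sum]
  exact Finset.sum_congr rfl fun b _ => by rw [galF_smul_smul, Fr.fixed]

theorem galF_sub_E (d : GQ) (D : Divisor QBar Fb) :
    galF N d • (Fr.E - D) = Fr.E - galF N d • D := by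
  rw [smul_sub, galF_smul_mul_poleDiv]

theorem galF_mem_sub (d : GQ) {c : Fin Fr.n → QBar} {D : Divisor QBar (modularFunctionFieldBar N)}
    (h : (∑ b, c b • (Fr.u b : Fb)) ∈ riemannRochSpace (Fr.E - D)) :
    (∑ b, d (c b) • (Fr.u b : Fb)) ∈ riemannRochSpace (Fr.E - galF N d • D) := by
  rw [← galF_sum, ← galF_sub_E]
  exact galF_mem_riemannRochSpace d h

theorem galF_inv_smul (d : GQ) (D : Divisor QBar (modularFunctionFieldBar N)) :
    galF N d⁻¹ • galF N d • D = D := by
  rw [galF_inv, inv_smul_smul]

include hi in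
/-- The lattice algebra is stable under the decomposition group. -/
theorem galAct_mem_latAlg {hT : GoodBase i hNA T} (ch : ∀ a, FibChart Fr hT a) {d : GQ}
    (hd : d • A = A) : ∀ f ∈ latAlg ch, galAct d f ∈ latAlg ch := by
  have : IsAlgClosed (ResidueField A) := residueField_isAlgClosed A
  have hd' := inv_smul_eq_self_of_smul_eq hd
  have hT' := GoodBase.smul hNA hi hT hd
  have hR := (regOver_latAlg ch).change Fr hT'
  intro f hf
  induction hf using Algebra.adjoin_induction with
  | algebraMap c =>
    have e : galAct d (algebraMap A (M → QBar) c) =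
        algebraMap A (M → QBar) ⟨d c, map_mem_of_mem_decomposition hd c.2⟩ := rfl
    rw [e]
    exact Subalgebra.algebraMap_mem _ _
  | add f g _ _ h1 h2 =>
    have e : galAct d (f + g) = galAct d f + galAct d g := funext fun m => map_add d _ _
    rw [e]; exact add_mem h1 h2
  | mul f g _ _ h1 h2 =>
    have e : galAct d (f * g) = galAct d f * galAct d g := funext fun m => map_mul d _ _
    rw [e]; exact mul_mem h1 h2
  | mem f hf =>
    rcases hf with ⟨a, rfl⟩ | ⟨⟨a, t, b⟩, rfl⟩
    · have e : galAct d (indFun A i a) = indFun A i (d • a) := by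
        funext m
        have h := redCls_smul_eq_iff hi hd hNA (d⁻¹ • m) a
        rw [smul_inv_smul] at h
        show d (indFun A i a (d⁻¹ • m)) = _
        simp only [indFun]
        split_ifs with h1 h2 h2
        · exact map_one d
        · exact absurd (h.mpr h1) h2
        · exact absurd (h.mp h2) h1
        · exact map_zero d
      rw [e]
      exact Algebra.subset_adjoin (Or.inl ⟨_, rfl⟩)
    · have hmem : ∀ y : Fibre A i (d • a), redCls A i (d⁻¹ • y.1) = redCls A i a := fun y => by
        have h := redCls_smul_eq_iff hi hd hNA (d⁻¹ • y.1) a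
        rw [smul_inv_smul] at h
        exact h.mp y.2
      set c : Fin Fr.n → Fibre A i (d • a) → QBar := fun b y =>
        d ((ch a).gen t b ⟨d⁻¹ • y.1, hmem y⟩)
      have e : galAct d (extFun a ((ch a).gen t b)) = extFun (d • a) (c b) := by
        funext m
        have h := redCls_smul_eq_iff hi hd hNA (d⁻¹ • m) a
        rw [smul_inv_smul] at h
        show d (extFun a _ (d⁻¹ • m)) = _
        unfold extFun
        split_ifs with h1 h2 h2
        · rfl
        · exact absurd (h.mpr h1) h2
        · exact absurd (h.mp h2) h1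
        · exact map_zero d
      have hrep : ∀ y : M, galF N d • hT.rep (d⁻¹ • y) = hT'.rep y := fun y => by
        have h1 := (hT.isRep_rep (d⁻¹ • y)).smul hi d
        rw [smul_inv_smul] at h1
        exact hT'.eq_rep h1
      let P' : Matrix (Fin (ch a).r) (Fin Fr.n) A :=
        (ch a).P.map fun x => ⟨d x, map_mem_of_mem_decomposition hd x.2⟩
      have hP' : ∀ (x : Fin Fr.n → QBar) t',
          ((P'.map A.subtype) *ᵥ fun b => d (x b)) t' = d (((ch a).P.map A.subtype *ᵥ x) t') := by
        intro x t'
        simp only [Matrix.mulVec, dotProduct, map_sum, map_mul, P', Matrix.map_apply]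
        rfl
      rw [e]
      have hfib : fibBar Fr hT' (d • a) =
          redDiv (goodRed hNA) Fr.E - EichlerShimura.coeffAut N (residueAutOf hd) • hT.fib a := by
        show _ - redDiv (goodRed hNA) (hT'.rep (d • a)) = _
        rw [← hrep, inv_smul_smul, redDiv_galF_decomposition hNA hd]
        rfl
      refine extFun_mem_of_regOver hR (r := (ch a).r) (P := P') ?_ ?_ (Pi.single t 1)
        (fun y => ?_) (fun y => funext fun t' => ?_) b
      · rw [(ch a).hr, hfib]
        have h1 : redDiv (goodRed hNA) Fr.E =
            EichlerShimura.coeffAut N (residueAutOf hd) • redDiv (goodRed hNA) Fr.E := by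
          rw [← redDiv_galF_decomposition hNA hd, galF_smul_mul_poleDiv]
        rw [h1, ← smul_sub]
        exact Int.ofNat.inj (CurveTorsion.ell_smul _ _).symm
      · intro y x hx h0 j
        obtain ⟨x0, hx0⟩ : ∃ x0 : Fin Fr.n → A, ∀ b, (x0 b : QBar) = d⁻¹ (x b) :=
          ⟨fun b => ⟨d⁻¹ (x b), map_mem_of_mem_decomposition hd' (x b).2⟩, fun b => rfl⟩
        have hd0 : ∀ b, d (x0 b : QBar) = (x b : QBar) := fun b =>
          (congrArg d (hx0 b)).trans (AlgEquiv.apply_symm_apply d _)
        have h2 := galF_mem_sub (Fr := Fr) d⁻¹ (c := fun b => (x b : QBar))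
          (D := hT'.rep y.1) hx
        rw [(congrArg (galF N d⁻¹ • ·) (hrep y.1).symm).trans (galF_inv_smul d _)] at h2
        have e0 : (∑ b, (x0 b : QBar) • (Fr.u b : Fb)) =
            ∑ b, (d⁻¹ : GQ) (x b : QBar) • (Fr.u b : Fb) :=
          Finset.sum_congr rfl fun b _ => congrArg (fun z : QBar => z • (Fr.u b : Fb)) (hx0 b)
        have h3 := (ch a).inj ⟨d⁻¹ • y.1, hmem y⟩ x0 (e0.symm ▸ h2) (fun t' => ?_) j
        · have h4 : residueAutOf hd (residue A (x0 j)) = residue A (x j) :=
            (residueAutOf_residue hd _).trans (congrArg _ (Subtype.ext (hd0 j)))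
          rw [← h4, h3, map_zero]
        · refine (map_eq_zero_iff (residueAutOf hd) (residueAutOf hd).injective).mp ?_
          refine (residueAutOf_residue hd _).trans (Eq.trans (congrArg _ (Subtype.ext ?_)) (h0 t'))
          simp only [Matrix.mulVec, dotProduct, AddSubmonoidClass.coe_finsetSum, map_sum,
            MulMemClass.coe_mul, map_mul, P', Matrix.map_apply, hd0]
      · have h1 := galF_mem_sub (Fr := Fr) d ((ch a).space t ⟨d⁻¹ • y.1, hmem y⟩)
        exact (congrArg (fun D => (∑ b, c b y • (Fr.u b : Fb)) ∈ riemannRochSpace (Fr.E - D))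
          (hrep y.1)).mp h1
      · refine (hP' (fun b => (ch a).gen t b ⟨d⁻¹ • y.1, hmem y⟩) t').trans ?_
        rw [congrFun ((ch a).delta t ⟨d⁻¹ • y.1, hmem y⟩) t', Pi.single_apply, Pi.single_apply]
        split_ifs <;> simp

/-- The stabiliser of functions in the twisted action. -/
def fixGroup (s : Set (M → QBar)) : Subgroup GQ where
  carrier := {σ | ∀ f ∈ s, galAct σ f = f}
  one_mem' f _ := funext fun m => by simp [galAct]
  mul_mem' {a b} ha hb f hf := by rw [galAct_mul, hb f hf, ha f hf]
  inv_mem' {a} ha f hf := by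
    conv_lhs => rw [← ha f hf]
    rw [← galAct_mul, inv_mul_cancel]
    funext m
    simp [galAct]

/-- An effective divisor of small degree is fixed by the automorphisms fixing the coefficients of
its space of functions. -/
theorem exists_field_fix_divisor {D : Divisor QBar (modularFunctionFieldBar N)} (hD : 0 ≤ D)
    (hd : bigDeg (goodRed (A := A) hNA) ≤ Divisor.degree (Fr.E - D)) :
    ∃ L : IntermediateField ℚ QBar, FiniteDimensional ℚ L ∧
      ∀ σ : GQ, (∀ q ∈ L, σ q = q) → galF N σ • D = D := by
  classical
  have : IsAlgClosed (ResidueField A) := residueField_isAlgClosed A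
  have := finiteDimensional_riemannRochSpace (K := QBar) (Fr.E - D)
  let b := Module.finBasis QBar (riemannRochSpace (Fr.E - D))
  have hex : ∀ k, ∃ c : Fin Fr.n → QBar, ∑ j, c j • (Fr.u j : Fb) = (b k : Fb) := fun k =>
    (Submodule.mem_span_range_iff_exists_fun QBar).mp (Fr.le_span hD (b k).2)
  choose c hc using hex
  let x : Fin (Module.finrank QBar (riemannRochSpace (Fr.E - D))) × Fin Fr.n → QBar :=
    fun p => c p.1 p.2
  refine ⟨IntermediateField.adjoin ℚ (Set.range x), ?_, fun σ hσ => ?_⟩
  · have : Finite (Set.range x) := Set.finite_range x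
    exact IntermediateField.finiteDimensional_adjoin fun a _ => Algebra.IsIntegral.isIntegral a
  · have hfix : ∀ k, galF N σ • (b k : Fb) = b k := fun k => by
      rw [← hc k, galF_sum]
      exact Finset.sum_congr rfl fun j _ => by
        rw [hσ _ (IntermediateField.subset_adjoin ℚ _ ⟨(k, j), rfl⟩)]
    have hle : riemannRochSpace (Fr.E - D) ≤ riemannRochSpace (Fr.E - galF N σ • D) := by
      have hspan := congrArg (Submodule.map (riemannRochSpace (Fr.E - D)).subtype) b.span_eq
      rw [Submodule.map_span, Submodule.map_top, Submodule.range_subtype, ← Set.range_comp] at hspan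
      rw [← hspan]
      refine Submodule.span_le.mpr ?_
      rintro _ ⟨k, rfl⟩
      have h1 := galF_mem_riemannRochSpace σ (b k).2
      rw [galF_sub_E, hfix k] at h1
      exact h1
    have hb := three_le_bigDeg (goodRed (A := A) hNA)
    have hr := one_le_rrBound (goodRed (A := A) hNA)
    have hcc : ∀ X : Divisor QBar Fb, rrBound (goodRed (A := A) hNA) ≤ Divisor.degree X →
        ell QBar X = Divisor.degree X + 1 - genusFF QBar Fb := fun X hX =>
      ell_eq_of_rrBound_le _ hX
    have h1 := le_of_riemannRochSpace_le hcc (by omega) hle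
    exact eq_of_le_of_degree_le ((sub_le_sub_iff_left _).mp h1) (by rw [SemilinearAut.degree_smul])

include hi in
theorem isOpen_fixGroup (hinj : Function.Injective i) {hT : GoodBase i hNA T} (Fr : RatFrame hNA)
    {s : Set (M → QBar)} (hs : s.Finite) : IsOpen (fixGroup s : Set GQ) := by
  have : IsAlgClosed (ResidueField A) := residueField_isAlgClosed A
  have := hs.to_subtype
  have hTd : bigDeg (goodRed (A := A) hNA) ≤ Divisor.degree (Fr.E - T) := by
    have h1 : bigDeg (goodRed (A := A) hNA) + 4 * genusFF QBar Fb ≤ Divisor.degree Fr.E := Fr.big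
    have hg : (0 : ℤ) ≤ ((genusFF QBar Fb : ℕ) : ℤ) := Int.natCast_nonneg _
    rw [map_sub, hT.degree_eq]
    omega
  obtain ⟨L0, hL0fin, hL0⟩ := exists_field_fix_divisor hT.nonneg hTd
  choose LT hLTfin hLT using fun m : M =>
    exists_field_fix_divisor (Fr := Fr) (hT.isRep_rep m).1 (degree_sub_rep Fr hT m)
  have := hLTfin
  have := hL0fin
  let xv : s × M → QBar := fun p => (p.1 : M → QBar) p.2
  have : Finite (Set.range xv) := Set.finite_range xv
  have : FiniteDimensional ℚ (IntermediateField.adjoin ℚ (Set.range xv)) :=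
    IntermediateField.finiteDimensional_adjoin fun a _ => Algebra.IsIntegral.isIntegral a
  refine Subgroup.isOpen_mono (H₁ := ((⨆ m, LT m : IntermediateField ℚ QBar) ⊔ L0 ⊔
    IntermediateField.adjoin ℚ (Set.range xv)).fixingSubgroup)
    ?_ (IntermediateField.fixingSubgroup_isOpen _)
  intro σ hσ f hf
  rw [IntermediateField.mem_fixingSubgroup_iff] at hσ
  have hm : ∀ m : M, σ • m = m := fun m => by
    have h1 := (hT.isRep_rep m).smul hi σ
    rw [hL0 σ fun q hq => hσ q (SetLike.le_def.mp (le_sup_right.trans le_sup_left) hq),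
      hLT m σ fun q hq => hσ q (SetLike.le_def.mp ((le_iSup LT m).trans
        (le_sup_left.trans le_sup_left)) hq)] at h1
    exact hinj (h1.apply_eq (hT.isRep_rep m))
  funext m
  show σ (f (σ⁻¹ • m)) = f m
  rw [inv_smul_eq_iff.mpr (hm m).symm]
  exact hσ _ (SetLike.le_def.mp le_sup_right
    (IntermediateField.subset_adjoin ℚ _ ⟨(⟨f, hf⟩, m), rfl⟩))

include hi in
/-- Inertia fixes the generators when it fixes the base divisor. -/
theorem inertia_le_fixGroup {hT : GoodBase i hNA T} (ch : ∀ a, FibChart Fr hT a)
    (hfix : ∀ σ ∈ A.inertiaSubgroupIn ℚ, galF N σ • T = T) :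
    A.inertiaSubgroupIn ℚ ≤ fixGroup (latGens ch) := by
  intro σ hσ f hf
  funext m
  show σ (f (σ⁻¹ • m)) = f m
  have hred : redCls A i (σ⁻¹ • m) = redCls A i m :=
    redCls_smul_inertia hi (inv_mem hσ) hNA m
  rcases hf with ⟨a, rfl⟩ | ⟨⟨a, t, b⟩, rfl⟩
  · rw [indFun_congr hred, indFun]
    split_ifs <;> simp
  · simp only [extFun]
    split_ifs with h1 h2 h2
    · have hrep : galF N σ • hT.rep (σ⁻¹ • m) = hT.rep m := by
        have h3 := (hT.isRep_rep (σ⁻¹ • m)).smul hi σ
        rw [smul_inv_smul, hfix σ hσ] at h3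
        exact hT.eq_rep h3
      refine congrFun ((ch a).eq_gen t ⟨m, h2⟩ (c := fun b => σ ((ch a).gen t b ⟨σ⁻¹ • m, h1⟩))
        ?_ (funext fun t' => ?_)) b
      · have h3 := galF_mem_riemannRochSpace σ ((ch a).space t ⟨σ⁻¹ • m, h1⟩)
        rw [galF_sum, galF_sub_E, hrep] at h3
        exact h3
      · have h4 := congrArg σ (congrFun ((ch a).delta t ⟨σ⁻¹ • m, h1⟩) t')
        simp only [Matrix.mulVec, dotProduct, map_sum, map_mul, Matrix.map_apply] at h4 ⊢
        refine Eq.trans (Finset.sum_congr rfl fun b' _ => ?_) (h4.trans ?_)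
        · exact congrArg (· * _) ((ch a).fixed t' b' σ hσ).symm
        · rw [Pi.single_apply]; split_ifs <;> simp
    · exact absurd (hred.symm.trans h1) h2
    · exact absurd (hred.trans h2) h1
    · exact map_zero σ

theorem toSubmodule_latAlg_le_span {hT : GoodBase i hNA T} (ch : ∀ a, FibChart Fr hT a) :
    (latAlg ch).toSubmodule ≤ Submodule.span A
      {f | f ∈ latAlg ch ∧ ∀ u ∈ fixGroup (latGens ch), galAct u f = f} := by
  rw [latAlg, Algebra.adjoin_eq_span]
  refine Submodule.span_mono fun f hf => ⟨Submonoid.closure_le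
    (S := (latAlg ch).toSubsemiring.toSubmonoid) |>.mpr Algebra.subset_adjoin hf, fun u hu => ?_⟩
  induction hf using Submonoid.closure_induction with
  | mem f hf => exact hu f hf
  | one => exact funext fun m => map_one u
  | mul f g _ _ h1 h2 =>
    rw [show galAct u (f * g) = galAct u f * galAct u g from funext fun m => map_mul u _ _, h1, h2]

end Fermat.Agent.FiniteFlat
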