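import Fermat.Agent.FiniteFlat.FibreLattice

/-!
# The group law on the lattice algebra
-/

set_option autoImplicit false
set_option linter.unusedSectionVars false

noncomputable section

open IsLocalRing AlgebraicCurve ModularCurve
open Fermat.Agent.Arith Fermat.Agent.FF Fermat.Agent.RedTorsion

namespace Fermat.Agent.FiniteFlat

variable {A : ValuationSubring QBar}

/-- The functions on pairs generated by the two pullbacks. -/
def pairAlg {M : Type} (S : Subalgebra A (M → QBar)) : Subalgebra A (M × M → QBar) :=
  S.map (pullFun A Prod.fst) ⊔ S.map (pullFun A Prod.snd)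

theorem fst_mem_pairAlg {M : Type} {S : Subalgebra A (M → QBar)} {f : M → QBar} (hf : f ∈ S) :
    (fun p : M × M => f p.1) ∈ pairAlg S :=
  SetLike.le_def.mp le_sup_left ⟨f, hf, rfl⟩

theorem snd_mem_pairAlg {M : Type} {S : Subalgebra A (M → QBar)} {f : M → QBar} (hf : f ∈ S) :
    (fun p : M × M => f p.2) ∈ pairAlg S :=
  SetLike.le_def.mp le_sup_right ⟨f, hf, rfl⟩

theorem exists_sum_of_mem_pairAlg {M : Type} {S : Subalgebra A (M → QBar)} {g : M × M → QBar}
    (hg : g ∈ pairAlg S) :
    ∃ (κ : Type) (_ : Fintype κ) (a b : κ → (M → QBar)),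
      (∀ j, a j ∈ S) ∧ (∀ j, b j ∈ S) ∧ ∀ x y, g (x, y) = ∑ j, a j x * b j y := by
  rw [pairAlg] at hg
  have hg' : g ∈ Algebra.adjoin A
      (↑(S.map (pullFun A (Prod.fst : M × M → M))) ∪ ↑(S.map (pullFun A (Prod.snd : M × M → M)))) := by
    rwa [Algebra.adjoin_union, Algebra.adjoin_eq, Algebra.adjoin_eq]
  clear hg
  induction hg' using Algebra.adjoin_induction with
  | mem g hg =>
    rcases hg with ⟨f, hf, rfl⟩ | ⟨f, hf, rfl⟩
    · exact ⟨Unit, inferInstance, fun _ => f, fun _ => 1, fun _ => hf, fun _ => one_mem S,
        fun x y => by simp [pullFun_apply]⟩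
    · exact ⟨Unit, inferInstance, fun _ => 1, fun _ => f, fun _ => one_mem S, fun _ => hf,
        fun x y => by simp [pullFun_apply]⟩
  | algebraMap c =>
    exact ⟨Unit, inferInstance, fun _ => algebraMap A _ c, fun _ => 1,
      fun _ => S.algebraMap_mem c, fun _ => one_mem S, fun x y => by
        simp⟩
  | add g g' _ _ h1 h2 =>
    obtain ⟨κ, _, a, b, ha, hb, hab⟩ := h1
    obtain ⟨κ', _, a', b', ha', hb', hab'⟩ := h2
    exact ⟨κ ⊕ κ', inferInstance, Sum.elim a a', Sum.elim b b', by rintro (j | j) <;> simp [ha, ha'],
      by rintro (j | j) <;> simp [hb, hb'], fun x y => by simp [hab, hab']⟩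
  | mul g g' _ _ h1 h2 =>
    obtain ⟨κ, _, a, b, ha, hb, hab⟩ := h1
    obtain ⟨κ', _, a', b', ha', hb', hab'⟩ := h2
    refine ⟨κ × κ', inferInstance, fun j => a j.1 * a' j.2, fun j => b j.1 * b' j.2,
      fun j => mul_mem (ha _) (ha' _), fun j => mul_mem (hb _) (hb' _), fun x y => ?_⟩
    rw [Pi.mul_apply, hab, hab', Fintype.sum_prod_type, Finset.sum_mul_sum]
    exact Finset.sum_congr rfl fun j _ => Finset.sum_congr rfl fun j' _ => by
      simp only [Pi.mul_apply]; ring

variable {N : ℕ} [NeZero N]

local notation "Fb" => modularFunctionFieldBar N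
local notation "Fk" => modularFunctionFieldFullC (ResidueField A) N

variable [IsFunctionField QBar (modularFunctionFieldBar N)]
  [IsFunctionField (ResidueField A) (modularFunctionFieldFullC (ResidueField A) N)]
  {hNA : (N : ResidueField A) ≠ 0} {Fr : RatFrame hNA}
  {M : Type} [AddCommGroup M] [Finite M] {i : M →+ JZero N}
  {T : Divisor QBar (modularFunctionFieldBar N)}

theorem exists_sum_indFun : ∃ s : Finset M, ∀ x, ∑ a ∈ s, indFun A i a x = 1 := by
  classical
  have := Fintype.ofFinite M
  let c : M → M := fun x => Function.invFun (redCls A i) (redCls A i x)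
  have hc : ∀ x, redCls A i (c x) = redCls A i x := fun x => Function.invFun_eq ⟨x, rfl⟩
  refine ⟨Finset.univ.image c, fun x => ?_⟩
  rw [Finset.sum_eq_single_of_mem (c x) (Finset.mem_image_of_mem _ (Finset.mem_univ _))]
  · exact indFun_of_mem (hc x).symm
  · intro a ha hne
    obtain ⟨z, -, rfl⟩ := Finset.mem_image.mp ha
    refine indFun_of_notMem fun h => hne ?_
    show Function.invFun (redCls A i) _ = Function.invFun (redCls A i) _
    rw [h, hc]

/-- A function lies in a ring with the indicators as soon as all its products with them do. -/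
theorem mem_of_forall_indFun_mul {S : Subalgebra A (M → QBar)} {f : M → QBar}
    (hf : ∀ a, (fun y => indFun A i a y * f y) ∈ S) : f ∈ S := by
  obtain ⟨s, hs⟩ := exists_sum_indFun (A := A) (i := i)
  rw [show f = ∑ a ∈ s, fun y => indFun A i a y * f y from funext fun y => by
    simp [Finset.sum_apply, ← Finset.sum_mul, hs]]
  exact sum_mem fun a _ => hf a

theorem mem_pairAlg_of_forall_indFun_mul {S : Subalgebra A (M → QBar)} {f : M × M → QBar}
    (hf : ∀ a b, (fun p : M × M => indFun A i a p.1 * indFun A i b p.2 * f p) ∈ pairAlg S) :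
    f ∈ pairAlg S := by
  obtain ⟨s, hs⟩ := exists_sum_indFun (A := A) (i := i)
  rw [show f = ∑ a ∈ s, ∑ b ∈ s, fun p : M × M => indFun A i a p.1 * indFun A i b p.2 * f p from
    funext fun p => by simp only [Finset.sum_apply, ← Finset.sum_mul, ← Finset.mul_sum, hs, mul_one, one_mul]]
  exact sum_mem fun a _ => sum_mem fun b _ => hf a b

variable {hT : GoodBase i hNA T} (ch : ∀ a, FibChart Fr hT a)

theorem bigDeg_le_sub (Fr : RatFrame hNA) (hT : GoodBase i hNA T) :
    bigDeg (goodRed (A := A) hNA) ≤ Divisor.degree (Fr.E - T) := by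
  have h1 : bigDeg (goodRed (A := A) hNA) + 4 * genusFF QBar Fb ≤ Divisor.degree Fr.E := Fr.big
  rw [map_sub, hT.degree_eq]
  omega

theorem rrBound_le_fibBar [IsAlgClosed (ResidueField A)] (Fr : RatFrame hNA) (hT : GoodBase i hNA T) (a : M) :
    rrBound (goodRed (A := A) hNA) ≤ Divisor.degree (fibBar Fr hT a) := by
  have h1 := degree_sub_rep Fr hT a
  rw [← redDiv_sub_rep Fr hT (⟨a, rfl⟩ : Fibre A i a), degree_redDiv]
  have h3 := three_le_bigDeg (goodRed (A := A) hNA)
  have h4 := one_le_rrBound (goodRed (A := A) hNA)
  change _ ≤ Divisor.degree (Fr.E - hT.rep a)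
  omega


/-- The lattice algebra is closed under the coproduct. -/
theorem comul_mem_latAlg {f : M → QBar} (hf : f ∈ latAlg ch) :
    (fun p : M × M => f (p.1 + p.2)) ∈ pairAlg (latAlg ch) := by
  have : IsAlgClosed (ResidueField A) := residueField_isAlgClosed A
  induction hf using Algebra.adjoin_induction with
  | algebraMap c => exact (pairAlg (latAlg ch)).algebraMap_mem c
  | add f g _ _ h1 h2 => exact add_mem h1 h2
  | mul f g _ _ h1 h2 => exact mul_mem h1 h2
  | mem f hf =>
    refine mem_pairAlg_of_forall_indFun_mul (i := i) fun b b' => ?_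
    have hind : (fun p : M × M => indFun A i b p.1 * indFun A i b' p.2) ∈ pairAlg (latAlg ch) :=
      mul_mem (fst_mem_pairAlg (Algebra.subset_adjoin (Or.inl ⟨b, rfl⟩)))
        (snd_mem_pairAlg (Algebra.subset_adjoin (Or.inl ⟨b', rfl⟩)))
    have hadd : ∀ p : M × M, redCls A i p.1 = redCls A i b → redCls A i p.2 = redCls A i b' →
        redCls A i (p.1 + p.2) = redCls A i (b + b') := fun p h1 h2 => by
      rw [map_add, map_add, h1, h2]
    rcases hf with ⟨a, rfl⟩ | ⟨⟨a, t, j⟩, rfl⟩
    · have e : (fun p : M × M => indFun A i b p.1 * indFun A i b' p.2 * indFun A i a (p.1 + p.2)) =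
          (fun p => indFun A i b p.1 * indFun A i b' p.2) *
            algebraMap A (M × M → QBar) ⟨indFun A i a (b + b'), indFun_mem_int a _⟩ := by
        funext p
        show _ = indFun A i b p.1 * indFun A i b' p.2 * indFun A i a (b + b')
        by_cases h1 : redCls A i p.1 = redCls A i b
        · by_cases h2 : redCls A i p.2 = redCls A i b'
          · rw [indFun_congr (hadd p h1 h2)]
          · simp [indFun_of_notMem h2]
        · simp [indFun_of_notMem h1]
      rw [e]
      exact mul_mem hind (Subalgebra.algebraMap_mem _ _)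
    · by_cases hab : redCls A i (b + b') = redCls A i a
      · let Ω := Fibre A i b × Fibre A i b'
        have : Nonempty Ω := ⟨⟨⟨b, rfl⟩, ⟨b', rfl⟩⟩⟩
        let val2 : Ω → M × M := fun ω => (ω.1.1, ω.2.1)
        let π : Ω → Fibre A i a := fun ω =>
          ⟨ω.1.1 + ω.2.1, (hadd (val2 ω) ω.1.2 ω.2.2).trans hab⟩
        have hint : ∀ g ∈ pairAlg (latAlg ch), ∀ p, g p ∈ A := fun g hg p => by
          obtain ⟨κ, _, u, v, hu, hv, huv⟩ := exists_sum_of_mem_pairAlg hg
          rw [show p = (p.1, p.2) from rfl, huv]
          exact sum_mem fun j _ => mul_mem (latAlg_int ch (hu j) _) (latAlg_int ch (hv j) _)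
        set R := (pairAlg (latAlg ch)).map (pullFun A val2)
        have hR : HasIntValues R := hasIntValues_map _ hint
        have hfst : ((latAlg ch).map (pullFun A (Subtype.val : Fibre A i b → M))).map
            (pullFun A (Prod.fst : Ω → Fibre A i b)) ≤ R := by
          rintro _ ⟨_, ⟨g, hg, rfl⟩, rfl⟩
          exact ⟨_, fst_mem_pairAlg hg, rfl⟩
        have hsnd : ((latAlg ch).map (pullFun A (Subtype.val : Fibre A i b' → M))).map
            (pullFun A (Prod.snd : Ω → Fibre A i b')) ≤ R := by
          rintro _ ⟨_, ⟨g, hg, rfl⟩, rfl⟩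
          exact ⟨_, snd_mem_pairAlg hg, rfl⟩
        have hTd := bigDeg_le_sub Fr hT
        have hX := ((regOver_latAlg ch).reg b).pull (Prod.fst : Ω → Fibre A i b) hfst
        have hY := ((regOver_latAlg ch).reg b').pull (Prod.snd : Ω → Fibre A i b') hsnd
        have hZ : IsReg (goodRed hNA) R (fun _ : Ω => Fr.E - T)
            (redDiv (goodRed hNA) Fr.E - redDiv (goodRed hNA) T) := by
          rw [← map_sub]; exact isReg_const hTd
        have hreg := isReg_op Fr hR hT
          (X := fun ω : Ω => hT.rep ω.1) (Y := fun ω : Ω => hT.rep ω.2) (Z := fun _ => T)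
          (Xb := hT.fib b) (Yb := hT.fib b') (fun ω => (hT.isRep_rep _).1) (fun ω => (hT.isRep_rep _).1)
          (fun _ => hT.nonneg) (fun ω => (hT.isRep_rep _).degree_eq.trans hT.degree_eq)
          (fun ω => (hT.isRep_rep _).degree_eq.trans hT.degree_eq) (fun _ => hT.degree_eq)
          (fun ω => fib_eq_of_redCls hT ω.1.2) (fun ω => fib_eq_of_redCls hT ω.2.2) (fun _ => rfl)
          hX hY hZ a π (fun ω => (hT.isRep_rep _).linEq_add (hT.isRep_rep _) (hT.isRep_rep _))
        have hd : ∀ ω : Ω,
            Divisor.degree (Fr.E - hT.rep (π ω).1) = Divisor.degree (fibBar Fr hT a) := fun ω => by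
          rw [← redDiv_sub_rep Fr hT (π ω), degree_redDiv]
        have hbig := rrBound_le_fibBar Fr hT a
        obtain ⟨g, hg, hgc⟩ := mem_of_isReg Fr.indep hR hreg hd hbig
          (fun ω => Fr.le_span (hT.isRep_rep _).1) (ch a).hr (P := (ch a).P)
          (fun ω => (ch a).inj (π ω)) (Pi.single t 1)
          (c := fun j' ω => (ch a).gen t j' (π ω)) (fun ω => (ch a).space t (π ω))
          (fun ω => ((ch a).delta t (π ω)).trans (funext fun s => by
            rw [Pi.single_apply, Pi.single_apply]; split_ifs <;> rfl)) j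
        have hgc' : ∀ ω : Ω, g (val2 ω) = (ch a).gen t j (π ω) := fun ω => congrFun hgc ω
        have e : (fun p : M × M => indFun A i b p.1 * indFun A i b' p.2 *
            extFun a ((ch a).gen t j) (p.1 + p.2)) =
            (fun p => indFun A i b p.1 * indFun A i b' p.2) * g := by
          funext p
          show _ = indFun A i b p.1 * indFun A i b' p.2 * g p
          by_cases h1 : redCls A i p.1 = redCls A i b
          · by_cases h2 : redCls A i p.2 = redCls A i b'
            · have h3 := hgc' (⟨p.1, h1⟩, ⟨p.2, h2⟩)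
              rw [show val2 (⟨p.1, h1⟩, ⟨p.2, h2⟩) = p from rfl] at h3
              rw [h3]
              exact congrArg _ (extFun_val _ (π (⟨p.1, h1⟩, ⟨p.2, h2⟩)))
            · simp [indFun_of_notMem h2]
          · simp [indFun_of_notMem h1]
        rw [e]
        exact mul_mem hind hg
      · convert zero_mem (pairAlg (latAlg ch)) using 1
        funext p
        show _ = (0 : QBar)
        by_cases h1 : redCls A i p.1 = redCls A i b
        · by_cases h2 : redCls A i p.2 = redCls A i b'
          · unfold extFun
            show _ * extFun a _ (p.1 + p.2) = 0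
            rw [extFun, dif_neg fun h => hab ((hadd p h1 h2).symm.trans h), mul_zero]
          · simp [indFun_of_notMem h2]
        · simp [indFun_of_notMem h1]

/-- The lattice algebra is closed under negation. -/
theorem neg_mem_latAlg {f : M → QBar} (hf : f ∈ latAlg ch) :
    (fun x : M => f (-x)) ∈ latAlg ch := by
  have : IsAlgClosed (ResidueField A) := residueField_isAlgClosed A
  induction hf using Algebra.adjoin_induction with
  | algebraMap c => exact (latAlg ch).algebraMap_mem c
  | add f g _ _ h1 h2 => exact add_mem h1 h2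
  | mul f g _ _ h1 h2 => exact mul_mem h1 h2
  | mem f hf =>
    refine mem_of_forall_indFun_mul (i := i) fun b => ?_
    have hind : indFun A i b ∈ latAlg ch := Algebra.subset_adjoin (Or.inl ⟨b, rfl⟩)
    have hneg : ∀ x : M, redCls A i x = redCls A i b → redCls A i (-x) = redCls A i (-b) :=
      fun x h => by rw [map_neg, map_neg, h]
    rcases hf with ⟨a, rfl⟩ | ⟨⟨a, t, j⟩, rfl⟩
    · have e : (fun x : M => indFun A i b x * indFun A i a (-x)) =
          indFun A i b * algebraMap A (M → QBar) ⟨indFun A i a (-b), indFun_mem_int a _⟩ := by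
        funext x
        show _ = indFun A i b x * indFun A i a (-b)
        by_cases h1 : redCls A i x = redCls A i b
        · rw [indFun_congr (hneg x h1)]
        · simp [indFun_of_notMem h1]
      rw [e]
      exact mul_mem hind (Subalgebra.algebraMap_mem _ _)
    · by_cases hab : redCls A i (-b) = redCls A i a
      · have : Nonempty (Fibre A i b) := ⟨⟨b, rfl⟩⟩
        let π : Fibre A i b → Fibre A i a := fun y => ⟨-y.1, (hneg y.1 y.2).trans hab⟩
        have hR := hasIntValues_map (Subtype.val : Fibre A i b → M) (fun g hg => latAlg_int ch hg)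
        have hTd := bigDeg_le_sub Fr hT
        have hreg := isReg_op Fr hR hT
          (X := fun _ : Fibre A i b => T) (Y := fun _ : Fibre A i b => T)
          (Z := fun y : Fibre A i b => hT.rep y) (Zb := hT.fib b)
          (fun _ => hT.nonneg) (fun _ => hT.nonneg) (fun y => (hT.isRep_rep _).1)
          (fun _ => hT.degree_eq) (fun _ => hT.degree_eq)
          (fun y => (hT.isRep_rep _).degree_eq.trans hT.degree_eq)
          (fun _ => rfl) (fun _ => rfl) (fun y => fib_eq_of_redCls hT y.2)
          (by rw [← map_sub]; exact isReg_const hTd) (by rw [← map_sub]; exact isReg_const hTd)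
          ((regOver_latAlg ch).reg b) a π (fun y => by
            have h0 := hT.isRep_rep (0 : M)
            have h1 := (hT.isRep_rep (-y.1)).linEq_add (hT.isRep_rep y.1)
              (by rw [neg_add_cancel]; exact h0)
            have h2 := linEq_iff_mem_principal.mp (h0.linEq_zero.symm.trans h1)
            refine linEq_iff_mem_principal.mpr ?_
            rw [show hT.rep (π y).1 - (T + T - hT.rep y.1) =
              -(T - (hT.rep (-y.1) + hT.rep y.1 - T)) from by
                show hT.rep (-y.1) - _ = _
                abel]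
            exact neg_mem h2)
        have hd : ∀ y : Fibre A i b,
            Divisor.degree (Fr.E - hT.rep (π y).1) = Divisor.degree (fibBar Fr hT a) := fun y => by
          rw [← redDiv_sub_rep Fr hT (π y), degree_redDiv]
        have hbig := rrBound_le_fibBar Fr hT a
        obtain ⟨g, hg, hgc⟩ := mem_of_isReg Fr.indep hR hreg hd hbig
          (fun y => Fr.le_span (hT.isRep_rep _).1) (ch a).hr (P := (ch a).P)
          (fun y => (ch a).inj (π y)) (Pi.single t 1)
          (c := fun j' y => (ch a).gen t j' (π y)) (fun y => (ch a).space t (π y))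
          (fun y => ((ch a).delta t (π y)).trans (funext fun s => by
            rw [Pi.single_apply, Pi.single_apply]; split_ifs <;> rfl)) j
        have hgc' : ∀ y : Fibre A i b, g y = (ch a).gen t j (π y) := fun y => congrFun hgc y
        have e : (fun x : M => indFun A i b x * extFun a ((ch a).gen t j) (-x)) =
            indFun A i b * g := by
          funext x
          show _ = indFun A i b x * g x
          by_cases h1 : redCls A i x = redCls A i b
          · exact congrArg _ ((extFun_val _ (π ⟨x, h1⟩)).trans (hgc' ⟨x, h1⟩).symm)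
          · simp [indFun_of_notMem h1]
        rw [e]
        exact mul_mem hind hg
      · convert zero_mem (latAlg ch) using 1
        funext x
        show _ = (0 : QBar)
        by_cases h1 : redCls A i x = redCls A i b
        · unfold extFun
          show _ * extFun a _ (-x) = 0
          rw [extFun, dif_neg fun h => hab ((hneg x h1).symm.trans h), mul_zero]
        · simp [indFun_of_notMem h1]

end Fermat.Agent.FiniteFlat
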