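import Fermat.Agent.FiniteFlat.FibreFamily

/-!
# The smallest ring over which the representatives are regular

It is generated by the indicators of the fibres of reduction and the coordinates of the families in
charts on the fibres; it separates the classes and is constant modulo the maximal ideal on fibres.
-/

set_option autoImplicit false
set_option linter.unusedSectionVars false

noncomputable section

open IsLocalRing AlgebraicCurve ModularCurve
open Fermat.Agent.Arith Fermat.Agent.FF Fermat.Agent.RedTorsion
open scoped Matrix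

namespace Fermat.Agent.FiniteFlat

variable {A : ValuationSubring QBar} {l N : ℕ} [NeZero N]

local notation "Fb" => modularFunctionFieldBar N
local notation "Fk" => modularFunctionFieldFullC (ResidueField A) N
local notation "gQ" => genusFF QBar (modularFunctionFieldBar N)

variable [IsFunctionField QBar (modularFunctionFieldBar N)]
  [IsFunctionField (ResidueField A) (modularFunctionFieldFullC (ResidueField A) N)]
  {hNA : (N : ResidueField A) ≠ 0} {Fr : RatFrame hNA}
  {M : Type} [AddCommGroup M] [Finite M] {i : M →+ JZero N}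
  {T : Divisor QBar (modularFunctionFieldBar N)}

variable (Fr) in
/-- A chart with its coordinates on a fibre. -/
structure FibChart (hT : GoodBase i hNA T) (a : M) where
  /-- the rank -/
  r : ℕ
  hr : r = Module.finrank (ResidueField A) (riemannRochSpace (fibBar Fr hT a))
  /-- the chart -/
  P : Matrix (Fin r) (Fin Fr.n) A
  /-- the coordinates -/
  gen : Fin r → Fin Fr.n → Fibre A i a → QBar
  fixed : ∀ t b, ∀ σ ∈ A.inertiaSubgroupIn ℚ, σ (P t b : QBar) = P t b
  inj : ChartInj (goodRed hNA) Fr.u (fun y : Fibre A i a => Fr.E - hT.rep y) P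
  int : ∀ t b y, gen t b y ∈ A
  space : ∀ t y, (∑ b, gen t b y • (Fr.u b : Fb)) ∈ riemannRochSpace (Fr.E - hT.rep y.1)
  delta : ∀ t y, (P.map A.subtype) *ᵥ (fun b => gen t b y) = Pi.single t 1
  span : ∀ y, Submodule.span QBar (Set.range fun t => ∑ b, gen t b y • (Fr.u b : Fb)) =
    riemannRochSpace (Fr.E - hT.rep y.1)
  congr : ∀ t b y y', gen t b y - gen t b y' ∈ A.nonunits
  regular : ∀ R : Subalgebra A (Fibre A i a → QBar), (∀ t b, gen t b ∈ R) →
    IsReg (goodRed hNA) R (fun y => Fr.E - hT.rep y.1) (fibBar Fr hT a)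

theorem nonempty_fibChart (hA : A.LiesOverPrime l) (hl : l.Prime) (hT : GoodBase i hNA T) (a : M) :
    Nonempty (FibChart Fr hT a) := by
  choose lift hlift hliftfix using exists_fixed_lift hA hl
  obtain ⟨P, gen, hP, h1, h2, h3, h4, h5, h6, h7⟩ := exists_chart (h := goodRed hNA)
    (G := fun y : Fibre A i a => Fr.E - hT.rep y.1) (Gb := fibBar Fr hT a) Fr.indep
    (fun y => degree_sub_rep Fr hT y) (fun y => redDiv_sub_rep Fr hT y)
    (fun y => Fr.le_span (hT.isRep_rep y).1)
    ((riemannRochSpace_mono (sub_le_self _ (hT.fib_nonneg a))).trans Fr.span_red)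
    lift hlift rfl
  refine ⟨⟨_, rfl, P, gen, fun t b σ hσ => ?_, h1, h2, h3, h4, h5, h6, h7⟩⟩
  obtain ⟨z, hz⟩ := hP t b
  rw [hz]
  exact hliftfix z σ hσ

namespace FibChart

variable {hT : GoodBase i hNA T} {a : M} (ch : FibChart Fr hT a)

/-- The coordinates are characterised by the chart. -/
theorem eq_gen (t : Fin ch.r) (y : Fibre A i a) {c : Fin Fr.n → QBar}
    (hc : (∑ b, c b • (Fr.u b : Fb)) ∈ riemannRochSpace (Fr.E - hT.rep y.1))
    (hP : (ch.P.map A.subtype) *ᵥ c = Pi.single t 1) : c = fun b => ch.gen t b y := by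
  classical
  obtain ⟨z, hz⟩ := (Submodule.mem_span_range_iff_exists_fun QBar).mp ((ch.span y).symm ▸ hc)
  have hcz : c = fun b => ∑ s, z s * ch.gen s b y := by
    refine (linearIndependent_of_redF (goodRed hNA).toRedLattice Fr.u
      Fr.indep).fintypeLinearCombination_injective ?_
    simp only [Fintype.linearCombination_apply]
    rw [← hz]
    simp only [Finset.smul_sum, smul_smul, Finset.sum_smul]
    exact Finset.sum_comm
  have hzt : z = Pi.single t 1 := by
    rw [← hP, hcz]
    funext s
    rw [show (fun b => ∑ s, z s * ch.gen s b y) = ∑ s, z s • fun b => ch.gen s b y from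
      funext fun b => by simp [Finset.sum_apply]]
    rw [Matrix.mulVec_sum, Finset.sum_apply]
    simp only [Matrix.mulVec_smul, ch.delta, Pi.smul_apply, smul_eq_mul, Pi.single_apply, mul_ite,
      mul_one, mul_zero, Finset.sum_ite_eq, Finset.mem_univ, if_true]
  rw [hcz, hzt]
  funext b
  simp [Pi.single_apply]

end FibChart

/-- Extension by zero from a fibre. -/
def extFun (a : M) (f : Fibre A i a → QBar) : M → QBar :=
  open Classical in fun y => if h : redCls A i y = redCls A i a then f ⟨y, h⟩ else 0

theorem extFun_val {a : M} (f : Fibre A i a → QBar) (y : Fibre A i a) : extFun a f y = f y := by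
  rw [extFun, dif_pos y.2]

theorem indFun_of_mem {a y : M} (h : redCls A i y = redCls A i a) : indFun A i a y = 1 := by
  rw [indFun, if_pos h]

theorem indFun_of_notMem {a y : M} (h : redCls A i y ≠ redCls A i a) : indFun A i a y = 0 := by
  rw [indFun, if_neg h]

theorem indFun_mem_int (a y : M) : indFun A i a y ∈ A := by
  rw [indFun]
  split_ifs
  · exact one_mem A
  · exact zero_mem A

theorem indFun_congr {a y y' : M} (h : redCls A i y = redCls A i y') :
    indFun A i a y = indFun A i a y' := by
  by_cases h' : redCls A i y = redCls A i a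
  · rw [indFun_of_mem h', indFun_of_mem (h.symm.trans h')]
  · rw [indFun_of_notMem h', indFun_of_notMem fun h'' => h' (h.trans h'')]

variable {hT : GoodBase i hNA T} (ch : ∀ a, FibChart Fr hT a)

/-- The generators of the lattice algebra. -/
def latGens : Set (M → QBar) :=
  Set.range (indFun A i) ∪
    Set.range fun p : (Σ a, Fin (ch a).r × Fin Fr.n) => extFun p.1 ((ch p.1).gen p.2.1 p.2.2)

theorem finite_latGens : (latGens ch).Finite :=
  (Set.finite_range _).union (Set.finite_range _)

/-- The lattice algebra. -/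
def latAlg : Subalgebra A (M → QBar) := Algebra.adjoin A (latGens ch)

theorem latAlg_int {f : M → QBar} (hf : f ∈ latAlg ch) (y : M) : f y ∈ A := by
  induction hf using Algebra.adjoin_induction with
  | mem f hf =>
    rcases hf with ⟨a, rfl⟩ | ⟨p, rfl⟩
    · exact indFun_mem_int a y
    · simp only [extFun]
      split_ifs
      · exact (ch p.1).int _ _ _
      · exact zero_mem A
  | algebraMap c => exact c.2
  | add f g _ _ h1 h2 => exact add_mem h1 h2
  | mul f g _ _ h1 h2 => exact mul_mem h1 h2

theorem latAlg_congr {f : M → QBar} (hf : f ∈ latAlg ch) {y y' : M}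
    (h : redCls A i y = redCls A i y') : f y - f y' ∈ A.nonunits := by
  induction hf using Algebra.adjoin_induction with
  | mem f hf =>
    rcases hf with ⟨a, rfl⟩ | ⟨p, rfl⟩
    · rw [indFun_congr h, sub_self]
      exact A.coe_mem_nonunits_iff.mpr ((IsLocalRing.maximalIdeal A).zero_mem)
    · simp only [extFun]
      split_ifs with h1 h2 h2
      · exact (ch p.1).congr _ _ _ _
      · exact absurd (h.symm.trans h1) h2
      · exact absurd (h.trans h2) h1
      · rw [sub_self]
        exact A.coe_mem_nonunits_iff.mpr ((IsLocalRing.maximalIdeal A).zero_mem)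
  | algebraMap c =>
    rw [show algebraMap A (M → QBar) c y = algebraMap A (M → QBar) c y' from rfl, sub_self]
    exact A.coe_mem_nonunits_iff.mpr ((IsLocalRing.maximalIdeal A).zero_mem)
  | add f g _ _ h1 h2 =>
    rw [Pi.add_apply, Pi.add_apply, add_sub_add_comm]
    exact nonunits_add h1 h2
  | mul f g hf hg h1 h2 =>
    rw [Pi.mul_apply, Pi.mul_apply,
      show f y * g y - f y' * g y' = f y * (g y - g y') + (f y - f y') * g y' by ring]
    exact nonunits_add (nonunits_mul_left (latAlg_int ch hf y) h2)
      (nonunits_mul_right h1 (latAlg_int ch hg y'))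

theorem regOver_latAlg : RegOver Fr hT (latAlg ch) := by
  refine ⟨fun f hf => latAlg_int ch hf, fun a => ?_, fun a => ?_⟩
  · exact Algebra.subset_adjoin (Or.inl ⟨a, rfl⟩)
  · refine (ch a).regular _ fun t b => ?_
    exact ⟨extFun a ((ch a).gen t b), Algebra.subset_adjoin (Or.inr ⟨⟨a, t, b⟩, rfl⟩),
      funext fun y => extFun_val _ y⟩

/-- Coordinates in a chart lie in every regular ring. -/
theorem extFun_mem_of_regOver {R : Subalgebra A (M → QBar)} (hR : RegOver Fr hT R) {a : M} {r : ℕ}
    (hr : r = Module.finrank (ResidueField A) (riemannRochSpace (fibBar Fr hT a)))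
    {P : Matrix (Fin r) (Fin Fr.n) A}
    (hP : ChartInj (goodRed hNA) Fr.u (fun y : Fibre A i a => Fr.E - hT.rep y) P)
    {c : Fin Fr.n → Fibre A i a → QBar} (v : Fin r → A)
    (hc : ∀ y, (∑ b, c b y • (Fr.u b : Fb)) ∈ riemannRochSpace (Fr.E - hT.rep y.1))
    (hcP : ∀ y, (P.map A.subtype) *ᵥ (fun b => c b y) = fun t => (v t : QBar)) (b : Fin Fr.n) :
    extFun a (c b) ∈ R := by
  have : IsAlgClosed (ResidueField A) := residueField_isAlgClosed A
  have hd : ∀ y : Fibre A i a,
      Divisor.degree (Fr.E - hT.rep y.1) = Divisor.degree (fibBar Fr hT a) := fun y => by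
    rw [← redDiv_sub_rep Fr hT y, degree_redDiv]
  have hbig : rrBound (goodRed (A := A) hNA) ≤ Divisor.degree (fibBar Fr hT a) := by
    have h1 := degree_sub_rep Fr hT a
    have h2 := rrBound_lt_bigDeg (goodRed (A := A) hNA)
    rw [← hd ⟨a, rfl⟩]
    have h3 : (0 : ℤ) ≤ ((genusFF QBar Fb : ℕ) : ℤ) := Int.natCast_nonneg _
    show rrBound (goodRed (A := A) hNA) ≤ Divisor.degree (Fr.E - hT.rep a)
    have h4 := three_le_bigDeg (goodRed (A := A) hNA)
    have h5 := one_le_rrBound (goodRed (A := A) hNA)
    omega
  obtain ⟨g, hg, hgc⟩ := mem_of_isReg Fr.indep (hasIntValues_map _ hR.int) (hR.reg a) hd hbig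
    (fun y => Fr.le_span (hT.isRep_rep y).1) hr hP v hc hcP b
  have hgc' : ∀ y : Fibre A i a, g y = c b y := fun y => congrFun hgc y
  have e : extFun a (c b) = indFun A i a * g := by
    funext y
    rw [Pi.mul_apply]
    unfold extFun
    split_ifs with h
    · rw [indFun_of_mem h, one_mul]; exact (hgc' ⟨y, h⟩).symm
    · rw [indFun_of_notMem h, zero_mul]
  rw [e]
  exact mul_mem (hR.ind a) hg

theorem latAlg_separates (hinj : Function.Injective i) (m m' : M)
    (h : ∀ f ∈ latAlg ch, f m = f m') : m = m' := by
  have : IsAlgClosed (ResidueField A) := residueField_isAlgClosed A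
  have hm' : redCls A i m' = redCls A i m := by
    by_contra hne
    have h1 := h _ (Algebra.subset_adjoin (Or.inl ⟨m, rfl⟩))
    rw [indFun_of_mem rfl, indFun_of_notMem hne] at h1
    exact one_ne_zero h1
  set y : Fibre A i m := ⟨m, rfl⟩
  set y' : Fibre A i m := ⟨m', hm'⟩
  have e : ∀ t b, (ch m).gen t b y = (ch m).gen t b y' := fun t b => by
    have h1 : extFun m ((ch m).gen t b) y.1 = extFun m ((ch m).gen t b) y'.1 :=
      h _ (Algebra.subset_adjoin (Or.inr ⟨⟨m, t, b⟩, rfl⟩))
    rwa [extFun_val, extFun_val] at h1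
  have hW : riemannRochSpace (Fr.E - hT.rep m) = riemannRochSpace (Fr.E - hT.rep m') := by
    refine ((ch m).span y).symm.trans (Eq.trans ?_ ((ch m).span y'))
    simp only [e]
  have hb := three_le_bigDeg (goodRed (A := A) hNA)
  have hr := one_le_rrBound (goodRed (A := A) hNA)
  have h1 := degree_sub_rep Fr hT m
  have h2 := degree_sub_rep Fr hT m'
  have hc : ∀ D : Divisor QBar Fb, rrBound (goodRed (A := A) hNA) ≤ Divisor.degree D →
      ell QBar D = Divisor.degree D + 1 - gQ := fun D hD => ell_eq_of_rrBound_le _ hD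
  have l1 := le_of_riemannRochSpace_le hc (by omega) hW.le
  have l2 := le_of_riemannRochSpace_le hc (by omega) hW.ge
  exact hT.rep_injective hinj (sub_right_injective (le_antisymm l1 l2))

end Fermat.Agent.FiniteFlat
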