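import Fermat.Agent.FiniteFlat.RedSpace

/-!
# Reduction and relative norms

For a finite extension of fields with compatible lattices and equal degree on both sides,
reduction commutes with norms.
-/

set_option autoImplicit false
set_option linter.unusedSectionVars false

noncomputable section

open IsLocalRing
open Fermat.Agent.Arith

namespace Fermat.Agent.FiniteFlat

variable {A : ValuationSubring QBar} {F F' Fk Fk' : Type*}
  [Field F] [Field F'] [Field Fk] [Field Fk'] [Algebra QBar F] [Algebra QBar F']
  [Algebra (ResidueField A) Fk] [Algebra (ResidueField A) Fk'] [Algebra F F'] [Algebra Fk Fk']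
  [IsScalarTower QBar F F'] [IsScalarTower (ResidueField A) Fk Fk']
  (h : RedLattice A F Fk) (h' : RedLattice A F' Fk')

/-- Compatibility of lattices in an extension of fields. -/
def LatticeCompat : Prop :=
  ∀ f : h.S, ∃ hm : algebraMap F F' (f : F) ∈ h'.S,
    redF h' ⟨_, hm⟩ = algebraMap Fk Fk' (redF h f)

variable {h h'} (hC : LatticeCompat h h')

/-- The inclusion of lattices. -/
def incl : h.S →+* h'.S :=
  ((algebraMap F F').comp h.S.subtype).codRestrict h'.S fun f => (hC f).1

theorem coe_incl (f : h.S) : (incl hC f : F') = algebraMap F F' (f : F) := rfl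

theorem redF_incl (f : h.S) : redF h' (incl hC f) = algebraMap Fk Fk' (redF h f) := (hC f).2

/-- A family is a constant times an integral family with a nonzero reduction. -/
theorem exists_int_family {ι : Type*} [Fintype ι] (h : RedLattice A F Fk) {c : ι → F}
    (hc : ∃ i, c i ≠ 0) : ∃ (a : QBar) (r : ι → h.S), a ≠ 0 ∧ (∃ i, redF h (r i) ≠ 0) ∧
      ∀ i, c i = algebraMap QBar F a * (r i : F) := by
  classical
  have key : ∀ i, ∃ (a : QBar) (g : h.S), c i = a • (g : F) ∧ (a ≠ 0 → redF h g ≠ 0) ∧
      (c i ≠ 0 → a ≠ 0) := by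
    intro i
    rcases eq_or_ne (c i) 0 with h0 | h0
    · exact ⟨0, 0, by simp [h0], fun e => absurd rfl e, fun e => absurd h0 e⟩
    · obtain ⟨a, g, ha, hg, e⟩ := exists_primitive h h0
      exact ⟨a, g, e, fun _ => hg, fun _ => ha⟩
  choose a g hag hred hne using key
  obtain ⟨i₁, hi₁⟩ := hc
  obtain ⟨i₀, h0, hA⟩ := Arith.exists_div_mem A (c := a) ⟨i₁, hne i₁ hi₁⟩
  refine ⟨a i₀, fun i => intConst h ⟨_, hA i⟩ * g i, h0, ⟨i₀, ?_⟩, fun i => ?_⟩
  · rw [map_mul, show (⟨_, hA i₀⟩ : A) = 1 from Subtype.ext (div_self h0), map_one, map_one,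
      one_mul]
    exact hred i₀ h0
  · rw [hag i, MulMemClass.coe_mul, coe_intConst, Algebra.smul_def, ← mul_assoc, ← map_mul,
      mul_div_cancel₀ _ h0]

variable {ι : Type*} [Fintype ι] (bk : Module.Basis ι Fk Fk') {u : ι → h'.S}
  (hu : ∀ i, redF h' (u i) = bk i)

include hC hu in
theorem linearIndependent_lifts : LinearIndependent F fun i => (u i : F') := by
  rw [Fintype.linearIndependent_iff]
  intro c hc
  by_contra! hne
  obtain ⟨a, r, ha, ⟨i₀, hr⟩, hcr⟩ := exists_int_family h hne
  have h1 : (∑ i, incl hC (r i) * u i : h'.S) = 0 := by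
    refine Subtype.ext ?_
    rw [AddSubmonoidClass.coe_finsetSum, ZeroMemClass.coe_zero]
    have ha' : algebraMap QBar F' a ≠ 0 := (map_ne_zero _).mpr ha
    refine mul_left_cancel₀ ha' ?_
    rw [mul_zero, Finset.mul_sum]
    refine Eq.trans (Finset.sum_congr rfl fun i _ => ?_) hc
    rw [MulMemClass.coe_mul, coe_incl, hcr i, Algebra.smul_def, map_mul,
      ← IsScalarTower.algebraMap_apply, mul_assoc]
  have h2 := congrArg (redF h') h1
  simp only [map_sum, map_mul, redF_incl, hu, map_zero, ← Algebra.smul_def] at h2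
  exact hr (Fintype.linearIndependent_iff.mp bk.linearIndependent _ h2 i₀)

variable [FiniteDimensional F F'] (hfr : Module.finrank F F' = Module.finrank Fk Fk')

/-- Lifts of a basis of the reduced extension form a basis. -/
def liftBasis [Nonempty ι] : Module.Basis ι F F' :=
  basisOfLinearIndependentOfCardEqFinrank (linearIndependent_lifts hC bk hu)
    (by rw [hfr, Module.finrank_eq_card_basis bk])

theorem liftBasis_apply [Nonempty ι] (i : ι) : liftBasis hC bk hu hfr i = (u i : F') := by
  simp [liftBasis]

include hC hu in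
theorem exists_coords_lifts [Nonempty ι] (y : h'.S) :
    ∃ r : ι → h.S, ∀ i, (liftBasis hC bk hu hfr).repr (y : F') i = (r i : F) := by
  classical
  set b := liftBasis hC bk hu hfr
  set c : Option ι → F := fun o => o.elim (-1) (b.repr (y : F')) with hcdef
  obtain ⟨a, r, ha, ⟨o₀, hr⟩, hcr⟩ := exists_int_family h (c := c) ⟨none, by simp [c]⟩
  let v : Option ι → h'.S := fun o => o.elim y u
  have h1 : (∑ o, incl hC (r o) * v o : h'.S) = 0 := by
    refine Subtype.ext ?_
    rw [AddSubmonoidClass.coe_finsetSum, ZeroMemClass.coe_zero]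
    have ha' : algebraMap QBar F' a ≠ 0 := (map_ne_zero _).mpr ha
    refine mul_left_cancel₀ ha' ?_
    rw [mul_zero, Finset.mul_sum]
    have h3 : ∑ o, c o • (v o : F') = 0 := by
      rw [Fintype.sum_option]
      have := b.sum_repr (y : F')
      simp only [b, liftBasis_apply] at this
      simp only [c, v, Option.elim]
      rw [this, neg_smul, one_smul, neg_add_cancel]
    refine Eq.trans (Finset.sum_congr rfl fun o _ => ?_) h3
    rw [MulMemClass.coe_mul, coe_incl, hcr o, Algebra.smul_def, map_mul,
      ← IsScalarTower.algebraMap_apply, mul_assoc]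
  have h2 := congrArg (redF h') h1
  simp only [map_sum, map_mul, redF_incl, map_zero] at h2
  have hnone : redF h (r none) ≠ 0 := fun e => by
    rw [Fintype.sum_option, e, map_zero, zero_mul, zero_add] at h2
    simp only [v, Option.elim, hu, ← Algebra.smul_def] at h2
    rcases o₀ with _ | i
    · exact hr e
    · exact hr (Fintype.linearIndependent_iff.mp bk.linearIndependent _ h2 i)
  have hn := hcr none
  refine ⟨fun i => -(⟨_, inv_mem_of_redF_ne_zero h _ hnone⟩ * r (some i)), fun i => ?_⟩
  have hi := hcr (some i)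
  simp only [c, Option.elim] at hn hi
  have ha' : algebraMap QBar F a ≠ 0 := (map_ne_zero _).mpr ha
  have hrn : (r none : F) ≠ 0 := fun e => hnone (by
    rw [show r none = 0 from Subtype.ext e, map_zero])
  rw [hi, NegMemClass.coe_neg, MulMemClass.coe_mul]
  rw [← mul_inv_cancel_right₀ hrn (algebraMap QBar F a), ← hn]
  ring

include hC hfr in
/-- Reduction commutes with the norm. -/
theorem exists_redF_norm [FiniteDimensional Fk Fk'] (y : h'.S) :
    ∃ hm : Algebra.norm F (y : F') ∈ h.S,
      redF h ⟨_, hm⟩ = Algebra.norm Fk (redF h' y) := by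
  classical
  let bk := Module.finBasis Fk Fk'
  have : Nonempty (Fin (Module.finrank Fk Fk')) :=
    Fin.pos_iff_nonempty.mp Module.finrank_pos
  choose u hu using fun i => h'.surj (bk i)
  let b := liftBasis hC bk hu hfr
  choose M hM using fun j => exists_coords_lifts hC bk hu hfr (y * u j)
  let MS : Matrix (Fin (Module.finrank Fk Fk')) (Fin (Module.finrank Fk Fk')) h.S := fun i j => M j i
  have h1 : Algebra.leftMulMatrix b (y : F') = MS.map h.S.subtype := by
    ext i j
    rw [Algebra.leftMulMatrix_eq_repr_mul]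
    simp only [b, liftBasis_apply]
    exact hM j i
  have h2 : Algebra.leftMulMatrix bk (redF h' y) = MS.map (redF h) := by
    ext i j
    rw [Algebra.leftMulMatrix_eq_repr_mul, Matrix.map_apply]
    have e : y * u j = ∑ l, incl hC (M j l) * u l := Subtype.ext (by
      rw [AddSubmonoidClass.coe_finsetSum, ← b.sum_repr ((y * u j : h'.S) : F')]
      refine Finset.sum_congr rfl fun l _ => ?_
      simp only [b, liftBasis_apply, MulMemClass.coe_mul, coe_incl, ← Algebra.smul_def]
      exact congrArg (· • (u l : F')) (hM j l))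
    have e' := congrArg (redF h') e
    simp only [map_mul, map_sum, redF_incl] at e'
    rw [show redF h' (u j) = bk j from hu j] at e'
    rw [e', Finset.sum_congr rfl fun l _ => by
      rw [show redF h' (u l) = bk l from hu l, ← Algebra.smul_def], bk.repr_sum_self]
  have h3 : Algebra.norm F (y : F') = ((MS.det : h.S) : F) := by
    rw [Algebra.norm_eq_matrix_det b, h1]
    exact (RingHom.map_det h.S.subtype MS).symm
  refine ⟨h3 ▸ MS.det.2, ?_⟩
  rw [Algebra.norm_eq_matrix_det bk, h2]
  refine Eq.trans (congrArg _ (Subtype.ext h3)) ?_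
  exact RingHom.map_det (redF h) MS

end Fermat.Agent.FiniteFlat
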