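import Fermat.Agent.FiniteFlat.CurveLemmas
import Fermat.Agent.Arith.RootsOfUnity
import Fermat.Agent.Arith.Echelon
import Fermat.Agent.Arith.ValNormalize

/-!
# Good reduction of a function field over the algebraic numbers

A valuation lattice `S` with a surjective reduction onto the reduced field, in which every finite
dimensional space sits inside a frame up to a primitive denominator: reduction of subspaces
preserves dimensions, and does not increase the degree of a function.
-/

set_option autoImplicit false
set_option linter.unusedSectionVars false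

noncomputable section

open IsLocalRing AlgebraicCurve Polynomial IntermediateField
open Fermat.Agent.Arith Fermat.Agent.FF

namespace Fermat.Agent.FiniteFlat

/-- A lattice in `F` at `A` with reduction onto the reduced field `Fk`. -/
structure RedLattice (A : ValuationSubring QBar) (F : Type*) [Field F] [Algebra QBar F]
    (Fk : Type*) [Field Fk] [Algebra (ResidueField A) Fk] where
  S : Subring F
  rho : S →+* Fk
  const_mem : ∀ a : A, algebraMap QBar F a ∈ S
  rho_const : ∀ a : A,
    rho ⟨algebraMap QBar F a, const_mem a⟩ = algebraMap (ResidueField A) Fk (residue A a)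
  surj : Function.Surjective rho
  scal : ∀ f : F, f ≠ 0 → ∃ (c : QBar) (g : S), c ≠ 0 ∧ rho g ≠ 0 ∧ f = c • (g : F)
  frame : ∀ W : Submodule QBar F, FiniteDimensional QBar W →
    ∃ (d : S) (m : ℕ) (v : Fin m → S), rho d ≠ 0 ∧
      LinearIndependent (ResidueField A) (fun i => rho (v i)) ∧
      ∀ w ∈ W, (d : F) * w ∈ Submodule.span QBar (Set.range fun i => (v i : F))

/-- Good reduction of `F` at `A` with reduced field `Fk`. -/
structure GoodRed (A : ValuationSubring QBar) (F : Type*) [Field F] [Algebra QBar F]
    (Fk : Type*) [Field Fk] [Algebra (ResidueField A) Fk] extends RedLattice A F Fk where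
  genus_le : genusFF QBar F ≤ genusFF (ResidueField A) Fk

variable {A : ValuationSubring QBar} {F : Type*} [Field F] [Algebra QBar F]
  {Fk : Type*} [Field Fk] [Algebra (ResidueField A) Fk] (h : RedLattice A F Fk)

/-- The reduction map. -/
abbrev redF : h.S →+* Fk := h.rho

theorem smul_mem_lattice (a : A) {f : F} (hf : f ∈ h.S) : (a : QBar) • f ∈ h.S := by
  rw [Algebra.smul_def]
  exact mul_mem (h.const_mem a) hf

/-- The constants of `A` as lattice elements. -/
def intConst : A →+* h.S :=
  ((algebraMap QBar F).comp A.subtype).codRestrict h.S h.const_mem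

theorem coe_intConst (a : A) : (intConst h a : F) = algebraMap QBar F a := rfl

theorem redF_intConst (a : A) :
    redF h (intConst h a) = algebraMap (ResidueField A) Fk (residue A a) := h.rho_const a

theorem redF_smul (a : A) (f : h.S) :
    redF h ⟨_, smul_mem_lattice h a f.2⟩ = residue A a • redF h f := by
  have he : (⟨_, smul_mem_lattice h a f.2⟩ : h.S) = intConst h a * f :=
    Subtype.ext (Algebra.smul_def (a : QBar) (f : F))
  rw [he, map_mul, redF_intConst, Algebra.smul_def]

include h in
theorem exists_primitive {f : F} (hf : f ≠ 0) :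
    ∃ (c : QBar) (g : h.S), c ≠ 0 ∧ redF h g ≠ 0 ∧ f = c • (g : F) := h.scal f hf

theorem inv_mem_of_redF_ne_zero (d : h.S) (hd : redF h d ≠ 0) : ((d : F))⁻¹ ∈ h.S := by
  have hd0 : (d : F) ≠ 0 := fun e => hd (by rw [show d = 0 from Subtype.ext e, map_zero])
  obtain ⟨c, g, hc, hg, hcg⟩ := h.scal _ (inv_ne_zero hd0)
  have hdg : ((d * g : h.S) : F) = algebraMap QBar F c⁻¹ := by
    have h1 : (d : F) * (c • (g : F)) = 1 := by rw [← hcg, mul_inv_cancel₀ hd0]
    rw [mul_smul_comm, Algebra.smul_def] at h1
    rw [map_inv₀]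
    exact eq_inv_of_mul_eq_one_right h1
  rcases A.mem_or_inv_mem c with hA | hA
  · rw [hcg]
    exact smul_mem_lattice h ⟨c, hA⟩ g.2
  · have he : d * g = intConst h ⟨c⁻¹, hA⟩ := Subtype.ext hdg
    have h2 := congrArg (redF h) he
    rw [map_mul, redF_intConst] at h2
    have hu : (⟨c⁻¹, hA⟩ : A) ∉ maximalIdeal A := fun hm => mul_ne_zero hd hg (by
      rw [h2, (IsLocalRing.residue_eq_zero_iff _).mpr hm, map_zero])
    rw [IsLocalRing.mem_maximalIdeal, mem_nonunits_iff, not_not] at hu
    obtain ⟨u, hu'⟩ := hu.exists_right_inv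
    have hcA : c ∈ A := by
      have h3 := congrArg Subtype.val hu'
      simp only [MulMemClass.coe_mul, OneMemClass.coe_one] at h3
      rw [← inv_inv c, ← eq_inv_of_mul_eq_one_right h3]
      exact u.2
    rw [hcg]
    exact smul_mem_lattice h ⟨c, hcA⟩ g.2

/-- A linear relation between integral elements reduces to a nontrivial one. -/
theorem redF_relation {ι : Type*} [Fintype ι] (u : ι → h.S) {c : ι → QBar}
    (hc : ∃ i, c i ≠ 0) (hrel : ∑ i, c i • (u i : F) = 0) :
    ∃ d : ι → ResidueField A, (∃ i, d i ≠ 0) ∧ ∑ i, d i • redF h (u i) = 0 := by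
  obtain ⟨i₀, h0, hA⟩ := Arith.exists_div_mem A hc
  refine ⟨fun i => residue A ⟨_, hA i⟩, ⟨i₀, ?_⟩, ?_⟩
  · show residue A ⟨_, hA i₀⟩ ≠ 0
    have he : (⟨_, hA i₀⟩ : A) = 1 := Subtype.ext (div_self h0)
    rw [he, map_one]
    exact one_ne_zero
  · have hsum : ∑ i, (⟨_, smul_mem_lattice h ⟨_, hA i⟩ (u i).2⟩ : h.S) = 0 := by
      refine Subtype.ext ?_
      rw [AddSubmonoidClass.coe_finsetSum, ZeroMemClass.coe_zero]
      have h1 : ∀ i, (c i / c i₀) • (u i : F) = (c i₀)⁻¹ • (c i • (u i : F)) := fun i => by
        rw [smul_smul, div_eq_inv_mul]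
      rw [Finset.sum_congr rfl fun i _ => h1 i, ← Finset.smul_sum, hrel, smul_zero]
    have h2 := congrArg (redF h) hsum
    rw [map_sum, map_zero] at h2
    rw [Finset.sum_congr rfl fun i _ => redF_smul h ⟨_, hA i⟩ (u i)] at h2
    exact h2

theorem linearIndependent_of_redF {ι : Type*} [Fintype ι] (u : ι → h.S)
    (hu : LinearIndependent (ResidueField A) fun i => redF h (u i)) :
    LinearIndependent QBar fun i => (u i : F) := by
  rw [Fintype.linearIndependent_iff]
  intro c hc
  by_contra! hne
  obtain ⟨d, ⟨i, hi⟩, hd⟩ := redF_relation h u hne hc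
  exact hi (Fintype.linearIndependent_iff.mp hu d hd i)

/-- Reductions of the integral elements of a subspace. -/
def redW (W : Submodule QBar F) : Submodule (ResidueField A) Fk where
  carrier := {y | ∃ f : h.S, (f : F) ∈ W ∧ redF h f = y}
  add_mem' := by
    rintro _ _ ⟨f, hf, rfl⟩ ⟨g, hg, rfl⟩
    exact ⟨f + g, W.add_mem hf hg, map_add _ _ _⟩
  zero_mem' := ⟨0, W.zero_mem, map_zero _⟩
  smul_mem' := by
    rintro c _ ⟨f, hf, rfl⟩
    obtain ⟨a, rfl⟩ := residue_surjective c
    exact ⟨_, W.smul_mem _ hf, redF_smul h a f⟩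

theorem redF_mem_redW {W : Submodule QBar F} (f : h.S) (hf : (f : F) ∈ W) :
    redF h f ∈ redW h W := ⟨f, hf, rfl⟩

theorem redW_mono {W W' : Submodule QBar F} (hle : W ≤ W') : redW h W ≤ redW h W' :=
  fun _ ⟨f, hf, e⟩ => ⟨f, hle hf, e⟩

theorem redW_mul_le (W W' : Submodule QBar F) : redW h W * redW h W' ≤ redW h (W * W') := by
  refine Submodule.mul_le.mpr ?_
  rintro _ ⟨f, hf, rfl⟩ _ ⟨g, hg, rfl⟩
  exact ⟨f * g, Submodule.mul_mem_mul hf hg, map_mul _ _ _⟩

/-- Reduction preserves the dimension of a subspace. -/
theorem finrank_redW (W : Submodule QBar F) [FiniteDimensional QBar W] :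
    FiniteDimensional (ResidueField A) (redW h W) ∧
      Module.finrank (ResidueField A) (redW h W) = Module.finrank QBar W := by
  classical
  obtain ⟨d, m, v, hd, hv, hW⟩ := h.frame W ‹_›
  have hd0 : (d : F) ≠ 0 := fun e => hd (by
    rw [show d = 0 from Subtype.ext e, map_zero])
  set n := Module.finrank QBar W
  -- coordinates of `d • W` in the frame
  let comb : (Fin m → QBar) →ₗ[QBar] F := Fintype.linearCombination QBar fun i => (v i : F)
  have hinj : Function.Injective comb :=
    (linearIndependent_of_redF h v hv).fintypeLinearCombination_injective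
  let T : Submodule QBar (Fin m → QBar) := (W.map (LinearMap.mulLeft QBar (d : F))).comap comb
  have hTd : Module.finrank QBar T = n := by
    have h1 : T.map comb = W.map (LinearMap.mulLeft QBar (d : F)) := by
      refine Submodule.map_comap_eq_self ?_
      rintro _ ⟨w, hw, rfl⟩
      rw [Fintype.range_linearCombination]
      exact hW w hw
    have e1 := LinearEquiv.finrank_eq (Submodule.equivMapOfInjective comb hinj T)
    have e2 := LinearEquiv.finrank_eq
      (Submodule.equivMapOfInjective (LinearMap.mulLeft QBar (d : F)) (mul_right_injective₀ hd0) W)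
    rw [e1, h1, ← e2]
  obtain ⟨w, hwA, hwT, hcli⟩ := Arith.echelon_vec (A := A) n T hTd (fun x _ i => ⟨x i, rfl⟩)
    fun x _ hx => Arith.exists_div_mem A (Function.ne_iff.mp hx)
  let c : Fin n → _ → A := fun j i => ⟨w j i, hwA j i⟩
  have hcT : ∀ j, (fun i => ((c j i : A) : QBar)) ∈ T := hwT
  -- lifts in `W`
  let u : Fin n → h.S := fun j =>
    ⟨_, inv_mem_of_redF_ne_zero h d hd⟩ * ∑ i, intConst h (c j i) * v i
  have huW : ∀ j, (u j : F) ∈ W := fun j => by
    obtain ⟨w, hw, hwc⟩ := hcT j
    have : (u j : F) = w := by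
      simp only [u, MulMemClass.coe_mul, AddSubmonoidClass.coe_finsetSum, coe_intConst]
      rw [LinearMap.mulLeft_apply] at hwc
      rw [show ∑ i, algebraMap QBar F (c j i : A) * (v i : F) = comb (fun i => (c j i : A)) by
        simp [comb, Fintype.linearCombination_apply, Algebra.smul_def], ← hwc,
        inv_mul_cancel_left₀ hd0]
    rwa [this]
  have hdi : redF h ⟨_, inv_mem_of_redF_ne_zero h d hd⟩ * redF h d = 1 := by
    rw [← map_mul, ← map_one (redF h)]
    exact congrArg _ (Subtype.ext (inv_mul_cancel₀ hd0))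
  have huli : LinearIndependent (ResidueField A) fun j => redF h (u j) := by
    have hcomb : Function.Injective (Fintype.linearCombination (ResidueField A)
        fun i => redF h (v i)) := hv.fintypeLinearCombination_injective
    have hm : Function.Injective (LinearMap.mulLeft (ResidueField A)
        (redF h ⟨_, inv_mem_of_redF_ne_zero h d hd⟩)) :=
      mul_right_injective₀ (left_ne_zero_of_mul_eq_one hdi)
    have h3 := hcli.map' _ (LinearMap.ker_eq_bot.mpr (hm.comp hcomb) :
      LinearMap.ker ((LinearMap.mulLeft (ResidueField A)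
        (redF h ⟨_, inv_mem_of_redF_ne_zero h d hd⟩)).comp
        (Fintype.linearCombination (ResidueField A) fun i => redF h (v i))) = ⊥)
    have e : (fun j => redF h (u j)) = ⇑((LinearMap.mulLeft (ResidueField A)
        (redF h ⟨_, inv_mem_of_redF_ne_zero h d hd⟩)).comp
        (Fintype.linearCombination (ResidueField A) fun i => redF h (v i))) ∘
        fun j i => residue A (c j i) := by
      funext j
      simp only [u, map_mul, map_sum, redF_intConst, Function.comp_apply, LinearMap.comp_apply,
        Fintype.linearCombination_apply, LinearMap.mulLeft_apply, Algebra.smul_def, Finset.mul_sum]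
    rw [e]
    exact h3
  have key : ∀ (s : ℕ) (w : Fin s → redW h W), LinearIndependent (ResidueField A) w → s ≤ n := by
    intro s w hw
    choose g hgW hg using fun i => (w i).2
    have h4 : LinearIndependent QBar fun i => (g i : F) :=
      linearIndependent_of_redF h g (by
        simpa [hg, Function.comp_def] using hw.map' (redW h W).subtype (Submodule.ker_subtype _))
    have h5 : LinearIndependent QBar fun i => (⟨(g i : F), hgW i⟩ : W) :=
      LinearIndependent.of_comp W.subtype h4
    simpa using h5.fintype_card_le_finrank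
  have hfd : FiniteDimensional (ResidueField A) (redW h W) := by
    rw [FiniteDimensional, ← Module.rank_lt_aleph0_iff]
    refine lt_of_le_of_lt (rank_le (n := n) fun t ht => ?_) (Cardinal.natCast_lt_aleph0)
    exact key _ _ (ht.comp _ t.equivFin.symm.injective)
  refine ⟨hfd, le_antisymm (key _ _ (Module.finBasis _ _).linearIndependent) ?_⟩
  have h6 : LinearIndependent (ResidueField A) fun j => (⟨_, redF_mem_redW h (u j) (huW j)⟩ :
      redW h W) := LinearIndependent.of_comp (redW h W).subtype huli
  simpa using h6.fintype_card_le_finrank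

/-- Lifts of a basis of the reduction form a basis with integral coordinates. -/
theorem exists_coords {ι : Type*} [Fintype ι] {W : Submodule QBar F} [FiniteDimensional QBar W]
    (u : ι → h.S) (huW : ∀ i, (u i : F) ∈ W)
    (hli : LinearIndependent (ResidueField A) fun i => redF h (u i))
    (hcard : Fintype.card ι = Module.finrank QBar W) {f : F} (hf : f ∈ W) :
    ∃ c : ι → QBar, f = ∑ i, c i • (u i : F) ∧ (f ∈ h.S → ∀ i, c i ∈ A) := by
  classical
  have hsp : Submodule.span QBar (Set.range fun i => (u i : F)) = W := by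
    refine Submodule.eq_of_le_of_finrank_eq (Submodule.span_le.mpr ?_) ?_
    · rintro _ ⟨i, rfl⟩; exact huW i
    · rw [finrank_span_eq_card (linearIndependent_of_redF h u hli), hcard]
  obtain ⟨c, hc⟩ := (Submodule.mem_span_range_iff_exists_fun QBar).mp (hsp.symm ▸ hf)
  refine ⟨c, hc.symm, fun hfi i => ?_⟩
  by_contra hci
  obtain ⟨i₀, h0, hA⟩ := Arith.exists_div_mem A (c := c) ⟨i, fun e => hci (e ▸ zero_mem A)⟩
  have hci₀ : c i₀ ∉ A := fun hm => hci (by
    simpa [div_mul_cancel₀ _ h0] using mul_mem (hA i) hm)
  obtain hi := (A.mem_or_inv_mem (c i₀)).resolve_left hci₀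
  have hn : residue A ⟨_, hi⟩ = 0 := (IsLocalRing.residue_eq_zero_iff _).mpr fun hu => hci₀ (by
    obtain ⟨v, hv⟩ := hu.exists_right_inv
    rw [← inv_inv (c i₀), ← eq_inv_of_mul_eq_one_right (congrArg Subtype.val hv :)]
    exact v.2)
  have hsum : ∑ j, (⟨_, smul_mem_lattice h ⟨_, hA j⟩ (u j).2⟩ : h.S) =
      ⟨_, smul_mem_lattice h ⟨_, hi⟩ hfi⟩ := Subtype.ext (by
    simp only [AddSubmonoidClass.coe_finsetSum, ← hc, Finset.smul_sum, smul_smul, div_eq_inv_mul])
  have h2 := congrArg (redF h) hsum
  rw [map_sum, Finset.sum_congr rfl fun j _ => redF_smul h ⟨_, hA j⟩ (u j),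
    redF_smul h ⟨_, hi⟩ ⟨f, hfi⟩, hn, zero_smul] at h2
  have h3 := Fintype.linearIndependent_iff.mp hli _ h2 i₀
  rw [show (⟨_, hA i₀⟩ : A) = 1 from Subtype.ext (div_self h0), map_one] at h3
  exact one_ne_zero h3

theorem transcendental_of_redF (f : h.S) (hx : Transcendental (ResidueField A) (redF h f)) :
    Transcendental QBar (f : F) := fun hal => by
  have := IntermediateField.adjoin.finiteDimensional hal.isIntegral
  obtain ⟨a, ha⟩ := IntermediateField.mem_bot.mp
    (IntermediateField.eq_bot_of_isAlgClosed_of_isAlgebraic QBar⟮(f : F)⟯ ▸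
      mem_adjoin_simple_self QBar (f : F))
  have hli := linearIndependent_of_redF h ![1, f] (by
    rw [show (fun i => redF h (![1, f] i)) = ![1, redF h f] by funext i; fin_cases i <;> simp]
    exact LinearIndependent.pair_iff.mpr fun s t hst => by
      have h1 := Polynomial.ext_iff.mp (transcendental_iff.mp hx (C s + C t * X)
        (by simpa [Algebra.smul_def] using hst))
      exact ⟨by simpa using h1 0, by simpa using h1 1⟩)
  exact one_ne_zero (neg_eq_zero.mp (Fintype.linearIndependent_iff.mp hli ![a, -1]
    (by simp [Fin.sum_univ_two, ← ha, Algebra.smul_def]) 1))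

/-- The degree of the reduction of a function is at most the degree of the function. -/
theorem finrank_adjoin_redF_le [IsFunctionField QBar F] [IsFunctionField (ResidueField A) Fk]
    (f : h.S) (hx : Transcendental (ResidueField A) (redF h f)) :
    Transcendental QBar (f : F) ∧
      Module.finrank (ResidueField A)⟮redF h f⟯ Fk ≤ Module.finrank QBar⟮(f : F)⟯ F := by
  classical
  have hf := transcendental_of_redF h f hx
  refine ⟨hf, ?_⟩
  set x := redF h f
  have := finiteDimensional_adjoin hx
  have := finiteDimensional_adjoin hf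
  let bk := Module.finBasis (ResidueField A)⟮x⟯ Fk
  let b := Fin (Module.finrank (ResidueField A)⟮x⟯ Fk)
  choose u hu using fun y : b => h.surj (bk y)
  have hli : LinearIndependent QBar⟮(f : F)⟯ fun y => (u y : F) := by
    refine linearIndependent_adjoin hf fun p hp i => ?_
    by_contra hpi
    let J := Σ y : b, Fin ((p y).natDegree + 1)
    let c : J → QBar := fun j => (p j.1).coeff j.2
    obtain ⟨j₀, h0, hA⟩ := Arith.exists_div_mem A (c := c) ⟨⟨i, 0⟩, hpi⟩
    let q : b → A[X] := fun y =>
      ∑ m : Fin ((p y).natDegree + 1), C ⟨_, hA ⟨y, m⟩⟩ * X ^ (m : ℕ)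
    have hq : ∀ y, (q y).map A.subtype = C (c j₀)⁻¹ * p y := fun y => by
      conv_rhs => rw [(p y).as_sum_range_C_mul_X_pow, Finset.mul_sum, Finset.sum_range]
      simp only [q, Polynomial.map_sum, Polynomial.map_mul, map_C, Polynomial.map_pow, map_X]
      refine Finset.sum_congr rfl fun m _ => ?_
      rw [← mul_assoc, ← C_mul]
      simp [c, div_eq_inv_mul]
    have hev : ∀ y, ((eval₂RingHom (intConst h) f (q y) : h.S) : F) =
        algebraMap QBar F (c j₀)⁻¹ * aeval (f : F) (p y) := fun y => by
      have h1 : ((h.S).subtype.comp (eval₂RingHom (intConst h) f)) =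
          (aeval (f : F)).toRingHom.comp (mapRingHom A.subtype) :=
        Polynomial.ringHom_ext (fun a => by simp [coe_intConst]) (by simp)
      have h2 := RingHom.congr_fun h1 (q y)
      simp only [RingHom.comp_apply, coe_mapRingHom, AlgHom.toRingHom_eq_coe, RingHom.coe_coe,
        Subring.subtype_apply] at h2
      rw [h2, hq, map_mul, aeval_C]
    have hsum : ∑ y, eval₂RingHom (intConst h) f (q y) * u y = 0 := by
      refine Subtype.ext ?_
      rw [AddSubmonoidClass.coe_finsetSum, ZeroMemClass.coe_zero]
      simp only [MulMemClass.coe_mul, hev, mul_assoc, ← Finset.mul_sum, hp, mul_zero]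
    have hred := congrArg (redF h) hsum
    rw [map_sum, map_zero] at hred
    have hev' : ∀ y, redF h (eval₂RingHom (intConst h) f (q y)) =
        aeval x ((q y).map (residue A)) := fun y => by
      have h1 : (redF h).comp (eval₂RingHom (intConst h) f) =
          (aeval x).toRingHom.comp (mapRingHom (residue A)) :=
        Polynomial.ringHom_ext (fun a => by simp [redF_intConst]) (by simp [x])
      exact RingHom.congr_fun h1 (q y)
    let d : b → (ResidueField A)⟮x⟯ := fun y => ⟨aeval x ((q y).map (residue A)),
      algebra_adjoin_le_adjoin _ _ (by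
        rw [Algebra.adjoin_singleton_eq_range_aeval]; exact ⟨_, rfl⟩)⟩
    have hd0 : ∑ y, d y • bk y = 0 := by
      rw [← hred]
      refine Finset.sum_congr rfl fun y _ => ?_
      rw [map_mul, hev', show redF h (u y) = bk y from hu y, IntermediateField.smul_def, smul_eq_mul]
    have h3 := congrArg Subtype.val (Fintype.linearIndependent_iff.mp bk.linearIndependent d hd0 j₀.1)
    have h4 : (q j₀.1).map (residue A) = 0 := by
      by_contra hne
      exact aeval_ne_zero hx hne h3
    have h5 := congrArg (fun r => Polynomial.coeff r (j₀.2 : ℕ)) h4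
    simp only [q, Polynomial.map_sum, Polynomial.map_mul, map_C, Polynomial.map_pow, map_X,
      finsetSum_coeff, coeff_C_mul, coeff_X_pow, Fin.val_inj, mul_ite, mul_one, mul_zero,
      Finset.sum_ite_eq, Finset.mem_univ, if_true, coeff_zero] at h5
    have he : (⟨_, hA ⟨j₀.1, j₀.2⟩⟩ : A) = 1 := Subtype.ext (div_self h0)
    rw [he, map_one] at h5
    exact one_ne_zero h5
  simpa [b] using hli.fintype_card_le_finrank

end Fermat.Agent.FiniteFlat
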