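import Fermat.Agent.FiniteFlat.Calculus

/-!
# Coordinates of regular families in a chart

A chart of a family of spaces with constant reduction is a matrix which is injective on the
reduced spaces. The coordinates of the family in a chart lie in every ring over which the family is
regular, and the family is regular over any ring containing them.
-/

set_option autoImplicit false
set_option linter.unusedSectionVars false

noncomputable section

open IsLocalRing AlgebraicCurve
open Fermat.Agent.Arith Fermat.Agent.FF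
open scoped Matrix

namespace Fermat.Agent.FiniteFlat

variable {A : ValuationSubring QBar} {F Fk : Type*} [Field F] [Algebra QBar F] [Field Fk]
  [Algebra (ResidueField A) Fk]

section Coords

variable {Ω : Type*} [Finite Ω] (h : RedLattice A F Fk) {R : Subalgebra A (Ω → QBar)}

/-- Coordinates of a section in lattice elements with independent reductions lie in the ring. -/
theorem coords_mem_of_secs (hR : HasIntValues R) {n : ℕ} (u : Fin n → h.S)
    (hu : LinearIndependent (ResidueField A) fun i => redF h (u i))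
    {φ : Ω → F} (hφ : φ ∈ secs h R) {c : Fin n → Ω → QBar}
    (hc : ∀ ω, φ ω = ∑ i, c i ω • (u i : F)) : ∀ i, c i ∈ R := by
  classical
  obtain ⟨d, v, P, hv, hP⟩ := exists_frame_secs (h := h) (R := R)
    (Sum.elim (fun i => fun _ => (u i : F)) (fun _ : Unit => φ)) (fun t => by
      rcases t with t | t
      · exact const_mem_secs (u t)
      · exact hφ)
  set PU : Matrix (Fin d) (Fin n) R := Matrix.of fun a i => P a (Sum.inl i) with hPU
  set pφ : Fin d → R := fun a => P a (Sum.inr ()) with hpφ
  have hvQ : LinearIndependent QBar fun a => (v a : F) := linearIndependent_of_redF h v hv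
  have redU : ∀ ω i, redF h (u i) = ∑ a, resAt hR ω (PU a i) • redF h (v a) := by
    intro ω i
    have e : u i = ∑ a, intConst h (evalA' hR ω (PU a i)) * v a := Subtype.ext (by
      rw [AddSubmonoidClass.coe_finsetSum]
      simp only [MulMemClass.coe_mul, coe_intConst, ← Algebra.smul_def]
      exact hP (Sum.inl i) ω)
    conv_lhs => rw [e, map_sum]
    refine Finset.sum_congr rfl fun a _ => ?_
    rw [map_mul, redF_intConst, Algebra.smul_def]
    rfl
  rcases isEmpty_or_nonempty Ω with hΩ | ⟨⟨ω₀⟩⟩
  · intro i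
    rw [show c i = 0 from funext fun ω => hΩ.elim ω]
    exact zero_mem R
  set Ub := PU.map (resAt hR ω₀) with hUb
  have hUc : ∀ ω, PU.map (resAt hR ω) = Ub := fun ω => Matrix.ext fun a i => congrFun
    (hv.fintypeLinearCombination_injective (a₁ := fun a => resAt hR ω (PU a i))
      (a₂ := fun a => resAt hR ω₀ (PU a i))
      (by simp only [Fintype.linearCombination_apply]; rw [← redU ω i, ← redU ω₀ i])) a
  have hinj : Function.Injective Ub.mulVec := by
    intro x y hxy
    refine hu.fintypeLinearCombination_injective ?_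
    simp only [Fintype.linearCombination_apply]
    rw [sum_smul_eq_mulVec Ub x (redU ω₀), sum_smul_eq_mulVec Ub y (redU ω₀)]
    exact congrArg (fun w : Fin d → ResidueField A => ∑ a, w a • redF h (v a)) hxy
  obtain ⟨Lb, hLb⟩ := exists_left_inverse hinj
  set L0 : Matrix (Fin n) (Fin d) R := constMat Lb with hL0
  have hN := isUnit_matrix hR (L0 * PU) fun ω => by
    rw [Matrix.map_mul, resAt_constMat, hUc, hLb]
  intro i
  have key : c i = fun ω => (((L0 * PU)⁻¹ *ᵥ (L0 *ᵥ pφ)) i : Ω → QBar) ω := by
    funext ω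
    have h1 : (PU.map (evalQ R ω)) *ᵥ (fun j => c j ω) = evalQ R ω ∘ pφ := by
      refine hvQ.fintypeLinearCombination_injective ?_
      simp only [Fintype.linearCombination_apply, Function.comp_apply]
      have e2 : ∀ j, (u j : F) = ∑ a, (P a (Sum.inl j) : Ω → QBar) ω • (v a : F) := fun j =>
        hP (Sum.inl j) ω
      have e3 : φ ω = ∑ a, (P a (Sum.inr ()) : Ω → QBar) ω • (v a : F) := hP (Sum.inr ()) ω
      rw [hc ω] at e3
      simp only [e2, Finset.smul_sum, smul_smul] at e3
      rw [Finset.sum_comm] at e3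
      refine Eq.trans ?_ e3
      refine Finset.sum_congr rfl fun a _ => ?_
      rw [Matrix.mulVec, dotProduct, Finset.sum_smul]
      refine Finset.sum_congr rfl fun j _ => ?_
      rw [Matrix.map_apply, evalQ_apply, mul_comm]
      rfl
    have h2 : evalQ R ω ∘ ((L0 * PU)⁻¹ *ᵥ (L0 *ᵥ pφ)) = fun j => c j ω := by
      rw [← show evalQ R ω ∘ (((L0 * PU)⁻¹ *ᵥ (L0 *ᵥ pφ))) = evalQ R ω ∘ _ from rfl]
      funext j
      rw [Function.comp_apply, RingHom.map_mulVec]
      rw [show (evalQ R ω ∘ (L0 *ᵥ pφ)) = (L0.map (evalQ R ω)) *ᵥ (evalQ R ω ∘ pφ) from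
        funext fun k => RingHom.map_mulVec _ _ _ k, ← h1, Matrix.mulVec_mulVec,
        Matrix.mulVec_mulVec, ← Matrix.map_mul, ← Matrix.map_mul, Matrix.mul_assoc,
        Matrix.nonsing_inv_mul _ ((Matrix.isUnit_iff_isUnit_det _).mp hN),
        Matrix.map_one _ (map_zero _) (map_one _), Matrix.one_mulVec]
    exact (congrFun h2 i).symm
  rw [key]
  exact SetLike.coe_mem _

end Coords

variable [IsFunctionField QBar F] [IsFunctionField (ResidueField A) Fk] (h : GoodRed A F Fk)
  {Ω : Type*} {n r : ℕ}

/-- A matrix injective modulo the maximal ideal on the integral points of the spaces. -/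
def ChartInj (u : Fin n → h.S) (G : Ω → Divisor QBar F) (P : Matrix (Fin r) (Fin n) A) : Prop :=
  ∀ ω (c : Fin n → A), (∑ i, (c i : QBar) • (u i : F)) ∈ riemannRochSpace (G ω) →
    (∀ t, residue A ((P *ᵥ c) t) = 0) → ∀ i, residue A (c i) = 0

variable {h}

theorem coe_sum_intConst (u : Fin n → h.S) (c : Fin n → A) :
    ((∑ i, intConst h.toRedLattice (c i) * u i : h.S) : F) = ∑ i, (c i : QBar) • (u i : F) := by
  rw [AddSubmonoidClass.coe_finsetSum]
  simp only [MulMemClass.coe_mul, coe_intConst, ← Algebra.smul_def]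

theorem redF_sum_intConst (u : Fin n → h.S) (c : Fin n → A) :
    redF h.toRedLattice (∑ i, intConst h.toRedLattice (c i) * u i) =
      ∑ i, residue A (c i) • redF h.toRedLattice (u i) := by
  simp only [map_sum, map_mul, redF_intConst, ← Algebra.smul_def]

variable {u : Fin n → h.S}
  {G : Ω → Divisor QBar F} {Gb : Divisor (ResidueField A) Fk}

/-- Coordinates in a chart lie in every ring over which the family is regular. -/
theorem mem_of_isReg [Finite Ω] (hu : LinearIndependent (ResidueField A) fun i => redF h.toRedLattice (u i))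
    {R : Subalgebra A (Ω → QBar)} (hR : HasIntValues R) (hreg : IsReg h R G Gb)
    (hd : ∀ ω, Divisor.degree (G ω) = Divisor.degree Gb) (hbig : rrBound h ≤ Divisor.degree Gb)
    (hle : ∀ ω, riemannRochSpace (G ω) ≤ Submodule.span QBar (Set.range fun i => (u i : F)))
    {P : Matrix (Fin r) (Fin n) A} (hr : (r : ℕ) = Module.finrank (ResidueField A) (riemannRochSpace Gb))
    (hP : ChartInj h u G P) {c : Fin n → Ω → QBar} (v : Fin r → A)
    (hcG : ∀ ω, (∑ i, c i ω • (u i : F)) ∈ riemannRochSpace (G ω))
    (hcP : ∀ ω, (P.map A.subtype) *ᵥ (fun i => c i ω) = fun t => (v t : QBar)) :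
    ∀ i, c i ∈ R := by
  classical
  let ξ := (Module.finBasis (ResidueField A) (riemannRochSpace Gb)).reindex (finCongr hr.symm)
  choose a ha ha' using fun s => hreg (ξ s) (ξ s).2
  choose haG haS hared using ha'
  have hxi : LinearIndependent (ResidueField A) fun s => (ξ s : Fk) :=
    ξ.linearIndependent.map' (riemannRochSpace Gb).subtype (Submodule.ker_subtype _)
  have hspan := fun ω => span_lifts ξ (haS · ω) (haG · ω) (hared · ω) hbig (hd ω)
  have hexC : ∀ s ω, ∃ C : Fin n → QBar, ∑ i, C i • (u i : F) = a s ω := fun s ω =>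
    (Submodule.mem_span_range_iff_exists_fun QBar).mp (hle ω (haG s ω))
  choose C hC using hexC
  have hCR : ∀ s i, (fun ω => C s ω i) ∈ R := fun s i =>
    coords_mem_of_secs h.toRedLattice hR u hu (ha s) (c := fun i ω => C s ω i)
      (fun ω => (hC s ω).symm) i
  set CM : Matrix (Fin n) (Fin r) R := Matrix.of fun i s => ⟨_, hCR s i⟩ with hCM
  set N : Matrix (Fin r) (Fin r) R := P.map (algebraMap A R) * CM with hN
  have hdet : ∀ ω, resAt hR ω N.det ≠ 0 := by
    intro ω
    rw [RingHom.map_det, RingHom.mapMatrix_apply, ← Matrix.det_transpose]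
    intro h0
    obtain ⟨x, hx0, hx⟩ := Matrix.exists_vecMul_eq_zero_iff.mpr h0
    rw [Matrix.vecMul_transpose] at hx
    set x' : Fin r → A := fun s => liftRes A (x s)
    set c' : Fin n → A := fun i => ∑ s, evalA' hR ω (CM i s) * x' s with hc'
    have e1 : ∑ i, (c' i : QBar) • (u i : F) = ∑ s, (x' s : QBar) • a s ω := by
      simp only [← hC, Finset.smul_sum, smul_smul, hc', AddSubmonoidClass.coe_finsetSum,
        MulMemClass.coe_mul, Finset.sum_smul, coe_evalA', hCM, Matrix.of_apply]
      rw [Finset.sum_comm]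
      exact Finset.sum_congr rfl fun s _ => Finset.sum_congr rfl fun i _ => by rw [mul_comm]
    have h1 : ∀ i, residue A (c' i) = ∑ s, resAt hR ω (CM i s) * x s := fun i => by
      simp only [hc', map_sum, map_mul, x', residue_liftRes]
      rfl
    have h2 := hP ω c' (e1 ▸ sum_mem fun s _ => Submodule.smul_mem _ _ (haG s ω)) fun t => by
      rw [RingHom.map_mulVec, show (residue A ∘ c') = (CM.map (resAt hR ω)) *ᵥ x from funext h1,
        Matrix.mulVec_mulVec]
      refine Eq.trans ?_ (congrFun hx t)
      rw [hN, Matrix.map_mul, Matrix.map_map]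
      exact congrArg (fun X : Matrix _ _ (ResidueField A) => ((X * _) *ᵥ x) t)
        (Matrix.ext fun i j => (resAt_algebraMap hR ω (P i j)).symm)
    have e3 : redF h.toRedLattice (∑ i, intConst h.toRedLattice (c' i) * u i) =
        ∑ s, x s • (ξ s : Fk) := by
      have e4 : (∑ i, intConst h.toRedLattice (c' i) * u i) =
          ∑ s, intConst h.toRedLattice (x' s) * (⟨a s ω, haS s ω⟩ : h.S) := Subtype.ext (by
        rw [coe_sum_intConst, e1, coe_sum_intConst])
      rw [e4, redF_sum_intConst]
      simp only [x', residue_liftRes, hared]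
    rw [redF_sum_intConst] at e3
    simp only [h2, zero_smul, Finset.sum_const_zero] at e3
    exact hx0 (funext fun s => Fintype.linearIndependent_iff.mp hxi x e3.symm s)
  have hNu := isUnit_of_resAt_ne_zero hR N.det hdet
  intro i
  have key : c i = fun ω => ((CM *ᵥ (N⁻¹ *ᵥ fun t => algebraMap A R (v t))) i : Ω → QBar) ω := by
    funext ω
    obtain ⟨y, hy⟩ := (Submodule.mem_span_range_iff_exists_fun QBar).mp
      ((hspan ω).symm ▸ hcG ω)
    have hcy : (fun j => c j ω) = (CM.map (evalQ R ω)) *ᵥ y := by
      refine (linearIndependent_of_redF h.toRedLattice u hu).fintypeLinearCombination_injective ?_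
      simp only [Fintype.linearCombination_apply]
      rw [← hy]
      exact sum_smul_eq_mulVec _ y fun s => (hC s ω).symm
    have hNy : (N.map (evalQ R ω)) *ᵥ y = evalQ R ω ∘ fun t => algebraMap A R (v t) := by
      rw [hN, Matrix.map_mul, ← Matrix.mulVec_mulVec, ← hcy, Matrix.map_map]
      exact hcP ω
    have hy' : evalQ R ω ∘ (N⁻¹ *ᵥ fun t => algebraMap A R (v t)) = y := by
      funext s
      rw [Function.comp_apply, RingHom.map_mulVec, ← hNy, Matrix.mulVec_mulVec, ← Matrix.map_mul,
        Matrix.nonsing_inv_mul _ hNu, Matrix.map_one _ (map_zero _) (map_one _), Matrix.one_mulVec]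
    refine (congrFun hcy i).trans ?_
    rw [← hy', ← RingHom.map_mulVec]
    rfl
  rw [key]
  exact SetLike.coe_mem _

set_option maxHeartbeats 1000000 in
/-- A chart and coordinates over which a family with constant reduction is regular. -/
theorem exists_chart (hu : LinearIndependent (ResidueField A) fun i => redF h.toRedLattice (u i))
    (hd : ∀ ω, bigDeg h ≤ Divisor.degree (G ω)) (hred : ∀ ω, redDiv h (G ω) = Gb)
    (hle : ∀ ω, riemannRochSpace (G ω) ≤ Submodule.span QBar (Set.range fun i => (u i : F)))
    (hleb : riemannRochSpace Gb ≤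
      Submodule.span (ResidueField A) (Set.range fun i => redF h.toRedLattice (u i)))
    (lift : ResidueField A → A) (hlift : ∀ z, residue A (lift z) = z)
    (hr : r = Module.finrank (ResidueField A) (riemannRochSpace Gb)) :
    ∃ (P : Matrix (Fin r) (Fin n) A) (gen : Fin r → Fin n → Ω → QBar),
      (∀ t i, ∃ z, P t i = lift z) ∧ ChartInj h u G P ∧
      (∀ t i ω, gen t i ω ∈ A) ∧
      (∀ t ω, (∑ i, gen t i ω • (u i : F)) ∈ riemannRochSpace (G ω)) ∧
      (∀ t ω, (P.map A.subtype) *ᵥ (fun i => gen t i ω) = Pi.single t 1) ∧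
      (∀ ω, Submodule.span QBar (Set.range fun t => ∑ i, gen t i ω • (u i : F)) =
        riemannRochSpace (G ω)) ∧
      (∀ t i ω ω', gen t i ω - gen t i ω' ∈ A.nonunits) ∧
      ∀ R : Subalgebra A (Ω → QBar), (∀ t i, gen t i ∈ R) → IsReg h R G Gb := by
  classical
  let ξ := (Module.finBasis (ResidueField A) (riemannRochSpace Gb)).reindex (finCongr hr.symm)
  have hxi : LinearIndependent (ResidueField A) fun s => (ξ s : Fk) :=
    ξ.linearIndependent.map' (riemannRochSpace Gb).subtype (Submodule.ker_subtype _)
  choose Cb hCb using fun s => (Submodule.mem_span_range_iff_exists_fun (ResidueField A)).mp (hleb (ξ s).2)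
  let CbM : Matrix (Fin n) (Fin r) (ResidueField A) := Matrix.of fun i s => Cb s i
  have hinj : Function.Injective CbM.mulVec := by
    intro x y hxy
    refine hxi.fintypeLinearCombination_injective ?_
    simp only [Fintype.linearCombination_apply]
    rw [sum_smul_eq_mulVec CbM x fun s => (hCb s).symm, sum_smul_eq_mulVec CbM y fun s => (hCb s).symm]
    exact congrArg (fun w : Fin n → (ResidueField A) => ∑ i, w i • redF h.toRedLattice (u i)) hxy
  obtain ⟨Lb, hLb⟩ := exists_left_inverse hinj
  let P : Matrix (Fin r) (Fin n) A := Lb.map lift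
  have hPres : P.map (residue A) = Lb := Matrix.ext fun t i => by simp [P, hlift]
  have hW : ∀ ω, redW h.toRedLattice (riemannRochSpace (G ω)) = riemannRochSpace Gb := fun ω => by
    rw [redW_riemannRochSpace h (hd ω), hred]
  have hlift1 : ∀ ω s, ∃ f : h.S, (f : F) ∈ riemannRochSpace (G ω) ∧
      redF h.toRedLattice f = (ξ s : Fk) := fun ω s =>
    (show (ξ s : Fk) ∈ redW h.toRedLattice (riemannRochSpace (G ω)) from (hW ω).symm ▸ (ξ s).2)
  choose f hfG hfr using hlift1
  have hspanu : ∀ ω s, (f ω s : F) ∈ Submodule.span QBar (Set.range fun i => (u i : F)) :=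
    fun ω s => hle ω (hfG ω s)
  have hcoord : ∀ ω s, ∃ C : Fin n → A, (f ω s : F) = ∑ i, (C i : QBar) • (u i : F) := by
    intro ω s
    have : FiniteDimensional QBar (Submodule.span QBar (Set.range fun i => (u i : F))) :=
      FiniteDimensional.span_of_finite QBar (Set.finite_range _)
    obtain ⟨c, hc, hcA⟩ := exists_coords h.toRedLattice
      (W := Submodule.span QBar (Set.range fun i => (u i : F))) u (fun i => Submodule.subset_span ⟨i, rfl⟩) hu
      (by rw [Fintype.card_fin, finrank_span_eq_card (linearIndependent_of_redF _ u hu),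
        Fintype.card_fin]) (hspanu ω s)
    exact ⟨fun i => ⟨c i, hcA (f ω s).2 i⟩, hc⟩
  choose C hC using hcoord
  let CM : Ω → Matrix (Fin n) (Fin r) A := fun ω => Matrix.of fun i s => C ω s i
  have hCres : ∀ ω, (CM ω).map (residue A) = CbM := fun ω => Matrix.ext fun i s => congrFun
    (hu.fintypeLinearCombination_injective (a₁ := fun i => residue A (C ω s i)) (a₂ := Cb s) (by
      simp only [Fintype.linearCombination_apply]
      rw [hCb, ← hfr ω s, ← redF_sum_intConst]
      exact congrArg _ (Subtype.ext (by rw [coe_sum_intConst, hC])))) i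
  let N : Ω → Matrix (Fin r) (Fin r) A := fun ω => P * CM ω
  have hNres : ∀ ω, (N ω).map (residue A) = 1 := fun ω => by
    rw [Matrix.map_mul, hPres, hCres, hLb]
  have hN : ∀ ω, IsUnit (N ω).det := fun ω => by
    rw [← residue_ne_zero_iff_isUnit, RingHom.map_det, RingHom.mapMatrix_apply, hNres,
      Matrix.det_one]
    exact one_ne_zero
  let D : Ω → Matrix (Fin n) (Fin r) A := fun ω => CM ω * (N ω)⁻¹
  have hDres : ∀ ω, (D ω).map (residue A) = CbM := fun ω => by
    have h1 : ((N ω)⁻¹).map (residue A) = 1 := by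
      have h2 := congrArg (fun X : Matrix (Fin r) (Fin r) A => X.map (residue A))
        (Matrix.nonsing_inv_mul _ (hN ω))
      simp only [Matrix.map_mul, hNres, Matrix.mul_one] at h2
      rw [h2, Matrix.map_one _ (map_zero _) (map_one _)]
    show (CM ω * (N ω)⁻¹).map (residue A) = CbM
    rw [Matrix.map_mul, hCres]
    exact (congrArg (CbM * ·) h1).trans (Matrix.mul_one _)
  let gen : Fin r → Fin n → Ω → QBar := fun t i ω => (D ω i t : QBar)
  have hgenG : ∀ t ω, (∑ i, gen t i ω • (u i : F)) =
      ∑ s, (((N ω)⁻¹ s t : A) : QBar) • (f ω s : F) := fun t ω => by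
    simp only [gen, D, Matrix.mul_apply, hC, Finset.smul_sum, smul_smul, Finset.sum_smul,
      AddSubmonoidClass.coe_finsetSum, MulMemClass.coe_mul, CM, Matrix.of_apply]
    rw [Finset.sum_comm]
    exact Finset.sum_congr rfl fun s _ => Finset.sum_congr rfl fun i _ => by rw [mul_comm]
  have hgenm : ∀ t ω, (∑ i, gen t i ω • (u i : F)) ∈ riemannRochSpace (G ω) := fun t ω => by
    rw [hgenG]; exact sum_mem fun s _ => Submodule.smul_mem _ _ (hfG ω s)
  have hgenr : ∀ t ω, redF h.toRedLattice (∑ i, intConst h.toRedLattice (D ω i t) * u i) =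
      (ξ t : Fk) := fun t ω => by
    rw [redF_sum_intConst, ← hCb]
    exact Finset.sum_congr rfl fun i _ => by
      rw [show residue A (D ω i t) = Cb t i from congrFun (congrFun (hDres ω) i) t]
  refine ⟨P, gen, fun t i => ⟨_, rfl⟩, ?_, fun t i ω => (D ω i t).2, hgenm,
    fun t ω => funext fun s => ?_, fun ω => ?_, fun t i ω ω' => ?_, fun R hR x hx => ?_⟩
  · intro ω c hc hc0
    have h1 : (redF h.toRedLattice (∑ i, intConst h.toRedLattice (c i) * u i)) ∈
        riemannRochSpace Gb := by
      rw [← hW ω]
      refine ⟨_, ?_, rfl⟩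
      rw [coe_sum_intConst]
      exact hc
    obtain ⟨b, hb⟩ : ∃ b : Fin r → (ResidueField A), ∑ s, b s • (ξ s : Fk) =
        redF h.toRedLattice (∑ i, intConst h.toRedLattice (c i) * u i) := by
      refine ⟨fun s => ξ.repr ⟨_, h1⟩ s, ?_⟩
      have := congrArg Subtype.val (ξ.sum_repr ⟨_, h1⟩)
      rw [AddSubmonoidClass.coe_finsetSum] at this
      exact this
    have hcb : (residue A ∘ c) = CbM *ᵥ b := by
      refine hu.fintypeLinearCombination_injective ?_
      simp only [Fintype.linearCombination_apply, Function.comp_apply]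
      rw [← redF_sum_intConst, ← hb]
      exact sum_smul_eq_mulVec CbM b fun s => (hCb s).symm
    have hb0 : b = 0 := funext fun t => by
      have := hc0 t
      rw [RingHom.map_mulVec, hPres, hcb, Matrix.mulVec_mulVec, hLb, Matrix.one_mulVec] at this
      exact this
    intro i
    exact (congrFun hcb i).trans (by rw [hb0, Matrix.mulVec_zero]; rfl)
  · have h1 : (P * D ω) = 1 := by
      show P * (CM ω * (N ω)⁻¹) = 1
      rw [← Matrix.mul_assoc]
      exact Matrix.mul_nonsing_inv _ (hN ω)
    have h2 := congrArg (fun X : Matrix _ _ A => ((X s t : A) : QBar)) h1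
    simp only [Matrix.mul_apply, AddSubmonoidClass.coe_finsetSum, MulMemClass.coe_mul,
      Matrix.one_apply] at h2
    rw [Matrix.mulVec, dotProduct]
    refine h2.trans ?_
    rw [Pi.single_apply]
    split <;> rfl
  · have hli : LinearIndependent QBar fun t => ∑ i, gen t i ω • (u i : F) := by
      have := linearIndependent_of_redF h.toRedLattice
        (fun t => ∑ i, intConst h.toRedLattice (D ω i t) * u i) (by simp only [hgenr]; exact hxi)
      simp only [coe_sum_intConst] at this
      exact this
    refine Submodule.eq_of_le_of_finrank_eq (Submodule.span_le.mpr ?_) ?_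
    · rintro _ ⟨t, rfl⟩; exact hgenm t ω
    · rw [finrank_span_eq_card hli, Fintype.card_fin, hr]
      have := (finrank_redW h.toRedLattice (riemannRochSpace (G ω))).1
      rw [← (finrank_redW h.toRedLattice (riemannRochSpace (G ω))).2, hW ω]
  · exact residue_eq_iff.mp (((congrFun (congrFun (hDres ω) i) t)).trans
      (congrFun (congrFun (hDres ω') i) t).symm)
  · obtain ⟨b, hb⟩ : ∃ b : Fin r → (ResidueField A), ∑ s, b s • (ξ s : Fk) = x := by
      refine ⟨fun s => ξ.repr ⟨_, hx⟩ s, ?_⟩
      have := congrArg Subtype.val (ξ.sum_repr ⟨_, hx⟩)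
      rw [AddSubmonoidClass.coe_finsetSum] at this
      exact this
    let q : Fin n → R := fun i => ∑ t, algebraMap A R (liftRes A (b t)) * ⟨_, hR t i⟩
    refine ⟨fun ω => ∑ i, (q i : Ω → QBar) ω • (u i : F), sum_mem_secs _ q u, fun ω => ?_⟩
    let z : h.S := ∑ t, intConst h.toRedLattice (liftRes A (b t)) *
      ∑ i, intConst h.toRedLattice (D ω i t) * u i
    have hz : (∑ i, (q i : Ω → QBar) ω • (u i : F)) = (z : F) := by
      simp only [z, q, gen, AddSubmonoidClass.coe_finsetSum, Finset.sum_apply, MulMemClass.coe_mul,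
        coe_intConst, ← Algebra.smul_def, Finset.sum_smul, Finset.smul_sum, smul_smul]
      exact Finset.sum_comm
    show (∑ i, (q i : Ω → QBar) ω • (u i : F)) ∈ _ ∧ _
    have hzS : (∑ i, (q i : Ω → QBar) ω • (u i : F)) ∈ h.S := by rw [hz]; exact z.2
    refine ⟨?_, hzS, ?_⟩
    · rw [hz]
      simp only [z, AddSubmonoidClass.coe_finsetSum, MulMemClass.coe_mul, coe_intConst,
        ← Algebra.smul_def]
      exact sum_mem fun t _ => Submodule.smul_mem _ _ (hgenm t ω)
    · refine Eq.trans (congrArg _ (Subtype.ext hz)) ?_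
      rw [map_sum, ← hb]
      refine Finset.sum_congr rfl fun t _ => ?_
      rw [map_mul, redF_intConst, ← Algebra.smul_def, residue_liftRes]
      exact congrArg _ (hgenr t ω)

end Fermat.Agent.FiniteFlat
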