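import Fermat.Agent.FiniteFlat.FibreGroupLaw
import Fermat.Agent.EichlerShimura.Specialization
import Fermat.Agent.MordellWeil.Main
import Fermat.Agent.Arith.Frobenius

/-!
# Reduction is injective on the torsion prime to the residue characteristic

On a finite group of classes the values `f x - f 0` of the lattice algebra on the kernel of
reduction are nonunits and additive up to their products, so they vanish when the exponent is a
unit.
-/

set_option autoImplicit false
set_option linter.unusedSectionVars false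

noncomputable section

open IsLocalRing AlgebraicCurve ModularCurve
open Fermat.Agent.Arith Fermat.Agent.FF Fermat.Agent.RedTorsion

namespace Fermat.Agent.FiniteFlat

variable {A : ValuationSubring QBar} {M : Type} [AddCommGroup M] [Finite M]

/-- An algebra of integral functions, congruent on a subgroup and closed under the coproduct,
is constant on it when a unit kills it. -/
theorem eq_of_coalgebra_congr {S : Subalgebra A (M → QBar)} {G : Set (M → QBar)} (hG : G.Finite)
    (hS : S = Algebra.adjoin A G) (hint : ∀ f ∈ S, ∀ x, f x ∈ A) (K : AddSubgroup M)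
    (hcong : ∀ f ∈ S, ∀ x ∈ K, f x - f 0 ∈ A.nonunits)
    (hcomul : ∀ f ∈ S, ∃ (κ : Type) (_ : Fintype κ) (a b : κ → (M → QBar)),
      (∀ j, a j ∈ S) ∧ (∀ j, b j ∈ S) ∧ ∀ x y, f (x + y) = ∑ j, a j x * b j y)
    {m : ℕ} (hm : A.valuation (m : QBar) = 1) (hmK : ∀ x ∈ K, m • x = 0) :
    ∀ f ∈ S, ∀ x ∈ K, f x = f 0 := by
  rcases G.eq_empty_or_nonempty with rfl | ⟨g₀, hg₀⟩
  · intro f hf x _
    rw [hS] at hf
    induction hf using Algebra.adjoin_induction with
    | mem f hf => exact hf.elim
    | algebraMap c => rfl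
    | add f g _ _ h1 h2 => rw [Pi.add_apply, Pi.add_apply, h1, h2]
    | mul f g _ _ h1 h2 => rw [Pi.mul_apply, Pi.mul_apply, h1, h2]
  have := hG.to_subtype
  have : Nonempty (G × K) := ⟨⟨⟨g₀, hg₀⟩, 0⟩⟩
  obtain ⟨⟨g₁, x₁⟩, hmax⟩ := Finite.exists_max fun p : G × K =>
    A.valuation ((p.1 : M → QBar) p.2 - (p.1 : M → QBar) 0)
  set γ := A.valuation ((g₁ : M → QBar) x₁ - (g₁ : M → QBar) 0) with hγ
  have hg₁ : (g₁ : M → QBar) ∈ S := hS ▸ Algebra.subset_adjoin g₁.2
  have hγ1 : γ < 1 := (ValuationSubring.mem_nonunits_iff A).mp (hcong _ hg₁ _ x₁.2)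
  have hle : ∀ f ∈ S, ∀ x ∈ K, A.valuation (f x - f 0) ≤ γ := by
    intro f hf x hx
    rw [hS] at hf
    induction hf using Algebra.adjoin_induction with
    | mem f hf => exact hmax (⟨f, hf⟩, ⟨x, hx⟩)
    | algebraMap c =>
      rw [show algebraMap A (M → QBar) c x = algebraMap A (M → QBar) c 0 from rfl, sub_self,
        map_zero]
      exact zero_le
    | add f g _ _ h1 h2 =>
      rw [Pi.add_apply, Pi.add_apply, add_sub_add_comm]
      exact A.valuation.map_add_le h1 h2
    | mul f g hf hg h1 h2 =>
      rw [Pi.mul_apply, Pi.mul_apply,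
        show f x * g x - f 0 * g 0 = f x * (g x - g 0) + (f x - f 0) * g 0 by ring]
      refine A.valuation.map_add_le ?_ ?_
      · rw [map_mul]
        exact mul_le_of_le_one_of_le ((A.valuation_le_one_iff _).mpr (hint f (hS ▸ hf) x)) h2
      · rw [map_mul]
        exact mul_le_of_le_of_le_one h1 ((A.valuation_le_one_iff _).mpr (hint g (hS ▸ hg) 0))
  have hbil : ∀ f ∈ S, ∀ x ∈ K, ∀ y ∈ K,
      A.valuation (f (x + y) - f x - f y + f 0) ≤ γ * γ := by
    intro f hf x hx y hy
    obtain ⟨κ, _, a, b, ha, hb, hab⟩ := hcomul f hf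
    have e : f (x + y) - f x - f y + f 0 = ∑ j, (a j x - a j 0) * (b j y - b j 0) := by
      have h1 := hab x 0
      have h2 := hab 0 y
      have h3 := hab 0 0
      rw [add_zero] at h1 h3
      rw [zero_add] at h2
      rw [hab x y, h1, h2, h3]
      simp only [sub_mul, mul_sub, Finset.sum_sub_distrib]
      ring
    rw [e]
    refine A.valuation.map_sum_le fun j _ => ?_
    rw [map_mul]
    exact mul_le_mul' (hle _ (ha j) x hx) (hle _ (hb j) y hy)
  have hlin : ∀ f ∈ S, ∀ x ∈ K, ∀ n : ℕ,
      A.valuation (f (n • x) - f 0 - (n : QBar) * (f x - f 0)) ≤ γ * γ := by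
    intro f hf x hx n
    induction n with
    | zero => simp
    | succ n ih =>
      rw [succ_nsmul, show f (n • x + x) - f 0 - ((n + 1 : ℕ) : QBar) * (f x - f 0) =
        (f (n • x + x) - f (n • x) - f x + f 0) + (f (n • x) - f 0 - (n : QBar) * (f x - f 0)) by
          push_cast; ring]
      exact A.valuation.map_add_le (hbil f hf _ (nsmul_mem hx n) _ hx) ih
  have hsq : γ ≤ γ * γ := by
    have h := hlin _ hg₁ _ x₁.2 m
    rwa [hmK _ x₁.2, sub_self, zero_sub, A.valuation.map_neg, map_mul, hm, one_mul] at h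
  have hγ0 : γ = 0 := by
    by_contra hne
    exact absurd hsq (not_le.mpr (mul_lt_of_lt_one_left (zero_lt_iff.mpr hne) hγ1))
  intro f hf x hx
  have h := hle f hf x hx
  rw [hγ0, le_zero_iff, map_eq_zero, sub_eq_zero] at h
  exact h

/-- Reduction is injective on the torsion of `J₀(N)` prime to the residue characteristic. -/
theorem injectiveOnTorsion_of_lattice (N : ℕ) [NeZero N] :
    EichlerShimura.InjectiveOnTorsion N := by
  intro l _ hlN A hA _ m hlm z hz hred
  have hl : l.Prime := Fact.out
  have : IsAlgClosed (ResidueField A) := residueField_isAlgClosed A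
  have := Arith.residueField_charP hA hl
  have hNA : (N : ResidueField A) ≠ 0 := fun h =>
    hlN ((CharP.cast_eq_zero_iff (ResidueField A) l N).mp h)
  have := EichlerShimura.isFunctionField_bar (N := N)
  have := RedTorsion.isFunctionField_full (K := ResidueField A) (N := N)
    (F := modularFunctionFieldFullC (ResidueField A) N) rfl hNA
  have hm0 : 0 < m := Nat.pos_of_ne_zero fun h => hlm (h ▸ dvd_zero l)
  let T := Submodule.torsionBy ℤ (JZero N) (m : ℤ)
  have : Finite T := (Set.Finite.subset (MordellWeil.jZero_finite_torsion N m hm0) fun x hx => by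
    have h := (Submodule.mem_torsionBy_iff _ _).mp hx
    rwa [natCast_zsmul] at h).to_subtype
  let i : T →+ JZero N := T.subtype.toAddMonoidHom
  obtain ⟨Fr⟩ := nonempty_ratFrame hNA hA hl
  obtain ⟨D, hD, -⟩ := exists_goodBase (i := i) hA hl hNA
  let ch : ∀ a, FibChart Fr hD a := fun a => (nonempty_fibChart hA hl hD a).some
  let x : T := ⟨z, (Submodule.mem_torsionBy_iff _ _).mpr (by rw [natCast_zsmul]; exact hz)⟩
  have hx : redCls A i x = 0 := hred
  have hmv : A.valuation (m : QBar) = 1 := by
    refine le_antisymm ((A.valuation_le_one_iff _).mpr (natCast_mem A.toSubring m)) ?_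
    by_contra! hlt
    exact hlm ((Arith.natCast_mem_nonunits_iff hA hl m).mp ((ValuationSubring.mem_nonunits_iff A).mpr hlt))
  have key := eq_of_coalgebra_congr (finite_latGens ch) (S := latAlg ch) rfl
    (fun f hf => latAlg_int ch hf) (redCls A i).ker
    (fun f hf y hy => latAlg_congr ch hf ((AddMonoidHom.mem_ker.mp hy).trans (map_zero _).symm))
    (fun f hf => exists_sum_of_mem_pairAlg (comul_mem_latAlg ch hf)) hmv
    (fun y _ => Subtype.ext (by
      have h := (Submodule.mem_torsionBy_iff _ _).mp y.2
      rw [natCast_zsmul] at h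
      exact h))
  have h0 := latAlg_separates ch Subtype.val_injective x 0 fun f hf =>
    key f hf x (AddMonoidHom.mem_ker.mpr hx)
  exact congrArg Subtype.val h0

end Fermat.Agent.FiniteFlat
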