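import Fermat.Agent.FiniteFlat.FibreGalois
import Fermat.Agent.FiniteFlat.FibreGroupLaw
import Fermat.Agent.FiniteFlat.GalOrderHopf
import Fermat.Agent.MordellWeil.Main
import Fermat.Agent.Mazur.Eisenstein.Inputs

/-!
# Galois orders on the torsion of `J₀(N)` at primes of good reduction

Every finite Galois-stable group of classes carries a Galois order at `ℓ ∤ N` whose functions are
congruent on the classes with the same reduction. The `ℓᵏ`-torsion is the group of points of a
finite flat commutative group scheme over `ℤ_(ℓ)`.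
-/

set_option autoImplicit false
set_option linter.unusedSectionVars false

noncomputable section

open IsLocalRing AlgebraicCurve ModularCurve
open Fermat.Agent.Arith Fermat.Agent.FF Fermat.Agent.RedTorsion
open scoped Pointwise

namespace Fermat.Agent.FiniteFlat

/-- A Galois order on a finite group of classes, congruent on the fibres of reduction. -/
theorem exists_galOrder_of_finite {N l : ℕ} [NeZero N] (hl : l.Prime) (hlN : ¬ l ∣ N)
    {A : ValuationSubring QBar} (hA : A.LiesOverPrime l)
    {M : Type} [AddCommGroup M] [Finite M] [DistribMulAction GQ M] (i : M →+ JZero N)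
    (hinj : Function.Injective i) (hi : ∀ (g : GQ) (x : M), i (g • x) = g • i x) :
    ∃ O : GalOrder l M, ∀ f ∈ O.H, ∀ x y : M,
      reductionModL A N (i x) = reductionModL A N (i y) → f x - f y ∈ A.nonunits := by
  have : IsAlgClosed (ResidueField A) := residueField_isAlgClosed A
  have := Arith.residueField_charP hA hl
  have hNA : (N : ResidueField A) ≠ 0 := fun h => hlN ((CharP.cast_eq_zero_iff (ResidueField A) l N).mp h)
  have := EichlerShimura.isFunctionField_bar (N := N)
  have := RedTorsion.isFunctionField_full (K := ResidueField A) (N := N)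
    (F := modularFunctionFieldFullC (ResidueField A) N) rfl hNA
  obtain ⟨Fr⟩ := nonempty_ratFrame hNA hA hl
  obtain ⟨T, hT, hfix⟩ := exists_goodBase (i := i) hA hl hNA
  let ch : ∀ a, FibChart Fr hT a := fun a => (nonempty_fibChart hA hl hT a).some
  obtain ⟨O, hO⟩ := exists_galOrder_of_lattice (M := M) hA hl (latAlg ch)
    (fun f hf m => latAlg_int ch hf m) (fun d hd f hf => galAct_mem_latAlg hi ch hd f hf)
    (isOpen_fixGroup hi hinj (hT := hT) Fr (finite_latGens ch))
    (inertia_le_fixGroup hi ch hfix) (toSubmodule_latAlg_le_span ch)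
    (fun m m' h => latAlg_separates ch hinj m m' h)
    (fun f hf => by
      obtain ⟨κ, _, a, b, ha, hb, hab⟩ := exists_sum_of_mem_pairAlg (comul_mem_latAlg ch hf)
      refine ⟨Fintype.card κ, fun j => a ((Fintype.equivFin κ).symm j),
        fun j => b ((Fintype.equivFin κ).symm j), fun j => ha _, fun j => hb _, fun x y => ?_⟩
      rw [(Fintype.equivFin κ).symm.sum_comp (fun j => a j x * b j y)]
      exact hab x y)
    (fun f hf => neg_mem_latAlg ch hf)
  refine ⟨O, fun f hf x y h => latAlg_congr ch ?_ h⟩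
  rw [hO] at hf
  exact hf.1

/-- The torsion of `J₀(N)` killed by `n`, as a Galois module. -/
@[instance_reducible]
def torsionAction (N n : ℕ) :
    DistribMulAction GQ (Submodule.torsionBy ℤ (JZero N) (n : ℤ)) where
  smul g x := ⟨g • (x : JZero N), by
    have hx := (Submodule.mem_torsionBy_iff _ _).mp x.2
    rw [Submodule.mem_torsionBy_iff]
    have h : g • ((n : ℤ) • (x : JZero N)) = (n : ℤ) • (g • (x : JZero N)) :=
      map_zsmul (DistribSMul.toAddMonoidHom (JZero N) g) _ _
    rw [← h, hx, smul_zero]⟩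
  one_smul x := Subtype.ext (one_smul GQ (x : JZero N))
  mul_smul g g' x := Subtype.ext (mul_smul g g' (x : JZero N))
  smul_zero g := Subtype.ext (smul_zero g)
  smul_add g x y := Subtype.ext (smul_add g (x : JZero N) (y : JZero N))

theorem finite_torsionBy {N : ℕ} [NeZero N] {n : ℕ} (hn : 0 < n) :
    Finite (Submodule.torsionBy ℤ (JZero N) (n : ℤ)) :=
  (Set.Finite.subset (MordellWeil.jZero_finite_torsion N n hn) fun x hx => by
    have h := (Submodule.mem_torsionBy_iff _ _).mp hx
    rwa [natCast_zsmul] at h).to_subtype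

/-- The `ℓᵏ`-torsion of `J₀(N)` is finite flat over `ℤ_(ℓ)`. -/
theorem exists_finiteFlat_torsion {p : ℕ} [NeZero p] {ℓ : ℕ} [Fact ℓ.Prime] (hℓp : ¬ ℓ ∣ p)
    (k : ℕ) :
    ∃ (H : Type) (_ : CommRing H) (_ : HopfAlgebra (GaloisRep.ratLocalizedAt ℓ) H),
      Module.Finite (GaloisRep.ratLocalizedAt ℓ) H ∧ Module.Flat (GaloisRep.ratLocalizedAt ℓ) H ∧
      Coalgebra.IsCocomm (GaloisRep.ratLocalizedAt ℓ) H ∧
      ∃ e : WithConv (H →ₐ[GaloisRep.ratLocalizedAt ℓ] AlgebraicClosure ℚ) ≃
          ↥(Submodule.torsionBy ℤ (JZero p) ((ℓ : ℤ) ^ k)),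
        (∀ f g, e (f * g) = e f + e g) ∧
        ∀ (σ : AlgebraicClosure ℚ ≃ₐ[ℚ] AlgebraicClosure ℚ)
          (f g : WithConv (H →ₐ[GaloisRep.ratLocalizedAt ℓ] AlgebraicClosure ℚ)),
          (∀ h : H, g h = σ (f h)) → ((e g : JZero p)) = σ • (e f : JZero p) := by
  have hl : ℓ.Prime := Fact.out
  obtain ⟨A, hA⟩ := Arith.exists_liesOverPrime hl
  rw [← Nat.cast_pow]
  let := torsionAction p (ℓ ^ k)
  have : Finite (Submodule.torsionBy ℤ (JZero p) ((ℓ ^ k : ℕ) : ℤ)) :=
    finite_torsionBy (pow_pos hl.pos k)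
  obtain ⟨O, -⟩ := exists_galOrder_of_finite hl hℓp hA
    (Submodule.torsionBy ℤ (JZero p) ((ℓ ^ k : ℕ) : ℤ)).subtype.toAddMonoidHom
    Subtype.val_injective fun g x => rfl
  obtain ⟨H, i₁, i₂, h1, h2, h3, e, he, hgal⟩ := O.exists_hopfAlgebra
  exact ⟨H, i₁, i₂, h1, h2, h3, e, he, fun σ f g hfg => congrArg Subtype.val (hgal σ f g hfg)⟩

/-- The order property used in the Eisenstein descent. -/
theorem orderProperty (N : ℕ) [NeZero N] : Mazur.Eisenstein.OrderProperty N := by
  intro r hr hrN A hA m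
  let := torsionAction N (r ^ m)
  have : Finite (Submodule.torsionBy ℤ (JZero N) ((r ^ m : ℕ) : ℤ)) :=
    finite_torsionBy (pow_pos hr.pos m)
  obtain ⟨O, hO⟩ := exists_galOrder_of_finite hr hrN hA
    (Submodule.torsionBy ℤ (JZero N) ((r ^ m : ℕ) : ℤ)).subtype.toAddMonoidHom
    Subtype.val_injective fun g x => rfl
  refine ⟨_, inferInstance, inferInstance, inferInstance,
    (Submodule.torsionBy ℤ (JZero N) ((r ^ m : ℕ) : ℤ)).subtype.toAddMonoidHom, O,
    Subtype.val_injective, fun g x => rfl, fun x hx => ?_, fun f hf x hx => ?_⟩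
  · refine ⟨⟨x, (Submodule.mem_torsionBy_iff _ _).mpr ?_⟩, rfl⟩
    rw [natCast_zsmul]
    exact hx
  · refine hO f hf x 0 ?_
    rw [hx, map_zero, map_zero]

end Fermat.Agent.FiniteFlat
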